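import Fermat.Agent.Deform.Matrix

/-!
# Lines cut out by a functional `(x, 1)`

For a two by two matrix acting on columns, `FixesLine x T` says that the functional `(x, 1)`
kills `T - 1`, `StableLine x F` that it is an eigenvector of `F`, of eigenvalue `lineVal x F`.
-/

set_option autoImplicit false

noncomputable section

namespace Fermat.Agent.TwoAdic.Deform

open Fermat.Agent.Deform

variable {A B : Type} [CommRing A] [CommRing B]

/-- The functional `(x, 1)` kills `T - 1`. -/
def FixesLine (x : A) (T : M2 A) : Prop :=
  x * (T 0 0 - 1) + T 1 0 = 0 ∧ x * T 0 1 + (T 1 1 - 1) = 0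

/-- The functional `(x, 1)` is an eigenvector of `F`. -/
def StableLine (x : A) (F : M2 A) : Prop :=
  x * F 0 0 + F 1 0 = (x * F 0 1 + F 1 1) * x

/-- The eigenvalue of `F` on the functional `(x, 1)`. -/
def lineVal (x : A) (F : M2 A) : A :=
  x * F 0 1 + F 1 1

theorem FixesLine.stableLine {x : A} {T : M2 A} (h : FixesLine x T) : StableLine x T := by
  obtain ⟨h1, h2⟩ := h
  unfold StableLine
  linear_combination h1 - x * h2

theorem FixesLine.lineVal_eq {x : A} {T : M2 A} (h : FixesLine x T) : lineVal x T = 1 := by
  unfold lineVal
  linear_combination h.2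

theorem StableLine.fixesLine {x : A} {T : M2 A} (h : StableLine x T) (h1 : lineVal x T = 1) :
    FixesLine x T := by
  unfold StableLine at h
  unfold lineVal at h1
  constructor
  · linear_combination h + x * h1
  · linear_combination h1

theorem fixesLine_one (x : A) : FixesLine x (1 : M2 A) := by
  simp [FixesLine]

theorem StableLine.mul {x : A} {F G : M2 A} (hF : StableLine x F) (hG : StableLine x G) :
    StableLine x (F * G) ∧ lineVal x (F * G) = lineVal x F * lineVal x G := by
  unfold StableLine lineVal at *
  simp only [Matrix.mul_apply, Fin.sum_univ_two]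
  constructor
  · linear_combination (G 0 0 - x * G 0 1) * hF + (x * F 0 1 + F 1 1) * hG
  · linear_combination G 0 1 * hF

theorem FixesLine.mul {x : A} {F G : M2 A} (hF : FixesLine x F) (hG : FixesLine x G) :
    FixesLine x (F * G) :=
  (hF.stableLine.mul hG.stableLine).1.fixesLine
    (by rw [(hF.stableLine.mul hG.stableLine).2, hF.lineVal_eq, hG.lineVal_eq, one_mul])

theorem FixesLine.map {x : A} {T : M2 A} (h : FixesLine x T) (f : A →+* B) :
    FixesLine (f x) (f.mapMatrix T) := by
  constructor
  · have := congrArg f h.1; simpa using this
  · have := congrArg f h.2; simpa using this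

theorem StableLine.map {x : A} {F : M2 A} (h : StableLine x F) (f : A →+* B) :
    StableLine (f x) (f.mapMatrix F) := by
  have := congrArg f h; simpa [StableLine] using this

theorem lineVal_map (x : A) (F : M2 A) (f : A →+* B) :
    lineVal (f x) (f.mapMatrix F) = f (lineVal x F) := by
  simp [lineVal]

theorem FixesLine.of_map {x : A} {T : M2 A} {f : A →+* B} (hf : Function.Injective f)
    (h : FixesLine (f x) (f.mapMatrix T)) : FixesLine x T := by
  constructor
  · exact hf (by simpa using h.1)
  · exact hf (by simpa using h.2)

theorem StableLine.of_map {x : A} {F : M2 A} {f : A →+* B} (hf : Function.Injective f)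
    (h : StableLine (f x) (f.mapMatrix F)) : StableLine x F :=
  hf (by simpa [StableLine] using h)

/-- The position of the line fixed by a matrix congruent to a nontrivial upper unipotent. -/
theorem FixesLine.eq_of_isUnit {x y : A} {T : M2 A} (hu : IsUnit (T 0 1)) (hx : FixesLine x T)
    (hy : FixesLine y T) : x = y := by
  refine sub_eq_zero.mp (hu.mul_left_eq_zero.mp ?_)
  linear_combination hx.2 - hy.2

end Fermat.Agent.TwoAdic.Deform
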