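import Fermat.Agent.Deform.Basic
import Fermat.Agent.Arith.Places
import Fermat.Prelude.Def_GaloisRep_LocalConditions
import Fermat.Agent.TwoAdic.Deform.Line

/-!
# Deformation conditions of the 2-adic minimal `R = T`

`Setting` records the residual representation (image `GL₂(F₂)`, basis adapted at a place over
`2`); `Level` an auxiliary set `Q` with the subgroup on which the determinant is cyclotomic;
`Aux` places, elements and bases at the auxiliary primes. `IsLift` is the deformation condition,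
`IsSigned` the condition `α₂ = a √χ(2)`, `IsEigen` the auxiliary functional conditions.
-/

set_option autoImplicit false

noncomputable section

namespace Fermat.Agent.TwoAdic.Deform

open IsLocalRing Fermat.Agent.Deform Fermat.Agent.Arith

/-- The nontrivial upper unipotent matrix. -/
def upperU (A : Type) [CommRing A] : M2 A := !![1, 1; 0, 1]

/-- The residual data. -/
structure Setting (O : Type) [CommRing O] [IsLocalRing O] where
  /-- Residual matrices and normalisation. -/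
  W : Rigid O
  two_eq_zero : (2 : ResidueField O) = 0
  det_rb : ∀ σ, (W.rb σ).det = 1
  rb_finiteLevel : GaloisFactorsThroughFiniteLevel W.rb
  /-- The odd primes where the residual representation ramifies. -/
  T : Finset ℕ
  prime_of_mem : ∀ q ∈ T, q.Prime
  two_notMem : 2 ∉ T
  rb_unramified : ∀ q : ℕ, q.Prime → q ≠ 2 → q ∉ T →
    ∀ P : ValuationSubring QBar, P.LiesOverPrime q → ∀ σ ∈ P.inertiaSubgroupIn ℚ, W.rb σ = 1
  rb_trace_inertia : ∀ q ∈ T, ∀ P : ValuationSubring QBar, P.LiesOverPrime q →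
    ∀ σ ∈ P.inertiaSubgroupIn ℚ, (W.rb σ).trace = 0
  /-- A place over `2`. -/
  P2 : ValuationSubring QBar
  P2_over : P2.LiesOverPrime 2
  /-- An inertia element acting nontrivially. -/
  σ2 : Gal
  σ2_mem : σ2 ∈ P2.inertiaSubgroupIn ℚ
  rb_σ2 : W.rb σ2 = upperU (ResidueField O)
  rb_decomp : ∀ σ ∈ P2.decompositionSubgroup ℚ, W.rb σ = 1 ∨ W.rb σ = upperU (ResidueField O)
  /-- A Frobenius at `2` fixing the `2`-power roots of unity. -/
  φ2 : Gal
  φ2_frob : P2.IsFrobeniusAt φ2 2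
  φ2_roots : ∀ (n : ℕ) (μ : QBar), μ ^ 2 ^ n = 1 → φ2 μ = μ
  /-- The class at `2` is tres ramifiee: the discriminant. -/
  disc : ℚ
  sqrtDisc : QBar
  sqrtDisc_sq : sqrtDisc ^ 2 = algebraMap ℚ QBar disc
  disc_odd : Odd (padicValRat 2 disc)
  rb_inertia2_iff : ∀ σ ∈ P2.inertiaSubgroupIn ℚ, W.rb σ = 1 ↔ σ sqrtDisc = sqrtDisc

variable {O : Type} [CommRing O] [IsLocalRing O]

/-- An auxiliary level. -/
structure Level (S : Setting O) where
  /-- The auxiliary primes. -/
  Q : Finset ℕ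
  prime_of_mem : ∀ q ∈ Q, q.Prime
  ne_two : ∀ q ∈ Q, q ≠ 2
  notMem_T : ∀ q ∈ Q, q ∉ S.T
  /-- The kernel of the map to the group of diamonds. -/
  H : Subgroup Gal
  inertia_le : ∀ q : ℕ, q.Prime → q ∉ Q → ∀ P : ValuationSubring QBar, P.LiesOverPrime q →
    P.inertiaSubgroupIn ℚ ≤ H
  /-- An element whose image is a square root of the image of `2`. -/
  root2 : Gal
  root2_roots : ∀ (n : ℕ) (μ : QBar), μ ^ 2 ^ n = 1 → root2 μ = μ
  root2_sq : root2 * root2 * S.φ2⁻¹ ∈ H

/-- No auxiliary primes. -/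
def Level.base (S : Setting O) : Level S where
  Q := ∅
  prime_of_mem := by simp
  ne_two := by simp
  notMem_T := by simp
  H := ⊤
  inertia_le := fun _ _ _ _ _ => le_top
  root2 := 1
  root2_roots := fun _ _ _ => rfl
  root2_sq := Subgroup.mem_top _

variable (S : Setting O) {A : Type} [CommRing A]

/-- The line with unramified quotient at `2`. -/
def TwoLine (r : Gal →* M2 A) (x : A) : Prop :=
  (∀ σ ∈ S.P2.inertiaSubgroupIn ℚ, FixesLine x (r σ)) ∧
    ∀ σ ∈ S.P2.decompositionSubgroup ℚ, StableLine x (r σ)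

/-- The deformation condition of a level. -/
structure IsLift (Lv : Level S) (r : Gal →* M2 A) : Prop where
  det : ∀ σ ∈ Lv.H, ∀ n a : ℕ, (∀ μ : QBar, μ ^ 2 ^ n = 1 → σ μ = μ ^ a) →
    (r σ).det - (a : A) ∈ Ideal.span {((2 ^ n : ℕ) : A)}
  unramified : ∀ q : ℕ, q.Prime → q ≠ 2 → q ∉ S.T → q ∉ Lv.Q →
    ∀ P : ValuationSubring QBar, P.LiesOverPrime q → ∀ σ ∈ P.inertiaSubgroupIn ℚ, r σ = 1
  steinberg : ∀ q ∈ S.T, ∀ P : ValuationSubring QBar, P.LiesOverPrime q →
    ∀ σ ∈ P.inertiaSubgroupIn ℚ, (r σ).trace = 2 ∧ (r σ).det = 1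
  qdet : ∀ q ∈ Lv.Q, ∀ P : ValuationSubring QBar, P.LiesOverPrime q →
    ∀ σ ∈ P.inertiaSubgroupIn ℚ, (r σ - 1).det = 0
  two : ∃ x : A, TwoLine S r x

/-- The condition `α₂ = a √χ(2)`. -/
def IsSigned (Lv : Level S) (a : A) (r : Gal →* M2 A) : Prop :=
  ∃ x : A, TwoLine S r x ∧ lineVal x (r S.φ2) = a * (r Lv.root2).det

/-- The residual representation in another basis. -/
def residualAt (g : (M2 O)ˣ) : Gal →* M2 (ResidueField O) :=
  conjM (Units.map (algebraMap O (ResidueField O)).mapMatrix.toMonoidHom g) S.W.rb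

/-- Places, elements and bases at the auxiliary primes. The basis `g i` selects the residual
eigenvalue `(1, 1)` entry. -/
structure Aux (Lv : Level S) where
  ι : Type
  [instFintype : Fintype ι]
  [instDecidableEq : DecidableEq ι]
  q : ι → ℕ
  q_mem : ∀ i, q i ∈ Lv.Q
  q_injective : Function.Injective q
  q_surj : ∀ v ∈ Lv.Q, ∃ i, q i = v
  P : ι → ValuationSubring QBar
  P_over : ∀ i, (P i).LiesOverPrime (q i)
  φ : ι → Gal
  φ_frob : ∀ i, (P i).IsFrobeniusAt (φ i) (q i)
  τ : ι → Gal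
  τ_mem : ∀ i, τ i ∈ (P i).inertiaSubgroupIn ℚ
  τ_gen : ∀ i, ∃ y : QBar, y ^ 2 = (q i : QBar) ∧ τ i y ≠ y
  g : ι → (M2 O)ˣ
  isU : ι → Bool
  rb_lower : ∀ i, residualAt S (g i) (φ i) 1 0 = 0
  rb_upper : ∀ i, residualAt S (g i) (φ i) 0 1 ≠ 0
  rb_diag : ∀ i, residualAt S (g i) (φ i) 0 0 = residualAt S (g i) (φ i) 1 1 ↔ isU i = true

attribute [instance] Aux.instFintype Aux.instDecidableEq

variable {S} {Lv : Level S} [Algebra O A]

/-- The basis change at an auxiliary prime in a coefficient algebra. -/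
def Aux.basis (D : Aux S Lv) (i : D.ι) (R : Type) [CommRing R] [Algebra O R] : (M2 R)ˣ :=
  Units.map (algebraMap O R).mapMatrix.toMonoidHom (D.g i)

/-- A representation in the basis at an auxiliary prime. -/
def Aux.loc (D : Aux S Lv) (i : D.ι) (r : Gal →* M2 A) : Gal →* M2 A :=
  conjM (D.basis i A) r

/-- The auxiliary functionals. -/
def IsEigen (D : Aux S Lv) (r : Gal →* M2 A) (x : D.ι → A) : Prop :=
  ∀ i, StableLine (x i) (D.loc i r (D.φ i)) ∧ FixesLine (x i) (D.loc i r (D.τ i))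

end Fermat.Agent.TwoAdic.Deform
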