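import Fermat.Agent.TwoAdic.Deform.Tres
import Fermat.Agent.TwoAdic.Deform.Setting
import Mathlib.RingTheory.Filtration

/-!
# The forced value of the unramified character at `2`

For a lift of a tres ramifiee residual representation with a line at `2`, the square of the
Frobenius value of the unramified quotient is the determinant of Frobenius.
-/

set_option autoImplicit false
set_option linter.style.haveILetI false

noncomputable section

namespace Fermat.Agent.TwoAdic.Deform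

open IsLocalRing Fermat.Agent.Deform Fermat.Agent.Arith Fermat.Agent.CFT.Flat
open scoped Pointwise

theorem conj_mem_inertia_smul {P : ValuationSubring QBar} {h σ : GQ}
    (hσ : σ ∈ P.inertiaSubgroupIn ℚ) : h * σ * h⁻¹ ∈ (h • P).inertiaSubgroupIn ℚ :=
  mem_inertia_smul_iff.mpr hσ

theorem conj_mem_decomposition_smul {P : ValuationSubring QBar} {h σ : GQ}
    (hσ : σ ∈ P.decompositionSubgroup ℚ) : h * σ * h⁻¹ ∈ (h • P).decompositionSubgroup ℚ := by
  refine MulAction.mem_stabilizer_iff.mpr ?_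
  rw [← mul_smul, inv_mul_cancel_right, mul_smul, MulAction.mem_stabilizer_iff.mp hσ]

theorem nrm_sq_of_sqrt {d : ℚ} (hd : Odd (padicValRat 2 d)) {δ : QBar}
    (hδ : δ ^ 2 = algebraMap ℚ QBar d) :
    nrm 2 δ ^ 2 = ((2 : ℝ)⁻¹) ^ padicValRat 2 d := by
  have hd0 : d ≠ 0 := by
    rintro rfl
    simp at hd
  rw [← nrm_pow, hδ, nrm]
  have : padicEmbedding 2 (algebraMap ℚ QBar d) =
      algebraMap ℚ_[2] (PadicAlgCl 2) (d : ℚ_[2]) := by
    rw [eq_ratCast, map_ratCast, map_ratCast]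
  rw [this, norm_algebraMap', Padic.eq_padicNorm, padicNorm.eq_zpow_of_nonzero hd0]
  push_cast
  rw [zpow_neg, inv_zpow]

variable {O : Type} [CommRing O] [IsLocalRing O] {S : Setting O} {Lv : Level S}
variable {A : Type} [CommRing A] [IsLocalRing A] [Algebra O A]

theorem two_mem_maximalIdeal (S : Setting O) (h : IsResAlg O A) :
    (2 : A) ∈ maximalIdeal A := by
  haveI := h.isLocalHom
  rw [← map_ofNat (algebraMap O A) 2]
  refine map_nonunit (algebraMap O A) 2 ?_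
  have h0 : IsLocalRing.residue O 2 = 0 := by rw [map_ofNat]; exact S.two_eq_zero
  exact (residue_eq_zero_iff _).mp h0

theorem two_notMem_Q (Lv : Level S) : 2 ∉ Lv.Q := fun h => Lv.ne_two 2 h rfl

theorem φ2_mem_decomposition (S : Setting O) : S.φ2 ∈ S.P2.decompositionSubgroup ℚ :=
  MulAction.mem_stabilizer_iff.mpr (isFrobeniusAt_iff_forall_mem.mp S.φ2_frob).1

variable {h : IsResAlg O A} {r : Gal →* M2 A} {x : A}

/-- The determinant is cyclotomic on inertia at `2`. -/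
def DetCycTwo (S : Setting O) (r : Gal →* M2 A) : Prop :=
  ∀ σ ∈ S.P2.inertiaSubgroupIn ℚ, ∀ n a : ℕ, (∀ μ : QBar, μ ^ 2 ^ n = 1 → σ μ = μ ^ a) →
    (r σ).det - (a : A) ∈ Ideal.span {((2 ^ n : ℕ) : A)}

omit [IsLocalRing A] [Algebra O A] in
theorem IsLift.detCycTwo {r : Gal →* M2 A} (hD : IsLift S Lv r) : DetCycTwo S r :=
  fun σ hσ => hD.det σ (Lv.inertia_le 2 Nat.prime_two (two_notMem_Q Lv) S.P2 S.P2_over hσ)

/-- The diagonal entries of a lift with a line agree at `φ2` modulo powers of the maximal ideal. -/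
theorem diag_sub_mem_pow (hr : IsCont r) (hL : Deform.Lifts S.W h r) (hD : DetCycTwo S r)
    (hx : TwoLine S r x) (K : ℕ) :
    (r S.φ2 0 0 - x * r S.φ2 0 1) - lineVal x (r S.φ2) ∈ maximalIdeal A ^ K := by
  have h2 := two_mem_maximalIdeal S h
  set I := maximalIdeal A ^ K with hI
  have h2K : (2 : A) ^ K ∈ I := Ideal.pow_mem_pow h2 K
  have hspan : Ideal.span {((2 ^ K : ℕ) : A)} ≤ I :=
    (Ideal.span_singleton_le_iff_mem _).mpr (by push_cast; exact h2K)
  obtain ⟨h₀, hh₀⟩ := exists_smul_eq (CFT.Local.padicPlace_liesOverPrime 2) S.P2_over Nat.prime_two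
  set τc : GQ →* GQ := (MulAut.conj h₀).toMonoidHom with hτc
  have hτ : ∀ σ, τc σ = h₀ * σ * h₀⁻¹ := fun σ => rfl
  have hdec : ∀ σ ∈ decG 2, τc σ ∈ S.P2.decompositionSubgroup ℚ := fun σ hσ => by
    rw [← hh₀, hτ]; exact conj_mem_decomposition_smul hσ
  have hin : ∀ σ ∈ inG 2, τc σ ∈ S.P2.inertiaSubgroupIn ℚ := fun σ hσ => by
    rw [← hh₀, hτ]; exact conj_mem_inertia_smul hσ
  have hstab : ∀ σ ∈ decG 2, StableLine x (r (τc σ)) := fun σ hσ => hx.2 _ (hdec σ hσ)
  have hfixl : ∀ σ ∈ inG 2, FixesLine x (r (τc σ)) := fun σ hσ => hx.1 _ (hin σ hσ)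
  have hdetr : ∀ σ ∈ decG 2, (r (τc σ)).det =
      (r (τc σ) 0 0 - x * r (τc σ) 0 1) * lineVal x (r (τc σ)) := fun σ hσ => by
    have := hstab σ hσ
    unfold StableLine at this
    rw [Matrix.det_fin_two, lineVal]
    linear_combination (-(r (τc σ) 0 1)) * this
  set δ := h₀⁻¹ S.sqrtDisc with hδdef
  have hδσ : ∀ σ : GQ, σ δ = δ ∨ σ δ = -δ := fun σ => by
    refine sq_eq_sq_iff_eq_or_eq_neg.mp ?_
    simp only [hδdef, ← map_pow, S.sqrtDisc_sq, AlgEquiv.commutes]
  have hδnrm : nrm 2 δ ^ 2 = ((2 : ℝ)⁻¹) ^ padicValRat 2 S.disc := by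
    refine nrm_sq_of_sqrt S.disc_odd ?_
    rw [hδdef, ← map_pow, S.sqrtDisc_sq, AlgEquiv.commutes]
  have hδ0 : δ ≠ 0 := fun h0 => by
    rw [h0, nrm_zero, zero_pow two_ne_zero] at hδnrm
    exact (zpow_pos (inv_pos.mpr two_pos) _).ne hδnrm
  have hres : ∀ τ ∈ inG 2, (τ δ = δ → r (τc τ) 0 1 ∈ maximalIdeal A) ∧
      (τ δ = -δ → r (τc τ) 0 1 - 1 ∈ maximalIdeal A) := by
    intro τ hτI
    have key : τc τ S.sqrtDisc = h₀ (τ δ) := rfl
    have hback : h₀ δ = S.sqrtDisc := h₀.apply_symm_apply S.sqrtDisc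
    refine ⟨fun hfix => ?_, fun hneg => ?_⟩
    · have h1 : S.W.rb (τc τ) = 1 :=
        (S.rb_inertia2_iff _ (hin τ hτI)).mpr (by rw [key, hfix, hback])
      rw [← augment_eq_zero_iff h, hL (τc τ) 0 1, h1]
      rfl
    · have h1 : S.W.rb (τc τ) ≠ 1 := fun h1 => by
        have h3 := (S.rb_inertia2_iff _ (hin τ hτI)).mp h1
        rw [key, hneg, map_neg, hback, neg_eq_iff_add_eq_zero, ← two_mul] at h3
        refine hδ0 (h₀.injective ?_)
        rw [hback, map_zero]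
        exact (mul_eq_zero.mp h3).resolve_left two_ne_zero
      have h4 := (S.rb_decomp _ (hdec τ (inG_le_decG 2 hτI))).resolve_left h1
      rw [← augment_eq_zero_iff h, map_sub, map_one, hL (τc τ) 0 1, h4]
      simp [upperU]
  obtain ⟨g, hg⟩ : ∃ g, τc g = S.φ2 := ⟨h₀⁻¹ * S.φ2 * h₀, by rw [hτ]; group⟩
  have hgD : g ∈ decG 2 := by
    have hge : g = h₀⁻¹ * S.φ2 * h₀ := by rw [← hg, hτ]; group
    have hb : h₀⁻¹ • S.P2 = padicPlace 2 := by rw [← hh₀, inv_smul_smul]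
    rw [hge]
    show _ ∈ (padicPlace 2).decompositionSubgroup ℚ
    rw [← hb]
    have := conj_mem_decomposition_smul (h := h₀⁻¹) (φ2_mem_decomposition S)
    rwa [inv_inv] at this
  have hgroot : ∀ μ : QBar, μ ^ 2 ^ K = 1 → g μ = μ ^ 1 := fun μ hμ => by
    have h1 : S.φ2 (h₀ μ) = h₀ μ := S.φ2_roots K (h₀ μ) (by rw [← map_pow, hμ, map_one])
    have hge : g = h₀⁻¹ * S.φ2 * h₀ := by rw [← hg, hτ]; group
    rw [pow_one, hge, AlgEquiv.mul_apply, AlgEquiv.mul_apply, h1]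
    exact h₀.symm_apply_apply μ
  obtain ⟨L, hL', hLc⟩ := hr K
  haveI := hL'
  have key := sub_mul_mem_of_tres h2 I h2K
    (fun σ => r (τc σ) 0 0 - x * r (τc σ) 0 1) (fun σ => r (τc σ) 0 1)
    (fun σ => lineVal x (r (τc σ)))
    (fun σ hσ => by
      have h1 : IsUnit (r (τc σ)).det :=
        (Matrix.isUnit_iff_isUnit_det _).mp (IsUnit.map r (Group.isUnit (τc σ)))
      rw [hdetr σ hσ] at h1
      exact isUnit_of_mul_isUnit_right h1)
    (fun s hs t ht => by
      rw [map_mul τc, map_mul r]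
      simp only [lineVal, Matrix.mul_apply, Fin.sum_univ_two]
      ring)
    (fun s hs t ht => by
      rw [map_mul τc, map_mul r]
      exact ((hstab s hs).mul (hstab t ht)).2)
    (fun τ hτI => by
      refine ⟨by rw [(hfixl τ hτI).lineVal_eq, sub_self]; exact zero_mem _, fun j hj => ?_⟩
      have h1 := hspan (hD (τc τ) (hin τ hτI) K j fun μ hμ => by
          show h₀ (τ (h₀⁻¹ μ)) = μ ^ j
          rw [hj _ (by rw [← map_pow, hμ, map_one]), map_pow]
          exact congrArg (· ^ j) (h₀.apply_symm_apply μ))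
      rwa [hdetr τ (inG_le_decG 2 hτI), (hfixl τ hτI).lineVal_eq, mul_one] at h1)
    (by
      refine ⟨L.map (h₀⁻¹ : GQ).toAlgHom, inferInstance, fun σ hσ hfix => ?_⟩
      have h1 := hLc (τc σ) (fun y hy => ?_) 0 1
      · simpa using h1
      · show h₀ (σ (h₀⁻¹ y)) = y
        rw [hfix (h₀⁻¹ y) ⟨y, hy, rfl⟩]
        exact h₀.apply_symm_apply y)
    δ S.disc_odd hδnrm (fun σ _ => hδσ σ) hres hgD hgroot
  simpa [hg] using key

/-- **The forced identity**: `α₂² = det φ2`, with no auxiliary level. -/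
theorem lineVal_sq_eq_det_of_detCycTwo [IsNoetherianRing A] (hr : IsCont r)
    (hL : Deform.Lifts S.W h r) (hD : DetCycTwo S r) (hx : TwoLine S r x) :
    lineVal x (r S.φ2) ^ 2 = (r S.φ2).det := by
  have h0 : (r S.φ2 0 0 - x * r S.φ2 0 1) - lineVal x (r S.φ2) = 0 := by
    have := (diag_sub_mem_pow hr hL hD hx)
    rw [← Ideal.mem_bot, ← Ideal.iInf_pow_eq_bot_of_isLocalRing (maximalIdeal A)
      (IsLocalRing.maximalIdeal.isMaximal A).ne_top]
    exact Submodule.mem_iInf _ |>.mpr this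
  have h1 := hx.2 _ (φ2_mem_decomposition S)
  unfold StableLine at h1
  simp only [lineVal] at h0 ⊢
  rw [Matrix.det_fin_two]
  linear_combination (r S.φ2 0 1) * h1 - (x * r S.φ2 0 1 + r S.φ2 1 1) * h0

/-- **The forced identity**: `α₂² = det φ2`. -/
theorem lineVal_sq_eq_det [IsNoetherianRing A] (hr : IsCont r) (hL : Deform.Lifts S.W h r)
    (hD : IsLift S Lv r) (hx : TwoLine S r x) :
    lineVal x (r S.φ2) ^ 2 = (r S.φ2).det :=
  lineVal_sq_eq_det_of_detCycTwo hr hL hD.detCycTwo hx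

/-- A determinant equal to the cyclotomic character times `c`, `c` trivial on inertia at `2`,
gives `α₂² = c φ2`. -/
theorem lineVal_sq_eq_of_congr [IsNoetherianRing A] (hr : IsCont r) (hL : Deform.Lifts S.W h r)
    (hx : TwoLine S r x) (c : Gal → A) (hc : ∀ σ ∈ S.P2.inertiaSubgroupIn ℚ, c σ = 1)
    (hdet : ∀ (n : ℕ) (σ : Gal) (a : ℕ), (∀ μ : QBar, μ ^ 2 ^ n = 1 → σ μ = μ ^ a) →
      (r σ).det - c σ * a ∈ Ideal.span {(2 : A) ^ n}) :
    lineVal x (r S.φ2) ^ 2 = c S.φ2 := by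
  rw [lineVal_sq_eq_det_of_detCycTwo hr hL (fun σ hσ n a hn => by
    have := hdet n σ a hn
    rwa [hc σ hσ, one_mul, ← Nat.cast_ofNat, ← Nat.cast_pow] at this) hx]
  rw [← sub_eq_zero, ← Ideal.mem_bot, ← Ideal.iInf_pow_eq_bot_of_isLocalRing (maximalIdeal A)
    (IsLocalRing.maximalIdeal.isMaximal A).ne_top]
  refine Submodule.mem_iInf _ |>.mpr fun K => ?_
  have := hdet K S.φ2 1 fun μ hμ => by rw [pow_one]; exact S.φ2_roots K μ hμ
  rw [Nat.cast_one, mul_one] at this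
  exact (Ideal.span_singleton_le_iff_mem _).mpr
    (Ideal.pow_mem_pow (two_mem_maximalIdeal S h) K) this

/-- The determinant of Frobenius at `2` is the square of that of `root2`. -/
theorem det_φ2_eq [IsNoetherianRing A] (h : IsResAlg O A) (hD : IsLift S Lv r) :
    (r S.φ2).det = (r Lv.root2).det ^ 2 := by
  set t := Lv.root2 * Lv.root2 * S.φ2⁻¹
  have hfix : ∀ (n : ℕ) (μ : QBar), μ ^ 2 ^ n = 1 → t μ = μ ^ 1 := fun n μ hμ => by
    have h2 : S.φ2⁻¹ μ = μ := by
      conv_lhs => rw [← S.φ2_roots n μ hμ]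
      exact S.φ2.symm_apply_apply μ
    rw [pow_one, AlgEquiv.mul_apply, AlgEquiv.mul_apply, h2, Lv.root2_roots n μ hμ,
      Lv.root2_roots n μ hμ]
  have h1 : (r t).det = 1 := by
    rw [← sub_eq_zero, ← Ideal.mem_bot, ← Ideal.iInf_pow_eq_bot_of_isLocalRing (maximalIdeal A)
      (IsLocalRing.maximalIdeal.isMaximal A).ne_top]
    refine Submodule.mem_iInf _ |>.mpr fun K => ?_
    have := hD.det t Lv.root2_sq K 1 (hfix K)
    rw [Nat.cast_one] at this
    refine (Ideal.span_singleton_le_iff_mem _).mpr ?_ this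
    push_cast
    exact Ideal.pow_mem_pow (two_mem_maximalIdeal S h) K
  have h2 : t * S.φ2 = Lv.root2 * Lv.root2 := inv_mul_cancel_right _ _
  calc (r S.φ2).det = (r t).det * (r S.φ2).det := by rw [h1, one_mul]
    _ = (r Lv.root2).det ^ 2 := by
      rw [← Matrix.det_mul, ← map_mul, h2, map_mul, Matrix.det_mul, sq]

/-- `α₂² = χ(2)`, as the square of the determinant of `root2`. -/
theorem lineVal_sq_eq [IsNoetherianRing A] (hr : IsCont r) (hL : Deform.Lifts S.W h r)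
    (hD : IsLift S Lv r) (hx : TwoLine S r x) :
    lineVal x (r S.φ2) ^ 2 = (r Lv.root2).det ^ 2 :=
  (lineVal_sq_eq_det hr hL hD hx).trans (det_φ2_eq h hD)

end Fermat.Agent.TwoAdic.Deform
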