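import Fermat.Agent.Deform.Basic
import Fermat.Agent.GaloisReps.CoeffExt

/-!
# Finite algebras over a complete coefficient algebra

A finite algebra whose kernel of augmentation is nilpotent modulo the maximal ideal of the base is
again a complete coefficient algebra; so is a finite domain generated by roots of monic polynomials
whose reductions split.
-/

set_option autoImplicit false
set_option linter.style.haveILetI false

noncomputable section

namespace Fermat.Agent.TwoAdic.Deform

open IsLocalRing Fermat.Agent.Deform

variable {R : Type} [CommRing R] [IsLocalRing R]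
variable {B : Type} [CommRing B] [Algebra R B]

theorem residual_surjective (χ : B →ₐ[R] ResidueField R) : Function.Surjective χ := fun z => by
  obtain ⟨x, rfl⟩ := residue_surjective z
  exact ⟨algebraMap R B x, AlgHom.commutes χ x⟩

/-- An algebra whose augmentation kernel is nilpotent modulo the maximal ideal is local. -/
theorem isLocalRing_of_residual [Module.Finite R B] (χ : B →ₐ[R] ResidueField R)
    (hnil : ∀ x, χ x = 0 → x ∈ ((maximalIdeal R).map (algebraMap R B)).radical) :
    IsLocalRing B := by
  have hmax : (RingHom.ker χ).IsMaximal :=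
    RingHom.ker_isMaximal_of_surjective _ (residual_surjective χ)
  refine IsLocalRing.of_unique_max_ideal ⟨_, hmax, fun Q hQ => ?_⟩
  have hQm : Q.comap (algebraMap R B) = maximalIdeal R :=
    haveI := hQ
    IsLocalRing.eq_maximalIdeal (Ideal.isMaximal_comap_of_isIntegral_of_isMaximal Q)
  refine (hmax.eq_of_le hQ.ne_top fun x hx => ?_).symm
  exact hQ.isPrime.radical_le_iff.mpr (Ideal.map_le_iff_le_comap.mpr hQm.ge) (hnil x hx)

theorem isLocalHom_algebraMap_of_residual [IsLocalRing B] (χ : B →ₐ[R] ResidueField R) :
    IsLocalHom (algebraMap R B) := ⟨fun a ha => by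
  have h := ha.map χ
  rw [AlgHom.commutes, ResidueField.algebraMap_eq] at h
  rw [← residue_ne_zero_iff_isUnit]
  exact h.ne_zero⟩

variable {O : Type} [CommRing O] [IsLocalRing O] [Algebra O R] [Algebra O B] [IsScalarTower O R B]

theorem isResAlg_of_residual [IsLocalRing B] (hR : IsResAlg O R) (χ : B →ₐ[R] ResidueField R) :
    IsResAlg O B := by
  haveI := hR.isLocalHom
  haveI := isLocalHom_algebraMap_of_residual χ
  have hker : RingHom.ker χ = maximalIdeal B :=
    IsLocalRing.eq_maximalIdeal (RingHom.ker_isMaximal_of_surjective _ (residual_surjective χ))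
  refine ⟨⟨fun o ho => ?_⟩, fun z => ?_⟩
  · rw [IsScalarTower.algebraMap_apply O R B] at ho
    exact (isUnit_map_iff (algebraMap O R) o).mp ((isUnit_map_iff (algebraMap R B) _).mp ho)
  · obtain ⟨x, rfl⟩ := residue_surjective z
    obtain ⟨o, ho⟩ := hR.residue_surjective (χ x)
    refine ⟨o, ?_⟩
    show residue B (algebraMap O B o) = residue B x
    rw [← sub_eq_zero, ← map_sub, residue_eq_zero_iff, ← hker, RingHom.mem_ker, map_sub,
      IsScalarTower.algebraMap_apply O R B, AlgHom.commutes, ResidueField.algebraMap_eq, sub_eq_zero]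
    exact ho

theorem augment_of_residual [IsLocalRing B] (hR : IsResAlg O R) (χ : B →ₐ[R] ResidueField R)
    (hB : IsResAlg O B) (x : B) :
    haveI := hR.isLocalHom
    ResidueField.map (algebraMap O R) (augment hB x) = χ x := by
  haveI := hR.isLocalHom
  obtain ⟨o, ho⟩ := exists_sub_mem hB x
  have hker : RingHom.ker χ = maximalIdeal B :=
    IsLocalRing.eq_maximalIdeal (RingHom.ker_isMaximal_of_surjective _ (residual_surjective χ))
  have h1 := (augment_eq_zero_iff hB _).mpr ho
  have h2 : χ (x - algebraMap O B o) = 0 := by rw [← RingHom.mem_ker, hker]; exact ho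
  rw [map_sub, sub_eq_zero, AlgHom.commutes] at h1
  rw [map_sub, sub_eq_zero, IsScalarTower.algebraMap_apply O R B, AlgHom.commutes] at h2
  rw [h1, h2, ResidueField.algebraMap_eq, ResidueField.algebraMap_eq, ResidueField.map_residue]

variable [IsNoetherianRing R] [IsAdicComplete (maximalIdeal R) R]

/-- A domain finite over a complete coefficient algebra, generated by roots of monic polynomials
whose reductions split, is a complete coefficient algebra. -/
theorem isResAlg_of_splits [IsDomain B] [Module.Finite R B]
    (hinj : Function.Injective (algebraMap R B)) (hR : IsResAlg O R) {ι : Type} (a : ι → B)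
    (hgen : Algebra.adjoin R (Set.range a) = ⊤) (P : ι → Polynomial R) (hP : ∀ i, (P i).Monic)
    (hsplit : ∀ i, ((P i).map (residue R)).Splits)
    (hroot : ∀ i, Polynomial.aeval (a i) (P i) = 0) :
    ∃ (_ : IsLocalRing B) (_ : IsResAlg O B),
      IsLocalHom (algebraMap R B) ∧ IsNoetherianRing B ∧
        IsAdicComplete (maximalIdeal B) B := by
  haveI hloc : IsLocalRing B := GaloisReps.isLocalRing_of_finite_domain R B
  haveI hhom : IsLocalHom (algebraMap R B) :=
    RingHom.IsIntegral.isLocalHom (algebraMap_isIntegral_iff.mpr inferInstance) hinj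
  haveI := hR.isLocalHom
  let f : ResidueField R →+* ResidueField B := ResidueField.map (algebraMap R B)
  have hmem : ∀ i, residue B (a i) ∈ f.range := fun i => by
    have h0 : ((P i).map (residue R)).eval₂ f (residue B (a i)) = 0 := by
      rw [Polynomial.eval₂_map, ResidueField.map_comp_residue, ← Polynomial.hom_eval₂,
        ← Polynomial.aeval_def, hroot, map_zero]
    exact (hsplit i).mem_range_of_isRoot ((hP i).map _).ne_zero
      ((Polynomial.eval_map f _).trans h0)
  refine ⟨hloc, ⟨⟨fun o ho => ?_⟩, fun z => ?_⟩, hhom, IsNoetherianRing.of_finite R B,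
    IsLocalRing.isAdicComplete_of_module_finite (𝒪 := R)⟩
  · rw [IsScalarTower.algebraMap_apply O R B] at ho
    exact (isUnit_map_iff (algebraMap O R) o).mp ((isUnit_map_iff (algebraMap R B) _).mp ho)
  · obtain ⟨x, rfl⟩ := residue_surjective z
    have hx : residue B x ∈ f.range := by
      have hx' : x ∈ Algebra.adjoin R (Set.range a) := hgen ▸ Algebra.mem_top
      induction hx' using Algebra.adjoin_induction with
      | mem y hy => obtain ⟨i, rfl⟩ := hy; exact hmem i
      | algebraMap r => exact ⟨residue R r, ResidueField.map_residue _ r⟩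
      | add y y' _ _ hy hy' => rw [map_add]; exact add_mem hy hy'
      | mul y y' _ _ hy hy' => rw [map_mul]; exact mul_mem hy hy'
    obtain ⟨y, hy⟩ := hx
    obtain ⟨o, ho⟩ := hR.residue_surjective y
    refine ⟨o, ?_⟩
    show residue B (algebraMap O B o) = residue B x
    rw [← hy, ← ho, IsScalarTower.algebraMap_apply O R B]
    exact (ResidueField.map_residue _ _).symm

/-- Integral elements of an algebraic closure whose equations split residually generate a complete
coefficient algebra. -/
theorem exists_isResAlg_adjoin {L : Type} [Field L] [Algebra R L] [Algebra O L]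
    [IsScalarTower O R L] (hinj : Function.Injective (algebraMap R L)) (hR : IsResAlg O R)
    {ι : Type} [Finite ι] (a : ι → L) (P : ι → Polynomial R) (hP : ∀ i, (P i).Monic)
    (hsplit : ∀ i, ((P i).map (residue R)).Splits)
    (hroot : ∀ i, Polynomial.aeval (a i) (P i) = 0) :
    ∃ (S : Subalgebra R L) (_ : IsLocalRing S) (_ : IsResAlg O S), (∀ i, a i ∈ S) ∧
      Module.Finite R S ∧ IsLocalHom (algebraMap R S) ∧ IsNoetherianRing S ∧
        IsAdicComplete (maximalIdeal S) S := by
  let S := Algebra.adjoin R (Set.range a)
  haveI : Module.Finite R S := Module.Finite.iff_fg.mpr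
    (fg_adjoin_of_finite (Set.finite_range a) fun x hx => by
      obtain ⟨i, rfl⟩ := hx
      exact ⟨P i, hP i, hroot i⟩)
  let a' : ι → S := fun i => ⟨a i, Algebra.subset_adjoin ⟨i, rfl⟩⟩
  obtain ⟨h1, h2, h3⟩ := isResAlg_of_splits (O := O) (B := S)
    (fun x y h => hinj (congrArg Subtype.val h)) hR a'
    (by
      refine eq_top_iff.mpr fun x _ => ?_
      have hx : (x : L) ∈ (Algebra.adjoin R (Set.range a')).map S.val := by
        rw [AlgHom.map_adjoin, ← Set.range_comp]
        exact x.2
      obtain ⟨y, hy, hyx⟩ := hx
      rwa [Subtype.ext hyx] at hy)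
    P hP hsplit fun i => Subtype.ext (by
      show S.val (Polynomial.aeval (a' i) (P i)) = 0
      rw [← Polynomial.aeval_algHom_apply]
      exact hroot i)
  exact ⟨S, h1, h2, fun i => (a' i).2, inferInstance, h3⟩

end Fermat.Agent.TwoAdic.Deform
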