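import Fermat.Agent.TwoAdic.Deform.Line
import Fermat.Agent.TwoAdic.Deform.FiniteLocal

/-!
# The auxiliary ring adjoining the positions of eigenlines

`EigenRing F T isU I` is the quotient of a polynomial ring by the equations saying that `(X i, 1)`
is an eigenvector of `F i` fixed by `T i`, by `X i - eigenRoot (F i)` where the residual
eigenvalues differ, and by `I`. It is a finite local algebra over the base.
-/

set_option autoImplicit false
set_option linter.style.haveILetI false

noncomputable section

namespace Fermat.Agent.TwoAdic.Deform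

open IsLocalRing Fermat.Agent.Deform

section Shift

variable {A B : Type} [CommRing A] [CommRing B]

/-- The change of basis moving the line `x` to `x + c`. -/
def shearU (c : A) : (M2 A)ˣ where
  val := !![1, 0; c, 1]
  inv := !![1, 0; -c, 1]
  val_inv := by simp [Matrix.one_fin_two]
  inv_val := by simp [Matrix.one_fin_two]

/-- A matrix in the sheared basis. -/
def shear (c : A) (F : M2 A) : M2 A :=
  !![F 0 0 + c * F 0 1, F 0 1;
    F 1 0 + c * (F 1 1 - F 0 0) - c ^ 2 * F 0 1, F 1 1 - c * F 0 1]

theorem shearU_inv_mul_mul (c : A) (F : M2 A) :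
    (↑(shearU c)⁻¹ : M2 A) * F * (shearU c : M2 A) = shear c F := by
  show !![1, 0; -c, 1] * F * !![1, 0; c, 1] = _
  ext i j
  fin_cases i <;> fin_cases j <;>
    simp [shear, Matrix.mul_apply, Matrix.vecMul, dotProduct, Fin.sum_univ_two] <;> ring

theorem shear_map (f : A →+* B) (c : A) (F : M2 A) :
    f.mapMatrix (shear c F) = shear (f c) (f.mapMatrix F) := by
  ext i j
  fin_cases i <;> fin_cases j <;> simp [shear]

theorem stableLine_shear_iff (x c : A) (F : M2 A) :
    StableLine (x + c) (shear c F) ↔ StableLine x F := by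
  simp only [StableLine, shear, Matrix.cons_val', Matrix.cons_val_zero, Matrix.cons_val_one,
    Matrix.empty_val', Matrix.cons_val_fin_one, Matrix.of_apply]
  constructor <;> intro h <;> linear_combination h

theorem lineVal_shear (x c : A) (F : M2 A) : lineVal (x + c) (shear c F) = lineVal x F := by
  simp only [lineVal, shear, Matrix.cons_val', Matrix.cons_val_zero, Matrix.cons_val_one,
    Matrix.empty_val', Matrix.cons_val_fin_one, Matrix.of_apply]
  ring

theorem fixesLine_shear_iff (x c : A) (T : M2 A) :
    FixesLine (x + c) (shear c T) ↔ FixesLine x T := by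
  simp only [FixesLine, shear, Matrix.cons_val', Matrix.cons_val_zero, Matrix.cons_val_one,
    Matrix.empty_val', Matrix.cons_val_fin_one, Matrix.of_apply]
  constructor <;> rintro ⟨h1, h2⟩
  · exact ⟨by linear_combination h1 - c * h2, by linear_combination h2⟩
  · exact ⟨by linear_combination h1 + c * h2, by linear_combination h2⟩

end Shift

section Field

variable {K : Type} [Field K]

/-- **Lifting of lines.** Commuting matrices over an algebraically closed field, the second with
eigenvalue `1`, have a common eigenline fixed by the second. -/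
theorem exists_line [IsAlgClosed K] {F T : M2 K} (hcomm : F * T = T * F) (hdet : (T - 1).det = 0)
    (h01 : F 0 1 ≠ 0) : ∃ x, StableLine x F ∧ FixesLine x T := by
  have e00 := congrFun (congrFun hcomm 0) 0
  have e01 := congrFun (congrFun hcomm 0) 1
  simp only [Matrix.mul_apply, Fin.sum_univ_two] at e00 e01
  simp only [Matrix.det_fin_two, Matrix.sub_apply, Matrix.one_apply_eq, ne_eq,
    Fin.reduceEq, not_false_eq_true, Matrix.one_apply_ne, sub_zero] at hdet
  by_cases hT : T 0 1 = 0
  · rw [hT] at e00 e01 hdet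
    have h00 : T 0 0 = T 1 1 :=
      (mul_right_cancel₀ h01 (show T 1 1 * F 0 1 = T 0 0 * F 0 1 by linear_combination e01)).symm
    have h1 : T 1 1 = 1 := by
      have : (T 1 1 - 1) ^ 2 = 0 := by rw [h00] at hdet; linear_combination hdet
      exact sub_eq_zero.mp ((pow_eq_zero_iff two_ne_zero).mp this)
    have h10 : T 1 0 = 0 := by
      have : F 0 1 * T 1 0 = 0 := by linear_combination e00
      exact (mul_eq_zero.mp this).resolve_left h01
    obtain ⟨x, hx⟩ := IsAlgClosed.exists_root
      (Polynomial.C (F 0 1) * Polynomial.X ^ 2 + Polynomial.C (F 1 1 - F 0 0) * Polynomial.X +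
        Polynomial.C (-F 1 0)) (by rw [Polynomial.degree_quadratic h01]; decide)
    simp only [Polynomial.IsRoot, Polynomial.eval_add, Polynomial.eval_mul, Polynomial.eval_C,
      Polynomial.eval_pow, Polynomial.eval_X] at hx
    refine ⟨x, ?_, ?_, ?_⟩
    · show x * F 0 0 + F 1 0 = (x * F 0 1 + F 1 1) * x
      linear_combination -hx
    · rw [h00, h1, h10]; ring
    · rw [hT, h1]; ring
  · obtain ⟨x, hx⟩ : ∃ x, x * T 0 1 + (T 1 1 - 1) = 0 :=
      ⟨-(T 1 1 - 1) / T 0 1, by field_simp; ring⟩
    have hfix : FixesLine x T :=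
      ⟨mul_right_cancel₀ hT (show (x * (T 0 0 - 1) + T 1 0) * T 0 1 = 0 * T 0 1 by
        linear_combination (T 0 0 - 1) * hx - hdet), hx⟩
    refine ⟨x, ?_, hfix⟩
    show x * F 0 0 + F 1 0 = (x * F 0 1 + F 1 1) * x
    refine mul_right_cancel₀ hT ?_
    linear_combination (-(x * F 0 1)) * hx + F 0 1 * hfix.1 - e00 + x * e01

end Field

section Root

variable {R : Type} [CommRing R] [IsLocalRing R]

/-- The eigenline reducing to `(0, 1)`; junk if there is none. -/
def eigenRoot (F : M2 R) : R :=
  Classical.epsilon fun y => y ∈ maximalIdeal R ∧ StableLine y F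

theorem StableLine.eq_of_sub {A : Type} [CommRing A] {x y : A} {F : M2 A} (hx : StableLine x F)
    (hy : StableLine y F) (hu : IsUnit (F 0 1 * (x + y) + (F 1 1 - F 0 0))) : x = y := by
  unfold StableLine at hx hy
  exact sub_eq_zero.mp (hu.mul_left_eq_zero.mp (by linear_combination hy - hx))

/-- Two eigenlines in the maximal ideal agree, if the residual eigenvalues differ. -/
theorem StableLine.eq_of_mem {x y : R} {F : M2 R} (hne : F 0 0 - F 1 1 ∉ maximalIdeal R)
    (hx : StableLine x F) (hxm : x ∈ maximalIdeal R) (hy : StableLine y F)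
    (hym : y ∈ maximalIdeal R) : x = y := by
  refine hx.eq_of_sub hy ?_
  by_contra h
  refine hne ?_
  have := sub_mem (Ideal.mul_mem_left _ (F 0 1) (add_mem hxm hym))
    (show F 0 1 * (x + y) + (F 1 1 - F 0 0) ∈ maximalIdeal R from h)
  convert this using 1
  ring

variable [IsAdicComplete (maximalIdeal R) R]

theorem exists_stableLine {F : M2 R} (h10 : F 1 0 ∈ maximalIdeal R) (h01 : IsUnit (F 0 1))
    (hne : F 0 0 - F 1 1 ∉ maximalIdeal R) : ∃ y ∈ maximalIdeal R, StableLine y F := by
  haveI : HenselianRing R (maximalIdeal R) := IsAdicComplete.henselianRing R _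
  set u : R := ((h01.unit⁻¹ : Rˣ) : R)
  have hu : F 0 1 * u = 1 := h01.mul_val_inv
  obtain ⟨y, hy, hym⟩ := HenselianRing.is_henselian (I := maximalIdeal R)
    (Polynomial.X ^ 2 + Polynomial.C (u * (F 1 1 - F 0 0)) * Polynomial.X +
      Polynomial.C (-(u * F 1 0))) (by monicity!) 0
    (by simpa using Ideal.mul_mem_left _ u h10)
    (IsUnit.map _ (by
      simp only [Polynomial.derivative_add, Polynomial.derivative_mul, Polynomial.derivative_X,
        Polynomial.derivative_C, Polynomial.derivative_X_sq, Polynomial.eval_add,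
        Polynomial.eval_mul, Polynomial.eval_C, Polynomial.eval_X, zero_mul, mul_zero, zero_add,
        mul_one, add_zero]
      refine (Units.isUnit _).mul ?_
      by_contra h
      exact hne (by simpa using neg_mem (show F 1 1 - F 0 0 ∈ maximalIdeal R from h))))
  simp only [Polynomial.IsRoot, Polynomial.eval_add, Polynomial.eval_mul, Polynomial.eval_C,
    Polynomial.eval_pow, Polynomial.eval_X] at hy
  refine ⟨y, by simpa using hym, ?_⟩
  show y * F 0 0 + F 1 0 = (y * F 0 1 + F 1 1) * y
  linear_combination -(F 0 1) * hy + (y * (F 1 1 - F 0 0) - F 1 0) * hu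

theorem existsUnique_stableLine {F : M2 R} (h10 : F 1 0 ∈ maximalIdeal R) (h01 : IsUnit (F 0 1))
    (hne : F 0 0 - F 1 1 ∉ maximalIdeal R) : ∃! y, y ∈ maximalIdeal R ∧ StableLine y F := by
  obtain ⟨y, hym, hy⟩ := exists_stableLine h10 h01 hne
  exact ⟨y, ⟨hym, hy⟩, fun z hz => hz.2.eq_of_mem hne hz.1 hy hym⟩

theorem eigenRoot_spec {F : M2 R} (h10 : F 1 0 ∈ maximalIdeal R) (h01 : IsUnit (F 0 1))
    (hne : F 0 0 - F 1 1 ∉ maximalIdeal R) :
    eigenRoot F ∈ maximalIdeal R ∧ StableLine (eigenRoot F) F :=
  Classical.epsilon_spec (p := fun y => y ∈ maximalIdeal R ∧ StableLine y F)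
    (let ⟨y, h1, h2⟩ := exists_stableLine h10 h01 hne; ⟨y, h1, h2⟩)

/-- With different residual eigenvalues, a line over a field is one of the two lifted ones. -/
theorem eq_eigenRoot_or {K : Type} [Field K] (f : R →+* K) {F : M2 R} {c : R}
    (h10 : F 1 0 ∈ maximalIdeal R) (h01 : IsUnit (F 0 1))
    (hne : F 0 0 - F 1 1 ∉ maximalIdeal R) (hc : F 0 1 * c - (F 1 1 - F 0 0) ∈ maximalIdeal R)
    {x : K} (hx : StableLine x (f.mapMatrix F)) :
    x = f (eigenRoot F) ∨ x + f c = f (eigenRoot (shear c F)) := by
  obtain ⟨hy, hyF⟩ := eigenRoot_spec h10 h01 hne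
  have hG10 : shear c F 1 0 ∈ maximalIdeal R := by
    have := sub_mem h10 (Ideal.mul_mem_left _ c hc)
    simp only [shear, Matrix.cons_val', Matrix.cons_val_zero, Matrix.cons_val_one,
      Matrix.empty_val', Matrix.cons_val_fin_one, Matrix.of_apply]
    convert this using 1
    ring
  have hG01 : IsUnit (shear c F 0 1) := by simpa [shear] using h01
  have hGne : shear c F 0 0 - shear c F 1 1 ∉ maximalIdeal R := by
    intro h
    refine hne ?_
    have := sub_mem (Ideal.mul_mem_left _ (2 : R) hc) h
    simp only [shear, Matrix.cons_val', Matrix.cons_val_zero, Matrix.cons_val_one,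
      Matrix.empty_val', Matrix.cons_val_fin_one, Matrix.of_apply] at this
    convert this using 1
    ring
  obtain ⟨hz, hzG⟩ := eigenRoot_spec hG10 hG01 hGne
  set y := eigenRoot F
  set w := eigenRoot (shear c F)
  have hzF : StableLine (w - c) F :=
    (stableLine_shear_iff (w - c) c F).mp (by rwa [sub_add_cancel])
  have hne' : y ≠ w - c := by
    intro h
    refine hne ?_
    have hcm : c ∈ maximalIdeal R := by
      have := sub_mem hz hy
      rwa [h, sub_sub_cancel] at this
    have := sub_mem hc (Ideal.mul_mem_left _ (F 0 1) hcm)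
    convert this using 1
    ring
  have hunit : IsUnit (y - (w - c)) := by
    by_contra h
    refine hne ?_
    have hcm : c ∈ maximalIdeal R := by
      have := add_mem (sub_mem (show y - (w - c) ∈ maximalIdeal R from h) hy) hz
      convert this using 1
      ring
    have := sub_mem hc (Ideal.mul_mem_left _ (F 0 1) hcm)
    convert this using 1
    ring
  have hsum : F 0 1 * (y + (w - c)) + (F 1 1 - F 0 0) = 0 := by
    have h1 := hyF
    have h2 := hzF
    unfold StableLine at h1 h2
    exact hunit.mul_right_eq_zero.mp (by linear_combination h2 - h1)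
  by_cases hxy : x = f y
  · exact Or.inl hxy
  refine Or.inr ?_
  have h1 := hyF.map f
  unfold StableLine at hx h1
  have hs := congrArg f hsum
  simp only [map_add, map_mul, map_sub, map_zero, RingHom.mapMatrix_apply, Matrix.map_apply]
    at hx h1 hs
  have : (x - f y) * (f (F 0 1) * (x + f y) + (f (F 1 1) - f (F 0 0))) = 0 := by
    linear_combination h1 - hx
  have h3 := (mul_eq_zero.mp this).resolve_left (sub_ne_zero.mpr hxy)
  refine mul_left_cancel₀ (h01.map f).ne_zero ?_
  linear_combination h3 - hs

end Root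

section Ring

variable {R : Type} [CommRing R] [IsLocalRing R] {ι : Type} (F T : ι → M2 R) (isU : ι → Bool)
  (I : Ideal R)

/-- The equations of the auxiliary ring. -/
def eigenIdeal : Ideal (MvPolynomial ι R) :=
  Ideal.span
      (Set.range (fun i => MvPolynomial.X i * MvPolynomial.C (F i 0 0) + MvPolynomial.C (F i 1 0) -
          (MvPolynomial.X i * MvPolynomial.C (F i 0 1) + MvPolynomial.C (F i 1 1)) *
            MvPolynomial.X i) ∪
        Set.range (fun i => MvPolynomial.X i * (MvPolynomial.C (T i 0 0) - 1) +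
          MvPolynomial.C (T i 1 0)) ∪
        Set.range (fun i => MvPolynomial.X i * MvPolynomial.C (T i 0 1) +
          (MvPolynomial.C (T i 1 1) - 1)) ∪
        (fun i => MvPolynomial.X i - MvPolynomial.C (eigenRoot (F i))) '' {i | isU i = false}) ⊔
    I.map MvPolynomial.C

/-- The auxiliary ring. -/
abbrev EigenRing : Type := MvPolynomial ι R ⧸ eigenIdeal F T isU I

/-- The universal positions. -/
def eigenX (i : ι) : EigenRing F T isU I :=
  Ideal.Quotient.mkₐ R _ (MvPolynomial.X i)

/-- The hypotheses on the data. -/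
structure EigenData : Prop where
  lower : ∀ i, F i 1 0 ∈ maximalIdeal R
  upper : ∀ i, IsUnit (F i 0 1)
  diag : ∀ i, F i 0 0 - F i 1 1 ∈ maximalIdeal R ↔ isU i = true
  tame : ∀ i a b, (T i - 1) a b ∈ maximalIdeal R
  le : I ≤ maximalIdeal R

theorem EigenData.notMem {F T : ι → M2 R} {isU : ι → Bool} {I : Ideal R}
    (h : EigenData F T isU I) {i : ι} (hi : isU i = false) :
    F i 0 0 - F i 1 1 ∉ maximalIdeal R := fun hm => by
  rw [(h.diag i).mp hm] at hi
  exact Bool.noConfusion hi

theorem aeval_eigenX (p : MvPolynomial ι R) :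
    MvPolynomial.aeval (eigenX F T isU I) p = Ideal.Quotient.mkₐ R _ p := by
  have h : MvPolynomial.aeval (eigenX F T isU I) = Ideal.Quotient.mkₐ R _ :=
    MvPolynomial.algHom_ext fun i => by rw [MvPolynomial.aeval_X]; rfl
  exact DFunLike.congr_fun h p

theorem adjoin_eigenX_eq_top : Algebra.adjoin R (Set.range (eigenX F T isU I)) = ⊤ := by
  rw [Algebra.adjoin_range_eq_range_aeval, eq_top_iff]
  intro x _
  obtain ⟨p, rfl⟩ := Ideal.Quotient.mk_surjective x
  exact ⟨p, aeval_eigenX F T isU I p⟩

theorem stableLine_eigenX (i : ι) :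
    StableLine (eigenX F T isU I i) ((algebraMap R (EigenRing F T isU I)).mapMatrix (F i)) := by
  unfold StableLine
  refine Ideal.Quotient.eq.mpr ?_
  exact Ideal.mem_sup_left (Ideal.subset_span (Or.inl (Or.inl (Or.inl ⟨i, rfl⟩))))

theorem fixesLine_eigenX (i : ι) :
    FixesLine (eigenX F T isU I i) ((algebraMap R (EigenRing F T isU I)).mapMatrix (T i)) :=
  ⟨Ideal.Quotient.eq_zero_iff_mem.mpr
      (Ideal.mem_sup_left (Ideal.subset_span (Or.inl (Or.inl (Or.inr ⟨i, rfl⟩))))),
    Ideal.Quotient.eq_zero_iff_mem.mpr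
      (Ideal.mem_sup_left (Ideal.subset_span (Or.inl (Or.inr ⟨i, rfl⟩))))⟩

theorem eigenX_eq_eigenRoot (i : ι) (hi : isU i = false) :
    eigenX F T isU I i = algebraMap R _ (eigenRoot (F i)) :=
  Ideal.Quotient.eq.mpr (Ideal.mem_sup_left (Ideal.subset_span (Or.inr ⟨i, hi, rfl⟩)))

theorem algebraMap_eq_zero_of_mem {r : R} (hr : r ∈ I) :
    algebraMap R (EigenRing F T isU I) r = 0 :=
  Ideal.Quotient.eq_zero_iff_mem.mpr (Ideal.mem_sup_right (Ideal.mem_map_of_mem _ hr))

/-- **Universality.** -/
theorem exists_eigenHom {A : Type} [CommRing A] [Algebra R A] (x : ι → A)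
    (hS : ∀ i, StableLine (x i) ((algebraMap R A).mapMatrix (F i)))
    (hT : ∀ i, FixesLine (x i) ((algebraMap R A).mapMatrix (T i)))
    (hroot : ∀ i, isU i = false → x i = algebraMap R A (eigenRoot (F i)))
    (hI : ∀ r ∈ I, algebraMap R A r = 0) :
    ∃ φ : EigenRing F T isU I →ₐ[R] A, ∀ i, φ (eigenX F T isU I i) = x i := by
  refine ⟨Ideal.Quotient.liftₐ _ (MvPolynomial.aeval x) fun p hp => ?_,
    fun i => MvPolynomial.aeval_X x i⟩
  refine (sup_le ?_ ?_ : eigenIdeal F T isU I ≤ RingHom.ker (MvPolynomial.aeval x)) hp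
  · rw [Ideal.span_le]
    rintro q (((⟨i, rfl⟩ | ⟨i, rfl⟩) | ⟨i, rfl⟩) | ⟨i, hi, rfl⟩) <;>
      simp only [SetLike.mem_coe, RingHom.mem_ker, map_sub, map_add, map_mul, map_one,
        MvPolynomial.aeval_X, MvPolynomial.aeval_C]
    · exact sub_eq_zero.mpr (hS i)
    · exact (hT i).1
    · exact (hT i).2
    · exact sub_eq_zero.mpr (hroot i hi)
  · refine Ideal.map_le_iff_le_comap.mpr fun r hr => ?_
    show MvPolynomial.aeval x (MvPolynomial.C r) = 0
    rw [MvPolynomial.aeval_C]
    exact hI r hr

theorem eigenHom_ext {A : Type} [CommRing A] [Algebra R A] {φ ψ : EigenRing F T isU I →ₐ[R] A}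
    (h : ∀ i, φ (eigenX F T isU I i) = ψ (eigenX F T isU I i)) : φ = ψ :=
  Ideal.Quotient.algHom_ext R (MvPolynomial.algHom_ext h)

variable {F T isU I} (h : EigenData F T isU I)

/-- The residual point. -/
def eigenPoint [IsAdicComplete (maximalIdeal R) R] (h : EigenData F T isU I) :
    EigenRing F T isU I →ₐ[R] ResidueField R :=
  Ideal.Quotient.liftₐ _ (MvPolynomial.aeval fun _ => 0) fun p hp => by
    refine (sup_le ?_ ?_ : eigenIdeal F T isU I ≤
      RingHom.ker (MvPolynomial.aeval fun _ : ι => (0 : ResidueField R))) hp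
    · rw [Ideal.span_le]
      rintro q (((⟨i, rfl⟩ | ⟨i, rfl⟩) | ⟨i, rfl⟩) | ⟨i, hi, rfl⟩) <;>
        simp only [SetLike.mem_coe, RingHom.mem_ker, map_sub, map_add, map_mul, map_one,
          MvPolynomial.aeval_X, MvPolynomial.aeval_C, zero_mul, mul_zero, sub_zero, zero_add,
          zero_sub, neg_eq_zero]
      · exact (residue_eq_zero_iff _).mpr (h.lower i)
      · exact (residue_eq_zero_iff _).mpr (by simpa using h.tame i 1 0)
      · rw [ResidueField.algebraMap_eq, ← map_one (residue R), ← map_sub, residue_eq_zero_iff]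
        simpa using h.tame i 1 1
      · exact (residue_eq_zero_iff _).mpr
          (eigenRoot_spec (h.lower i) (h.upper i) (h.notMem hi)).1
    · refine Ideal.map_le_iff_le_comap.mpr fun r hr => ?_
      show MvPolynomial.aeval _ (MvPolynomial.C r) = 0
      rw [MvPolynomial.aeval_C]
      exact (residue_eq_zero_iff r).mpr (h.le hr)

theorem eigenPoint_eigenX [IsAdicComplete (maximalIdeal R) R] (i : ι) :
    eigenPoint h (eigenX F T isU I i) = 0 :=
  MvPolynomial.aeval_X _ i

include h in
theorem eigenX_mem_radical [IsAdicComplete (maximalIdeal R) R] (i : ι) :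
    eigenX F T isU I i ∈ ((maximalIdeal R).map (algebraMap R (EigenRing F T isU I))).radical := by
  cases hi : isU i
  · rw [eigenX_eq_eigenRoot F T isU I i hi]
    exact Ideal.le_radical (Ideal.mem_map_of_mem _
      (eigenRoot_spec (h.lower i) (h.upper i) (h.notMem hi)).1)
  · refine ⟨2, ?_⟩
    set J := (maximalIdeal R).map (algebraMap R (EigenRing F T isU I))
    set y := eigenX F T isU I i
    have h1 := stableLine_eigenX F T isU I i
    unfold StableLine at h1
    simp only [RingHom.mapMatrix_apply, Matrix.map_apply] at h1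
    have hu := (h.upper i).map (algebraMap R (EigenRing F T isU I))
    have h3 : algebraMap R _ (F i 0 1) * y ^ 2 ∈ J := by
      have := add_mem (Ideal.mul_mem_left J y (Ideal.mem_map_of_mem _ ((h.diag i).mpr hi)))
        (show algebraMap R _ (F i 1 0) ∈ J from Ideal.mem_map_of_mem _ (h.lower i))
      convert this using 1
      rw [map_sub]
      linear_combination -h1
    exact (Ideal.unit_mul_mem_iff_mem J hu).mp h3

include h in
theorem mem_radical_of_eigenPoint [IsAdicComplete (maximalIdeal R) R] (x : EigenRing F T isU I)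
    (hx : eigenPoint h x = 0) :
    x ∈ ((maximalIdeal R).map (algebraMap R (EigenRing F T isU I))).radical := by
  obtain ⟨p, rfl⟩ := Ideal.Quotient.mk_surjective x
  set J := ((maximalIdeal R).map (algebraMap R (EigenRing F T isU I))).radical
  have hJ : (Ideal.Quotient.mkₐ R J).comp (MvPolynomial.aeval (eigenX F T isU I)) =
      (Ideal.Quotient.mkₐ R J).comp
        ((Algebra.ofId R _).comp (MvPolynomial.aeval fun _ : ι => (0 : R))) := by
    refine MvPolynomial.algHom_ext fun i => ?_
    simp only [AlgHom.comp_apply, MvPolynomial.aeval_X, map_zero]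
    exact Ideal.Quotient.eq_zero_iff_mem.mpr (eigenX_mem_radical h i)
  have h1 := DFunLike.congr_fun hJ p
  simp only [AlgHom.comp_apply, aeval_eigenX] at h1
  have h2 : MvPolynomial.aeval (fun _ : ι => (0 : R)) p ∈ maximalIdeal R := by
    rw [← residue_eq_zero_iff, ← hx, ← ResidueField.algebraMap_eq,
      ← MvPolynomial.aeval_algebraMap_apply]
    simp only [Function.comp_def, map_zero]
    rfl
  have h3 := Ideal.Quotient.eq.mp h1
  have := add_mem h3 (Ideal.le_radical (Ideal.mem_map_of_mem (algebraMap R _) h2) : _ ∈ J)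
  rwa [← Algebra.ofId_apply, sub_add_cancel] at this

include h in
theorem EigenData.finite [Finite ι] : Module.Finite R (EigenRing F T isU I) := by
  haveI : Algebra.IsIntegral R (EigenRing F T isU I) := ⟨fun x => by
    obtain ⟨p, rfl⟩ := Ideal.Quotient.mk_surjective x
    induction p using MvPolynomial.induction_on with
    | C r => exact (isIntegral_algebraMap (R := R) (x := r))
    | add p q hp hq => rw [map_add]; exact hp.add hq
    | mul_X p i hp =>
      rw [map_mul]
      refine hp.mul ?_
      show IsIntegral R (eigenX F T isU I i)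
      refine ⟨Polynomial.X ^ 2 + Polynomial.C (((h.upper i).unit⁻¹ : Rˣ) * (F i 1 1 - F i 0 0)) *
        Polynomial.X + Polynomial.C (-(((h.upper i).unit⁻¹ : Rˣ) * F i 1 0)), by monicity!, ?_⟩
      have h1 := stableLine_eigenX F T isU I i
      unfold StableLine at h1
      simp only [RingHom.mapMatrix_apply, Matrix.map_apply] at h1
      have hu := congrArg (algebraMap R (EigenRing F T isU I)) (h.upper i).val_inv_mul
      rw [map_mul, map_one] at hu
      simp only [Polynomial.eval₂_add, Polynomial.eval₂_mul, Polynomial.eval₂_X_pow,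
        Polynomial.eval₂_C, Polynomial.eval₂_X, Polynomial.eval₂_sub, Polynomial.eval₂_neg, map_mul, map_sub, map_neg]
      linear_combination -(algebraMap R _ (((h.upper i).unit⁻¹ : Rˣ) : R)) * h1 -
        (eigenX F T isU I i ^ 2) * hu⟩
  exact Algebra.IsIntegral.finite

variable [IsAdicComplete (maximalIdeal R) R] [Finite ι]

include h in
theorem EigenData.isLocalRing : IsLocalRing (EigenRing F T isU I) :=
  haveI := h.finite
  isLocalRing_of_residual (eigenPoint h) (mem_radical_of_eigenPoint h)

variable [IsLocalRing (EigenRing F T isU I)]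

omit [Finite ι] in
include h in
theorem EigenData.isLocalHom : IsLocalHom (algebraMap R (EigenRing F T isU I)) :=
  isLocalHom_algebraMap_of_residual (eigenPoint h)

omit [Finite ι] in
include h in
theorem EigenData.isResAlg {O : Type} [CommRing O] [IsLocalRing O] [Algebra O R]
    (hR : IsResAlg O R) : IsResAlg O (EigenRing F T isU I) :=
  isResAlg_of_residual hR (eigenPoint h)

omit [Finite ι] in
include h in
theorem EigenData.eigenX_mem (i : ι) :
    eigenX F T isU I i ∈ maximalIdeal (EigenRing F T isU I) := by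
  haveI := h.isLocalHom
  refine (maximalIdeal.isMaximal _).isPrime.radical_le_iff.mpr ?_ (eigenX_mem_radical h i)
  exact Ideal.map_le_iff_le_comap.mpr fun a ha => map_nonunit (algebraMap R _) a ha

include h in
theorem EigenData.isNoetherianRing [IsNoetherianRing R] :
    IsNoetherianRing (EigenRing F T isU I) :=
  haveI := h.finite
  IsNoetherianRing.of_finite R _

include h in
theorem EigenData.isAdicComplete [IsNoetherianRing R] :
    IsAdicComplete (maximalIdeal (EigenRing F T isU I)) (EigenRing F T isU I) :=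
  haveI := h.finite
  haveI := h.isLocalHom
  IsLocalRing.isAdicComplete_of_module_finite (𝒪 := R)

omit [Finite ι] [IsLocalRing (EigenRing F T isU I)] in
include h in
/-- Universality for local algebras: the positions need only lie in the maximal ideal. -/
theorem EigenData.exists_hom {A : Type} [CommRing A] [IsLocalRing A] [Algebra R A]
    [IsLocalHom (algebraMap R A)] (x : ι → A) (hx : ∀ i, x i ∈ maximalIdeal A)
    (hS : ∀ i, StableLine (x i) ((algebraMap R A).mapMatrix (F i)))
    (hT : ∀ i, FixesLine (x i) ((algebraMap R A).mapMatrix (T i)))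
    (hI : ∀ r ∈ I, algebraMap R A r = 0) :
    ∃ φ : EigenRing F T isU I →ₐ[R] A, ∀ i, φ (eigenX F T isU I i) = x i := by
  refine exists_eigenHom F T isU I x hS hT (fun i hi => ?_) hI
  obtain ⟨hy, hyF⟩ := eigenRoot_spec (h.lower i) (h.upper i) (h.notMem hi)
  refine (hS i).eq_of_mem (fun hm => ?_) (hx i) (hyF.map _) (map_nonunit (algebraMap R A) _ hy)
  refine h.notMem hi fun hu => hm ?_
  simpa using hu.map (algebraMap R A)

end Ring

end Fermat.Agent.TwoAdic.Deform
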