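import Fermat.Agent.TwoAdic.Deform.Setting
import Fermat.Agent.TwoAdic.Deform.EigenRing

/-!
# Choices of residual eigenvalue at the auxiliary primes

`Aux.flip s` shears the basis at the primes of distinct residual eigenvalues selected by `s`, which
exchanges the diagonal residues; a line at `x` moves to `x + flipShift`.
-/

set_option autoImplicit false

noncomputable section

namespace Fermat.Agent.TwoAdic.Deform

open IsLocalRing Fermat.Agent.Deform

variable {O : Type} [CommRing O] [IsLocalRing O] {S : Setting O} {Lv : Level S} (D : Aux S Lv)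

/-- The residual shift exchanging the eigenlines. -/
def Aux.residualShift (i : D.ι) : ResidueField O :=
  (residualAt S (D.g i) (D.φ i) 1 1 - residualAt S (D.g i) (D.φ i) 0 0) /
    residualAt S (D.g i) (D.φ i) 0 1

/-- The shift at each auxiliary prime. -/
def Aux.flipShift (s : D.ι → Bool) (i : D.ι) : O :=
  if s i = true ∧ D.isU i = false then Function.surjInv residue_surjective (D.residualShift i)
  else 0

theorem conjM_mul {A : Type} [CommRing A] (P Q : (M2 A)ˣ) (r : Gal →* M2 A) :
    conjM (P * Q) r = conjM Q (conjM P r) := by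
  refine MonoidHom.ext fun σ => ?_
  simp only [conjM_apply, mul_inv_rev, Units.val_mul, mul_assoc]

theorem map_shearU {A B : Type} [CommRing A] [CommRing B] (f : A →+* B) (c : A) :
    Units.map f.mapMatrix.toMonoidHom (shearU c) = shearU (f c) := by
  ext i j
  fin_cases i <;> fin_cases j <;> simp [shearU]

theorem residualAt_mul_shearU (g : (M2 O)ˣ) (c : O) (σ : Gal) :
    residualAt S (g * shearU c) σ = shear (residue O c) (residualAt S g σ) := by
  rw [residualAt, residualAt, map_mul, conjM_mul, map_shearU, conjM_apply,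
    shearU_inv_mul_mul, ResidueField.algebraMap_eq]

theorem Aux.flip_spec (s : D.ι → Bool) (i : D.ι) :
    (residualAt S (D.g i * shearU (D.flipShift s i)) (D.φ i) 1 0 = 0 ∧
      residualAt S (D.g i * shearU (D.flipShift s i)) (D.φ i) 0 1 ≠ 0) ∧
      (residualAt S (D.g i * shearU (D.flipShift s i)) (D.φ i) 0 0 =
        residualAt S (D.g i * shearU (D.flipShift s i)) (D.φ i) 1 1 ↔ D.isU i = true) := by
  rw [residualAt_mul_shearU]
  have hl := D.rb_lower i
  have hu := D.rb_upper i
  have hd := D.rb_diag i
  set F := residualAt S (D.g i) (D.φ i)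
  by_cases hc : s i = true ∧ D.isU i = false
  · have hr : residue O (D.flipShift s i) * F 0 1 = F 1 1 - F 0 0 := by
      rw [Aux.flipShift, if_pos hc, Function.surjInv_eq residue_surjective, Aux.residualShift,
        div_mul_cancel₀ _ hu]
    set c := residue O (D.flipShift s i)
    refine ⟨⟨?_, by simpa [shear] using hu⟩, ?_⟩
    · show F 1 0 + c * (F 1 1 - F 0 0) - c ^ 2 * F 0 1 = 0
      linear_combination hl - c * hr
    · show F 0 0 + c * F 0 1 = F 1 1 - c * F 0 1 ↔ _
      rw [show F 0 0 + c * F 0 1 = F 1 1 by linear_combination hr,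
        show F 1 1 - c * F 0 1 = F 0 0 by linear_combination -hr, eq_comm]
      exact hd
  · have hr : residue O (D.flipShift s i) = 0 := by rw [Aux.flipShift, if_neg hc, map_zero]
    rw [hr]
    simp [shear, hl, hu, hd]

/-- The same auxiliary data with the other choice of eigenvalue where `s` says so. -/
def Aux.flip (s : D.ι → Bool) : Aux S Lv :=
  { D with
    g := fun i => D.g i * shearU (D.flipShift s i)
    rb_lower := fun i => (D.flip_spec s i).1.1
    rb_upper := fun i => (D.flip_spec s i).1.2
    rb_diag := fun i => (D.flip_spec s i).2 }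

variable {A : Type} [CommRing A] [Algebra O A]

theorem Aux.loc_flip (s : D.ι → Bool) (i : D.ι) (r : Gal →* M2 A) (σ : Gal) :
    (D.flip s).loc i r σ = shear (algebraMap O A (D.flipShift s i)) (D.loc i r σ) := by
  have h : (D.flip s).basis i A = D.basis i A * shearU (algebraMap O A (D.flipShift s i)) := by
    rw [← map_shearU]
    exact map_mul _ _ _
  show conjM ((D.flip s).basis i A) r σ = _
  rw [h, conjM_mul, conjM_apply, shearU_inv_mul_mul]
  rfl

theorem Aux.stableLine_flip_iff (s : D.ι → Bool) (i : D.ι) (r : Gal →* M2 A) (σ : Gal) (x : A) :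
    StableLine (x + algebraMap O A (D.flipShift s i)) ((D.flip s).loc i r σ) ↔
      StableLine x (D.loc i r σ) := by
  rw [Aux.loc_flip, stableLine_shear_iff]

theorem Aux.fixesLine_flip_iff (s : D.ι → Bool) (i : D.ι) (r : Gal →* M2 A) (σ : Gal) (x : A) :
    FixesLine (x + algebraMap O A (D.flipShift s i)) ((D.flip s).loc i r σ) ↔
      FixesLine x (D.loc i r σ) := by
  rw [Aux.loc_flip, fixesLine_shear_iff]

theorem Aux.isEigen_flip_iff (s : D.ι → Bool) (r : Gal →* M2 A) (x : D.ι → A) :
    IsEigen (D.flip s) r (fun i => x i + algebraMap O A (D.flipShift s i)) ↔ IsEigen D r x := by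
  refine forall_congr' fun i => ?_
  exact and_congr (D.stableLine_flip_iff s i r _ _) (D.fixesLine_flip_iff s i r _ _)

/-- The shift satisfies the congruence required of `eq_eigenRoot_or`. -/
theorem Aux.residue_flipShift (i : D.ι) (hi : D.isU i = false) :
    residue O (D.flipShift (fun _ => true) i) * residualAt S (D.g i) (D.φ i) 0 1 =
      residualAt S (D.g i) (D.φ i) 1 1 - residualAt S (D.g i) (D.φ i) 0 0 := by
  rw [Aux.flipShift, if_pos ⟨rfl, hi⟩, Function.surjInv_eq residue_surjective, Aux.residualShift,
    div_mul_cancel₀ _ (D.rb_upper i)]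

end Fermat.Agent.TwoAdic.Deform
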