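import Fermat.Agent.TwoAdic.Deform.Setting
import Fermat.Agent.RT.Assembly.Tame
import Fermat.Agent.EC.Rep.Cyclotomic

/-!
# Constructors of auxiliary levels and auxiliary data

`Level.ofChar` is the level cut out by a character of `(ℤ/L)ˣ` through the cyclotomic character,
`Aux.ofFrobenius` the data at auxiliary primes with given Frobenius elements.
-/

set_option autoImplicit false

noncomputable section

namespace Fermat.Agent.TwoAdic.Deform

open IsLocalRing Fermat.Agent.Deform Fermat.Agent.Arith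
open scoped Pointwise

section Cyclotomic

/-- The mod `L` cyclotomic character, for any nonzero `L`. -/
def cycHom (L : ℕ) [NeZero L] : Gal →* (ZMod L)ˣ where
  toFun σ := modularCyclotomicCharacter QBar (EC.Rep.card_rootsOfUnity_qbar L)
    (σ : QBar ≃+* QBar)
  map_one' := map_one (modularCyclotomicCharacter QBar (EC.Rep.card_rootsOfUnity_qbar L))
  map_mul' σ τ := map_mul (modularCyclotomicCharacter QBar (EC.Rep.card_rootsOfUnity_qbar L))
    (σ : QBar ≃+* QBar) (τ : QBar ≃+* QBar)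

variable {L : ℕ} [NeZero L]

theorem cycHom_eq_natCast {σ : Gal} {c : ℕ} (h : ∀ ζ : QBar, ζ ^ L = 1 → σ ζ = ζ ^ c) :
    (cycHom L σ : ZMod L) = c :=
  modularCyclotomicCharacter_eq_natCast (g := (σ : QBar ≃+* QBar))
    (EC.Rep.card_rootsOfUnity_qbar L) h

theorem apply_root_cycHom (σ : Gal) {ζ : QBar} (hζ : ζ ^ L = 1) :
    σ ζ = ζ ^ (cycHom L σ : ZMod L).val := by
  have h := modularCyclotomicCharacter.spec QBar (EC.Rep.card_rootsOfUnity_qbar L)
    (σ : QBar ≃+* QBar) (t := (Units.ofPowEqOne ζ L hζ (NeZero.ne L)))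
    ((mem_rootsOfUnity' _ _).mpr hζ)
  exact h

theorem cycHom_frobenius {q : ℕ} (hq : q.Prime) (hqL : ¬ q ∣ L) {P : ValuationSubring QBar}
    (hP : P.LiesOverPrime q) {φ : Gal} (hφ : P.IsFrobeniusAt φ q) :
    (cycHom L φ : ZMod L) = q :=
  modularCyclotomicCharacter_frobenius hP hq hφ _ hqL

theorem cycHom_surjective : Function.Surjective (cycHom L) := by
  intro a
  obtain ⟨ℓ, hℓL, hℓ, hℓa⟩ :=
    Nat.forall_exists_prime_gt_and_eq_mod (q := L) (a := (a : ZMod L)) a.isUnit L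
  obtain ⟨P, hP⟩ := exists_liesOverPrime hℓ
  obtain ⟨φ, hφ⟩ := exists_isFrobeniusAt hP hℓ
  exact ⟨φ, Units.ext ((cycHom_frobenius hℓ (fun h => absurd
    (Nat.le_of_dvd (Nat.pos_of_ne_zero (NeZero.ne L)) h) (not_le.mpr hℓL)) hP hφ).trans hℓa)⟩

theorem isOpen_cycHom_ker : IsOpen ((cycHom L).ker : Set Gal) := by
  obtain ⟨ζ, hζ⟩ : ∃ ζ : QBar, IsPrimitiveRoot ζ L :=
    HasEnoughRootsOfUnity.exists_primitiveRoot QBar L
  have : FiniteDimensional ℚ (IntermediateField.adjoin ℚ {ζ}) :=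
    IntermediateField.adjoin.finiteDimensional (Algebra.IsIntegral.isIntegral ζ)
  refine Subgroup.isOpen_mono (fun σ hσ => ?_)
    (IntermediateField.fixingSubgroup_isOpen (IntermediateField.adjoin ℚ {ζ}))
  have hfix := (IntermediateField.mem_fixingSubgroup_iff _ _).mp hσ ζ
    (IntermediateField.mem_adjoin_simple_self ℚ ζ)
  refine MonoidHom.mem_ker.mpr (Units.ext ?_)
  rw [Units.val_one, ← Nat.cast_one]
  refine cycHom_eq_natCast fun t ht => ?_
  obtain ⟨i, -, rfl⟩ := hζ.eq_pow_of_pow_eq_one ht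
  rw [pow_one, map_pow, hfix]

/-- The cyclotomic character of an inertia element at `q ∤ L`. -/
theorem cycHom_inertia {q : ℕ} (hq : q.Prime) (hqL : ¬ q ∣ L) {P : ValuationSubring QBar}
    (hP : P.LiesOverPrime q) {σ : Gal} (hσ : σ ∈ P.inertiaSubgroupIn ℚ) : cycHom L σ = 1 :=
  modularCyclotomicCharacter_inertia hP hq hσ _ hqL

/-- At a prime dividing a squarefree `L` inertia moves only that component. -/
theorem cycHom_inertia_cast (hL : Squarefree L) {q : ℕ} (hq : q.Prime) (hqL : q ∣ L)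
    {P : ValuationSubring QBar} (hP : P.LiesOverPrime q) {σ : Gal}
    (hσ : σ ∈ P.inertiaSubgroupIn ℚ) : ((cycHom L σ : ZMod L).cast : ZMod (L / q)) = 1 := by
  obtain ⟨k, hk⟩ := hqL
  have hdiv : L / q = k := by rw [hk, Nat.mul_div_cancel_left _ hq.pos]
  have hqk : ¬ q ∣ k := fun ⟨j, hj⟩ =>
    hq.one_lt.ne' (Nat.isUnit_iff.mp (hL q ⟨j, by rw [hk, hj, mul_assoc]⟩))
  have hk0 : k ≠ 0 := fun h => NeZero.ne L (by rw [hk, h, mul_zero])
  rw [hdiv]
  have : NeZero k := ⟨hk0⟩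
  obtain ⟨ζ, hζ⟩ : ∃ ζ : QBar, IsPrimitiveRoot ζ k :=
    HasEnoughRootsOfUnity.exists_primitiveRoot QBar k
  have hfix := inertia_root hP hq hσ hζ.pow_eq_one hqk
  rw [apply_root_cycHom σ (L := L) (by rw [hk, mul_comm, pow_mul, hζ.pow_eq_one, one_pow])] at hfix
  have hmod : (cycHom L σ : ZMod L).val ≡ 1 [MOD k] := by
    have hk' : 0 < k := Nat.pos_of_ne_zero hk0
    refine hζ.pow_inj (Nat.mod_lt _ hk') (Nat.mod_lt _ hk') ?_
    rw [hζ.eq_orderOf, pow_mod_orderOf, pow_mod_orderOf, pow_one]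
    exact hfix
  rw [ZMod.cast_eq_val, ← Nat.cast_one, ZMod.natCast_eq_natCast_iff]
  exact hmod

/-- The cyclotomic character mod odd `L` is onto on the fixer of the `2`-power roots of unity. -/
theorem exists_cycHom_eq_fixing_two (hL : Odd L) (w : (ZMod L)ˣ) :
    ∃ σ : Gal, (∀ (n : ℕ) (μ : QBar), μ ^ 2 ^ n = 1 → σ μ = μ) ∧ cycHom L σ = w := by
  let K : Subgroup Gal :=
    { carrier := {σ | ∀ (n : ℕ) (μ : QBar), μ ^ 2 ^ n = 1 → σ μ = μ}
      mul_mem' := fun {a b} ha hb n μ hμ => by rw [AlgEquiv.mul_apply, hb n μ hμ, ha n μ hμ]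
      one_mem' := fun _ _ _ => rfl
      inv_mem' := fun {a} ha n μ hμ => by
        conv_lhs => rw [← ha n μ hμ, ← AlgEquiv.mul_apply, inv_mul_cancel, AlgEquiv.one_apply] }
  have hnorm : ((K.map (cycHom L)).comap (cycHom L)).Normal := Subgroup.Normal.comap
    (Subgroup.normal_of_isMulCommutative _) _
  have htop : (K.map (cycHom L)).comap (cycHom L) = ⊤ := by
    refine eq_top_of_inertia_le _ (Subgroup.isOpen_mono (fun σ hσ => ?_) (isOpen_cycHom_ker (L := L)))
      fun q hq P hP σ hσ => ?_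
    · rw [Subgroup.mem_comap, MonoidHom.mem_ker.mp hσ]
      exact one_mem _
    · rw [Subgroup.mem_comap]
      by_cases hq2 : q = 2
      · subst hq2
        rw [cycHom_inertia hq (fun h => (Nat.not_even_iff_odd.mpr hL) (even_iff_two_dvd.mpr h))
          hP hσ]
        exact one_mem _
      · exact ⟨σ, fun n μ hμ => inertia_root hP hq hσ hμ
          (fun h => hq2 ((Nat.prime_dvd_prime_iff_eq hq Nat.prime_two).mp (hq.dvd_of_dvd_pow h))),
          rfl⟩
  obtain ⟨σ₀, rfl⟩ := cycHom_surjective w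
  obtain ⟨σ, hσ, he⟩ := (htop ▸ Subgroup.mem_top σ₀ : σ₀ ∈ (K.map (cycHom L)).comap (cycHom L))
  exact ⟨σ, hσ, he⟩

end Cyclotomic

variable {O : Type} [CommRing O] [IsLocalRing O]

section Level

variable (S : Setting O) {L : ℕ} [NeZero L] (hL : Odd L) (hsq : Squarefree L)
  {Δ : Type} [CommGroup Δ] (ψ : (ZMod L)ˣ →* Δ) (Q : Finset ℕ)
  (hQp : ∀ q ∈ Q, q.Prime) (hQ2 : ∀ q ∈ Q, q ≠ 2) (hQT : ∀ q ∈ Q, q ∉ S.T)
  (hψ : ∀ v : ℕ, v.Prime → v ∣ L → v ∉ Q → ∀ u : (ZMod L)ˣ,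
    ((u : ZMod L).cast : ZMod (L / v)) = 1 → ψ u = 1)
  (w : (ZMod L)ˣ) (hw : ∀ t : (ZMod L)ˣ, (t : ZMod L) = 2 → ψ w ^ 2 = ψ t)

/-- The level cut out by a character `ψ` of `(ℤ/L)ˣ`, with `ψ w` the square root of `ψ 2`. -/
def Level.ofChar : Level S where
  Q := Q
  prime_of_mem := hQp
  ne_two := hQ2
  notMem_T := hQT
  H := (ψ.comp (cycHom L)).ker
  inertia_le q hq hqQ P hP σ hσ := by
    refine MonoidHom.mem_ker.mpr ?_
    rw [MonoidHom.comp_apply]
    by_cases hqL : q ∣ L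
    · exact hψ q hq hqL hqQ _ (cycHom_inertia_cast hsq hq hqL hP hσ)
    · rw [cycHom_inertia hq hqL hP hσ, map_one]
  root2 := (exists_cycHom_eq_fixing_two hL w).choose
  root2_roots := (exists_cycHom_eq_fixing_two hL w).choose_spec.1
  root2_sq := by
    refine MonoidHom.mem_ker.mpr ?_
    rw [MonoidHom.comp_apply, map_mul, map_mul, map_mul, map_mul, map_inv, map_inv,
      (exists_cycHom_eq_fixing_two hL w).choose_spec.2, ← sq,
      hw (cycHom L S.φ2) (by
        exact_mod_cast cycHom_frobenius Nat.prime_two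
          (fun h => (Nat.not_even_iff_odd.mpr hL) (even_iff_two_dvd.mpr h)) S.P2_over S.φ2_frob),
      mul_inv_cancel]

theorem Level.ofChar_Q : (Level.ofChar S hL hsq ψ Q hQp hQ2 hQT hψ w hw).Q = Q := rfl

theorem Level.mem_ofChar_H (σ : Gal) :
    σ ∈ (Level.ofChar S hL hsq ψ Q hQp hQ2 hQT hψ w hw).H ↔ ψ (cycHom L σ) = 1 :=
  MonoidHom.mem_ker

theorem Level.cycHom_ofChar_root2 :
    cycHom L (Level.ofChar S hL hsq ψ Q hQp hQ2 hQT hψ w hw).root2 = w :=
  (exists_cycHom_eq_fixing_two hL w).choose_spec.2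

end Level

/-- The image of the absolute Galois group in `Δ`. -/
theorem exists_char_eq {L : ℕ} [NeZero L] {Δ : Type} [CommGroup Δ] {ψ : (ZMod L)ˣ →* Δ}
    (hψ : Function.Surjective ψ) (δ : Δ) : ∃ σ : Gal, ψ (cycHom L σ) = δ := by
  obtain ⟨u, rfl⟩ := hψ δ
  obtain ⟨σ, rfl⟩ := cycHom_surjective u
  exact ⟨σ, rfl⟩

section Aux

/-- A triangularising basis with nonzero upper entry. -/
theorem exists_triangular {k : Type} [Field k] (M : M2 k) (hdet : M.det = 1) (h2 : (2 : k) = 0)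
    (hne : M ≠ 1) {l : k} (hl : l ^ 2 - M.trace * l + 1 = 0) :
    ∃ g : M2 k, g.det ≠ 0 ∧ ∃ N : M2 k, M * g = g * N ∧ N 1 0 = 0 ∧ N 0 1 ≠ 0 := by
  rw [Matrix.det_fin_two] at hdet
  rw [Matrix.trace_fin_two] at hl
  by_cases hb : M 0 1 = 0
  · by_cases hc : M 1 0 = 0
    · have hne' : M 0 0 ≠ M 1 1 := fun e => hne (by
        have h1 : M 0 0 = 1 := by
          have : (M 0 0 - 1) ^ 2 = 0 := by
            rw [hb, hc, ← e] at hdet
            linear_combination hdet + (1 - M 0 0) * h2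
          exact sub_eq_zero.mp (sq_eq_zero_iff.mp this)
        ext i j
        fin_cases i <;> fin_cases j <;> simp [hb, hc, h1, ← e])
      refine ⟨!![1, 1; 0, 1], by simp [Matrix.det_fin_two],
        !![M 0 0, M 0 0 - M 1 1; 0, M 1 1], ?_, rfl, sub_ne_zero.mpr hne'⟩
      ext i j
      fin_cases i <;> fin_cases j <;> simp [Matrix.mul_apply, Fin.sum_univ_two, hb, hc]
    · refine ⟨!![0, 1; 1, 0], by simp [Matrix.det_fin_two],
        !![M 1 1, M 1 0; 0, M 0 0], ?_, rfl, hc⟩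
      ext i j
      fin_cases i <;> fin_cases j <;> simp [Matrix.mul_apply, Fin.sum_univ_two, hb]
  · refine ⟨!![M 0 1, 0; l - M 0 0, 1], by simp [Matrix.det_fin_two, hb],
      !![l, 1; 0, M 0 0 + M 1 1 - l], ?_, rfl, one_ne_zero⟩
    ext i j
    fin_cases i <;> fin_cases j <;> simp [Matrix.mul_apply, Fin.sum_univ_two]
    · ring
    · linear_combination -hl - hdet

/-- A lift to `O` of a residual triangularising basis. -/
theorem exists_basis (S : Setting O) {φ : Gal} (hne : S.W.rb φ ≠ 1) {l : ResidueField O}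
    (hl : l ^ 2 - (S.W.rb φ).trace * l + 1 = 0) :
    ∃ g : (M2 O)ˣ, residualAt S g φ 1 0 = 0 ∧ residualAt S g φ 0 1 ≠ 0 := by
  obtain ⟨g₀, hg₀, N, hN, h10, h01⟩ :=
    exists_triangular _ (S.det_rb φ) S.two_eq_zero hne hl
  choose lift hlift using residue_surjective (R := O)
  let G : M2 O := g₀.map lift
  have hG : (algebraMap O (ResidueField O)).mapMatrix G = g₀ := by
    ext i j
    exact hlift _
  have hGu : IsUnit G := (Matrix.isUnit_iff_isUnit_det G).mpr (residue_ne_zero_iff_isUnit _ |>.mp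
    (by
      show (algebraMap O (ResidueField O)) G.det ≠ 0
      rw [RingHom.map_det, hG]
      exact hg₀))
  set gk := Units.map (algebraMap O (ResidueField O)).mapMatrix.toMonoidHom hGu.unit
  have hgk : (gk : M2 (ResidueField O)) = g₀ := hG
  have he : residualAt S hGu.unit φ = N := by
    rw [residualAt, conjM_apply, mul_assoc, show (gk : M2 (ResidueField O)) = g₀ from hgk, hN,
      ← hgk, ← mul_assoc, Units.inv_mul, one_mul]
  exact ⟨hGu.unit, by rw [he, h10], by rw [he]; exact h01⟩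

/-- An inertia element moving a square root of `q`. -/
theorem exists_inertia_moves_sqrt {q : ℕ} (hq : q.Prime) (hq2 : q ≠ 2)
    {P : ValuationSubring QBar} (hP : P.LiesOverPrime q) :
    ∃ σ ∈ P.inertiaSubgroupIn ℚ, ∃ y : QBar, y ^ 2 = (q : QBar) ∧ σ y ≠ y := by
  have h2 : 2 ∣ q - 1 := (hq.eq_two_or_odd'.resolve_left hq2).tsub_odd odd_one |>.two_dvd
  obtain ⟨σ, -, π, m, hσ, -, -, hπ, hord, hne, hsq⟩ :=
    RT.Assembly.exists_inertia_uniformiser Nat.prime_two hP hq h2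
  refine ⟨σ, hσ, ?_⟩
  obtain ⟨y, hy⟩ := IsAlgClosed.exists_pow_nat_eq (q : QBar) two_pos
  refine ⟨y, hy, fun hfix => hne ?_⟩
  have hy0 : y ≠ 0 := fun h => by
    rw [h, zero_pow two_ne_zero, eq_comm, Nat.cast_eq_zero] at hy
    exact hq.ne_zero hy
  have hoy : Mazur.Eisenstein.ordAt P q (y ^ m) = (m : ℚ) / ((2 : ℕ) : ℚ) := by
    have := Mazur.Eisenstein.ordAt_pow hP hq hy0 2
    rw [hy, Mazur.Eisenstein.ordAt_prime hP hq] at this
    rw [Mazur.Eisenstein.ordAt_zpow hP hq hy0]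
    push_cast at this ⊢
    linear_combination (-(m : ℚ) / 2) * this
  have hval : P.valuation π = P.valuation (y ^ m) := by
    have h := (Mazur.Eisenstein.ordAt_eq_zero_iff hP hq (div_ne_zero hπ (zpow_ne_zero m hy0))).mp
      (by rw [Mazur.Eisenstein.ordAt_div hP hq hπ (zpow_ne_zero m hy0), hord, hoy, sub_self])
    rwa [Mazur.Eisenstein.IsUnitAt, map_div₀,
      div_eq_one_iff_eq (P.valuation.ne_zero_iff.mpr (zpow_ne_zero m hy0))] at h
  rw [RT.Assembly.res_apply_div_self_of_valuation_eq hσ hπ (zpow_ne_zero m hy0) hval, map_zpow₀,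
    hfix, div_self (zpow_ne_zero m hy0), EC.Reduction.res_one]

variable (S : Setting O) (Lv : Level S) {ι : Type} [Fintype ι] [DecidableEq ι] (q : ι → ℕ)
  (hmem : ∀ i, q i ∈ Lv.Q) (hinj : Function.Injective q) (hsurj : ∀ v ∈ Lv.Q, ∃ i, q i = v)
  (P : ι → ValuationSubring QBar) (hP : ∀ i, (P i).LiesOverPrime (q i))
  (φ : ι → Gal) (hφ : ∀ i, (P i).IsFrobeniusAt (φ i) (q i)) (isU : ι → Bool)
  (hU : ∀ i, isU i = true → S.W.rb (φ i) ≠ 1 ∧ (S.W.rb (φ i)).trace = 0)
  (hD : ∀ i, isU i = false → (S.W.rb (φ i)).trace = 1)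
  {ω : ResidueField O} (hω : ω ^ 2 + ω + 1 = 0)

include hU hD hω in
omit [Fintype ι] [DecidableEq ι] in
theorem exists_basis_of_frobenius (i : ι) :
    ∃ g : (M2 O)ˣ, residualAt S g (φ i) 1 0 = 0 ∧ residualAt S g (φ i) 0 1 ≠ 0 := by
  have h2 : (2 : ResidueField O) = 0 := S.two_eq_zero
  cases hi : isU i
  · refine exists_basis S (fun h => ?_) (l := ω) ?_
    · have := hD i hi
      rw [h, Matrix.trace_one, Fintype.card_fin, Nat.cast_two, h2] at this
      exact zero_ne_one this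
    · rw [hD i hi]
      linear_combination hω - ω * h2
  · refine exists_basis S (hU i hi).1 (l := 1) ?_
    rw [(hU i hi).2]
    linear_combination h2

/-- The data at auxiliary primes with given Frobenius elements. -/
def Aux.ofFrobenius : Aux S Lv where
  ι := ι
  q := q
  q_mem := hmem
  q_injective := hinj
  q_surj := hsurj
  P := P
  P_over := hP
  φ := φ
  φ_frob := hφ
  τ i := (exists_inertia_moves_sqrt (Lv.prime_of_mem _ (hmem i)) (Lv.ne_two _ (hmem i))
    (hP i)).choose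
  τ_mem i := (exists_inertia_moves_sqrt (Lv.prime_of_mem _ (hmem i)) (Lv.ne_two _ (hmem i))
    (hP i)).choose_spec.1
  τ_gen i := (exists_inertia_moves_sqrt (Lv.prime_of_mem _ (hmem i)) (Lv.ne_two _ (hmem i))
    (hP i)).choose_spec.2
  g i := (exists_basis_of_frobenius S φ isU hU hD hω i).choose
  isU := isU
  rb_lower i := (exists_basis_of_frobenius S φ isU hU hD hω i).choose_spec.1
  rb_upper i := (exists_basis_of_frobenius S φ isU hU hD hω i).choose_spec.2
  rb_diag i := by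
    have h2 : (2 : ResidueField O) = 0 := S.two_eq_zero
    set M := residualAt S (exists_basis_of_frobenius S φ isU hU hD hω i).choose (φ i) with hM
    have htr : M 0 0 + M 1 1 = (S.W.rb (φ i)).trace := by
      rw [← Matrix.trace_fin_two, hM, residualAt, conjM_apply, Matrix.trace_mul_comm,
        ← mul_assoc, Units.mul_inv, one_mul]
    refine ⟨fun he => ?_, fun hi => ?_⟩
    · cases hi : isU i
      · rw [he, hD i hi, ← two_mul, h2, zero_mul] at htr
        exact absurd htr zero_ne_one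
      · rfl
    · rw [(hU i hi).2] at htr
      linear_combination htr - M 1 1 * h2

/-- The existence form of `Aux.ofFrobenius`. -/
theorem Aux.exists_of_frobenius (hmem : ∀ i, q i ∈ Lv.Q) (hinj : Function.Injective q)
    (hsurj : ∀ v ∈ Lv.Q, ∃ i, q i = v) (hP : ∀ i, (P i).LiesOverPrime (q i))
    (hφ : ∀ i, (P i).IsFrobeniusAt (φ i) (q i))
    (hU : ∀ i, isU i = true → S.W.rb (φ i) ≠ 1 ∧ (S.W.rb (φ i)).trace = 0)
    (hD : ∀ i, isU i = false → (S.W.rb (φ i)).trace = 1) (hω : ω ^ 2 + ω + 1 = 0) :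
    ∃ (D : Aux S Lv) (e : ι ≃ D.ι),
      ∀ i, D.q (e i) = q i ∧ D.P (e i) = P i ∧ D.φ (e i) = φ i ∧ D.isU (e i) = isU i :=
  ⟨Aux.ofFrobenius S Lv q hmem hinj hsurj P hP φ hφ isU hU hD hω, Equiv.refl _,
    fun _ => ⟨rfl, rfl, rfl, rfl⟩⟩

end Aux

end Fermat.Agent.TwoAdic.Deform
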