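import Fermat.Agent.TwoAdic.Deform.LocalTangent

/-!
# The tangent bound of the auxiliary deformation rings

A coefficient algebra carrying a normalised lift with auxiliary functionals, whose entries and
positions detect derivations, has tangent dimension at most the Selmer bound plus the number of
`U` primes, hence is a quotient of a power series ring in that many variables.
-/

set_option autoImplicit false
set_option linter.style.haveILetI false

noncomputable section

namespace Fermat.Agent.TwoAdic.Deform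

open IsLocalRing Fermat.Agent.Deform Fermat.Agent.CFT.Tangent Fermat.Agent.Arith Module

variable {O : Type} [CommRing O] [IsLocalRing O] {R : Type} [CommRing R] [IsLocalRing R]
  [Algebra O R] {h : IsResAlg O R} {S : Setting O} {Lv : Level S} {ru : Gal →* M2 R}

/-- On inertia at an auxiliary prime, the second row of a class is decided by the chosen element. -/
def AuxInertia (D : Aux S Lv) : Prop :=
  ∀ b : Cochain O, (∀ g g', b (g * g') = S.W.rb g * b g' * S.W.rb g⁻¹ + b g) →
    (∃ L : IntermediateField ℚ QBar, FiniteDimensional ℚ L ∧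
      ∀ σ : Gal, (∀ x ∈ L, σ x = x) → b σ = 0) →
    ∀ i, D.locCls i b (D.τ i) 1 0 = 0 → D.locCls i b (D.τ i) 1 1 = 0 →
      ∀ σ ∈ (D.P i).inertiaSubgroupIn ℚ, D.locCls i b σ 1 0 = 0 ∧ D.locCls i b σ 1 1 = 0

variable (D : Aux S Lv) (i : D.ι)

theorem augM_loc (hl : Lifts S.W h ru) (σ : Gal) :
    augM h (D.loc i ru σ) = residualAt S (D.g i) σ := by
  show augM h ((algebraMap O R).mapMatrix ↑(D.g i)⁻¹ * ru σ * (algebraMap O R).mapMatrix ↑(D.g i))
    = _
  rw [map_mul, map_mul, augM_map_algebraMap, augM_map_algebraMap, augM_lift hl]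
  rfl

theorem derM_loc (δ : tangentDer h) (hl : Lifts S.W h ru) (σ : Gal) :
    derM δ (D.loc i ru σ) =
      D.locCls i (tangentCls S.W h ru δ) σ * residualAt S (D.g i) σ := by
  show derM δ ((algebraMap O R).mapMatrix ↑(D.g i)⁻¹ * ru σ *
    (algebraMap O R).mapMatrix ↑(D.g i)) = _
  rw [derM_mul, derM_mul, derM_map_algebraMap, derM_map_algebraMap, augM_map_algebraMap,
    augM_map_algebraMap, derM_lift, mul_zero, zero_add, zero_mul, add_zero]
  show _ = (↑(D.basis i (ResidueField O))⁻¹ * tangentCls S.W h ru δ σ *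
    ↑(D.basis i (ResidueField O))) * (↑(D.basis i (ResidueField O))⁻¹ * S.W.rb σ *
      ↑(D.basis i (ResidueField O)))
  rw [mul_assoc (↑(D.basis i (ResidueField O))⁻¹ : M2 (ResidueField O)) (S.W.rb σ),
    mul_assoc _ (↑(D.basis i (ResidueField O)) : M2 (ResidueField O)),
    Units.mul_inv_cancel_left]
  simp only [mul_assoc]
  rfl

theorem residualAt_eq_one {σ : Gal} (hσ : σ ∈ (D.P i).inertiaSubgroupIn ℚ) :
    residualAt S (D.g i) σ = 1 := by
  show conjM _ S.W.rb σ = 1
  rw [conjM_apply, S.rb_unramified (D.q i) (Lv.prime_of_mem _ (D.q_mem i))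
    (Lv.ne_two _ (D.q_mem i)) (Lv.notMem_T _ (D.q_mem i)) _ (D.P_over i) σ hσ, mul_one,
    Units.inv_mul]

theorem det_residualAt (g : (M2 O)ˣ) (σ : Gal) : (residualAt S g σ).det = 1 := by
  unfold residualAt
  rw [conjM_apply, Matrix.det_units_conj', S.det_rb]

/-- The conditions at an auxiliary prime, and the derivative of the position of the line. -/
theorem aux_cls (δ : tangentDer h) (hl : Lifts S.W h ru) {x : D.ι → R}
    (hxm : ∀ i, x i ∈ maximalIdeal R) (hx : IsEigen D ru x) :
    let b := tangentCls S.W h ru δ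
    D.locCls i b (D.τ i) 1 0 = 0 ∧ D.locCls i b (D.τ i) 1 1 = 0 ∧
      (D.isU i = true → D.locCls i b (D.φ i) 1 0 = 0) ∧
      (D.isU i = false → b = 0 → δ.1 (x i) = 0) := by
  intro b
  obtain ⟨hst, hfx⟩ := hx i
  have hx0 : augment h (x i) = 0 := (augment_eq_zero_iff h _).mpr (hxm i)
  set N := residualAt S (D.g i)
  set d := D.locCls i b
  have haug : ∀ σ j l, augment h (D.loc i ru σ j l) = N σ j l := fun σ j l => by
    rw [← augM_apply (h := h), augM_loc D i hl]
  have e : ∀ σ j l, δ.1 (D.loc i ru σ j l) = (d σ * N σ) j l := fun σ j l => by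
    rw [← derM_apply δ, derM_loc D i δ hl]
  have hτ : N (D.τ i) = 1 := residualAt_eq_one D i (D.τ_mem i)
  have h1 := congrArg δ.1 hfx.1
  have h2 := congrArg δ.1 hfx.2
  have h3 := congrArg δ.1 hst
  simp only [der_add, der_mul, der_sub, der_one, der_zero, map_sub, map_one, haug, e, hτ, hx0,
    mul_one, Matrix.one_apply_eq, Matrix.one_apply_ne (show (0 : Fin 2) ≠ 1 by decide), sub_self,
    zero_mul, zero_add, sub_zero] at h1 h2
  have hd1 : N (D.φ i) 0 0 * N (D.φ i) 1 1 = 1 := by
    have hd : (N (D.φ i)).det = 1 := det_residualAt _ _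
    rw [Matrix.det_fin_two, D.rb_lower i, mul_zero, sub_zero] at hd
    exact hd
  simp only [der_add, der_mul, map_add, map_mul, haug, e, hx0, show N (D.φ i) 1 0 = 0 from
    D.rb_lower i, Matrix.mul_apply, Fin.sum_univ_two, zero_mul, mul_zero, zero_add, add_zero] at h3
  refine ⟨h1, h2, fun hU => ?_, fun hD hb => ?_⟩
  · have hdiag : N (D.φ i) 0 0 = N (D.φ i) 1 1 := (D.rb_diag i).mpr hU
    rw [hdiag] at h3 hd1
    exact eq_zero_of_ne_zero_of_mul_right_eq_zero (left_ne_zero_of_mul_eq_one hd1)
      (by linear_combination h3)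
  · have hd0 : d (D.φ i) = 0 := by
      show _ * b (D.φ i) * _ = 0
      rw [hb, Pi.zero_apply, mul_zero, zero_mul]
    have hne : N (D.φ i) 0 0 - N (D.φ i) 1 1 ≠ 0 := sub_ne_zero.mpr fun hh => by
      rw [(D.rb_diag i).mp hh] at hD; exact Bool.noConfusion hD
    rw [hd0, Matrix.zero_apply] at h3
    exact eq_zero_of_ne_zero_of_mul_left_eq_zero hne (by linear_combination h3)

variable [Finite (ResidueField O)]

/-- The tangent classes are Selmer classes. -/
theorem isSelmer_tangentCls (hI : AuxInertia D) (δ : tangentDer h) (hl : Lifts S.W h ru)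
    (hc : IsCont ru) (hlift : IsLift S Lv ru) {x : D.ι → R} (hxm : ∀ i, x i ∈ maximalIdeal R)
    (hx : IsEigen D ru x) : IsSelmer D (tangentCls S.W h ru δ) := by
  obtain ⟨x2, hx2⟩ := hlift.two
  obtain ⟨t1, t2, -⟩ := two_cls δ hl hx2
  refine ⟨tangentCls_mul hl δ, tangentCls_finiteLevel hc δ,
    fun q hq h2 hT hQ P hP σ hσ => unramified_cls δ hlift hq h2 hT hQ hP hσ,
    fun q hq P hP σ hσ => steinberg_cls δ hl hlift hq hP hσ,
    fun q hq hQ P hP σ hσ => trace_cls δ hl hlift hq hQ hP hσ, t1, t2, fun i σ hσ => ?_,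
    fun i => (aux_cls D i δ hl hxm hx).2.2.1⟩
  obtain ⟨a1, a2, -, -⟩ := aux_cls D i δ hl hxm hx
  exact hI _ (tangentCls_mul hl δ) (tangentCls_finiteLevel hc δ) i a1 a2 σ hσ

variable [IsNoetherianRing R]

/-- The number of `U` primes. -/
def Aux.numU : ℕ := Fintype.card {i : D.ι // D.isU i = true}

/-- The tangent bound, from a bound on classes with any additional property `P`. -/
theorem finrank_tangentDer_le_of_bound (hI : AuxInertia D) (hl : Lifts S.W h ru)
    (hn : IsNormal S.W ru) (hc : IsCont ru) (hlift : IsLift S Lv ru) {x : D.ι → R}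
    (hxm : ∀ i, x i ∈ maximalIdeal R) (hx : IsEigen D ru x)
    (hgen : ∀ δ : tangentDer h, (∀ σ j l, δ.1 (ru σ j l) = 0) → (∀ i, δ.1 (x i) = 0) → δ = 0)
    {P : Cochain O → Prop} (hP : ∀ δ : tangentDer h, P (tangentCls S.W h ru δ)) {n : ℕ}
    (hb : ∀ V : Submodule (ResidueField O) (Cochain O), Module.Finite (ResidueField O) V →
      (∀ b ∈ V, IsSelmer D b ∧ P b) → V ⊓ LinearMap.range (cobdLin S.W.rb) = ⊥ →
        finrank (ResidueField O) V ≤ n) :
    finrank (ResidueField O) (tangentDer h) ≤ n + D.numU := by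
  let k := ResidueField O
  let cls := tangentCls S.W h ru
  let pos : tangentDer h →ₗ[k] ({i : D.ι // D.isU i = true} → k) :=
    { toFun := fun δ i => δ.1 (x i)
      map_add' := fun _ _ => rfl
      map_smul' := fun _ _ => rfl }
  have hcob : ∀ δ X, cls δ = cobdLin S.W.rb X → cls δ = 0 := fun δ X hX => funext fun σ =>
    tangentCls_eq_zero_of_derM δ (Matrix.ext fun j l => der_entries_eq_zero δ hl hn hX σ j l)
  have hinj : Function.Injective (cls.rangeRestrict.prod pos) := by
    refine (injective_iff_map_eq_zero _).mpr fun δ hδ => ?_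
    have hb0 : cls δ = 0 := congrArg Subtype.val (congrArg Prod.fst hδ)
    refine hgen δ (fun σ j l => ?_) (fun i => ?_)
    · rw [← derM_apply δ, derM_lift (W := S.W), show tangentCls S.W h ru δ σ = 0 from
        congr_fun hb0 σ, zero_mul, Matrix.zero_apply]
    · cases hU : D.isU i with
      | true => exact congr_fun (congrArg Prod.snd hδ) ⟨i, hU⟩
      | false => exact (aux_cls D i δ hl hxm hx).2.2.2 hU hb0
  have hV : finrank k (LinearMap.range cls) ≤ n := by
    refine hb _ inferInstance ?_ ?_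
    · rintro _ ⟨δ, rfl⟩
      exact ⟨isSelmer_tangentCls D hI δ hl hc hlift hxm hx, hP δ⟩
    · refine eq_bot_iff.mpr fun b hb => ?_
      obtain ⟨⟨δ, rfl⟩, X, hX⟩ := Submodule.mem_inf.mp hb
      exact (Submodule.mem_bot k).mpr (hcob δ X hX.symm)
  refine le_trans (LinearMap.finrank_le_finrank_of_injective hinj) ?_
  rw [Module.finrank_prod, Module.finrank_pi]
  exact Nat.add_le_add_right hV _

variable [IsAdicComplete (maximalIdeal O) O] [IsAdicComplete (maximalIdeal R) R]

/-- The signed auxiliary ring is a quotient of a power series ring in `n + #U` variables. -/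
theorem exists_surjective_of_signedSelmerBound (hI : AuxInertia D) (hl : Lifts S.W h ru)
    (hn : IsNormal S.W ru) (hc : IsCont ru) (hlift : IsLift S Lv ru) {x : D.ι → R}
    (hxm : ∀ i, x i ∈ maximalIdeal R) (hx : IsEigen D ru x)
    (hgen : ∀ δ : tangentDer h, (∀ σ j l, δ.1 (ru σ j l) = 0) → (∀ i, δ.1 (x i) = 0) → δ = 0)
    {a : R} {a0 : O} (ha : a = algebraMap O R a0) (ha0 : residue O a0 = 1)
    (hs : IsSigned S Lv a ru) {n : ℕ} (hb : SignedSelmerBound D n) :
    ∃ γ : MvPowerSeries (Fin (n + D.numU)) O →ₐ[O] R, Function.Surjective γ :=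
  exists_surjective_of_finrank_le h (finrank_tangentDer_le_of_bound D hI hl hn hc hlift hxm hx
    hgen (P := fun b => alphaFun Lv b = 0) (fun δ => alphaFun_cls δ hl ha ha0 hs) hb)

/-- The auxiliary ring is a quotient of a power series ring in `n + #U` variables. -/
theorem exists_surjective_of_selmerBound (hI : AuxInertia D) (hl : Lifts S.W h ru)
    (hn : IsNormal S.W ru) (hc : IsCont ru) (hlift : IsLift S Lv ru) {x : D.ι → R}
    (hxm : ∀ i, x i ∈ maximalIdeal R) (hx : IsEigen D ru x)
    (hgen : ∀ δ : tangentDer h, (∀ σ j l, δ.1 (ru σ j l) = 0) → (∀ i, δ.1 (x i) = 0) → δ = 0)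
    {n : ℕ} (hb : SelmerBound D n) :
    ∃ γ : MvPowerSeries (Fin (n + D.numU)) O →ₐ[O] R, Function.Surjective γ :=
  exists_surjective_of_finrank_le h (finrank_tangentDer_le_of_bound D hI hl hn hc hlift hxm hx
    hgen (P := fun _ => True) (fun _ => trivial)
    (fun V hV h1 h2 => hb V hV (fun b hbV => (h1 b hbV).1) h2))

end Fermat.Agent.TwoAdic.Deform
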