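import Fermat.Agent.TwoAdic.Deform.Setting
import Fermat.Agent.CFT.Tangent.Dictionary

/-!
# Functoriality of the deformation conditions

Push forward, descent along injective maps, change of basis, products, and change of level.
-/

set_option autoImplicit false
set_option linter.style.haveILetI false

noncomputable section

namespace Fermat.Agent.TwoAdic.Deform

open IsLocalRing Fermat.Agent.Deform Fermat.Agent.Arith

variable {O : Type} [CommRing O] [IsLocalRing O] {S : Setting O} {Lv : Level S}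
variable {A B : Type} [CommRing A] [CommRing B]

section Map

variable {r : Gal →* M2 A}

theorem TwoLine.map {x : A} (h : TwoLine S r x) (f : A →+* B) : TwoLine S (mapM f r) (f x) :=
  ⟨fun σ hσ => (h.1 σ hσ).map f, fun σ hσ => (h.2 σ hσ).map f⟩

theorem IsLift.map (h : IsLift S Lv r) (f : A →+* B) : IsLift S Lv (mapM f r) where
  det σ hσ n a ha := by
    obtain ⟨c, hc⟩ := Ideal.mem_span_singleton'.mp (h.det σ hσ n a ha)
    refine Ideal.mem_span_singleton'.mpr ⟨f c, ?_⟩
    rw [show (mapM f r σ).det = f (r σ).det from (f.map_det _).symm, ← map_natCast f a, ← map_sub,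
      ← hc, map_mul, map_natCast]
  unramified q hq h2 hT hQ P hP σ hσ := by
    show f.mapMatrix (r σ) = 1
    rw [h.unramified q hq h2 hT hQ P hP σ hσ, map_one]
  steinberg q hq P hP σ hσ := by
    obtain ⟨h1, h2⟩ := h.steinberg q hq P hP σ hσ
    refine ⟨?_, ?_⟩
    · rw [Matrix.trace_fin_two] at h1 ⊢
      rw [mapM_apply, mapM_apply, ← map_add, h1, map_ofNat]
    · rw [show (mapM f r σ).det = f (r σ).det from (f.map_det _).symm, h2, map_one]
  qdet q hq P hP σ hσ := by
    show (f.mapMatrix (r σ) - 1).det = 0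
    rw [← map_one f.mapMatrix, ← map_sub, ← f.map_det, h.qdet q hq P hP σ hσ, map_zero]
  two := h.two.elim fun x hx => ⟨f x, hx.map f⟩

theorem IsSigned.map {a : A} (h : IsSigned S Lv a r) (f : A →+* B) :
    IsSigned S Lv (f a) (mapM f r) := by
  obtain ⟨x, hx, hv⟩ := h
  refine ⟨f x, hx.map f, ?_⟩
  show lineVal (f x) (f.mapMatrix (r S.φ2)) = f a * (f.mapMatrix (r Lv.root2)).det
  rw [lineVal_map, hv, map_mul, f.map_det]

variable [Algebra O A] [Algebra O B] (D : Aux S Lv)

theorem Aux.loc_mapM (i : D.ι) (f : A →ₐ[O] B) :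
    D.loc i (mapM (f : A →+* B) r) = mapM (f : A →+* B) (D.loc i r) := by
  have h : ∀ g : (M2 O)ˣ, (f : A →+* B).mapMatrix ((algebraMap O A).mapMatrix (g : M2 O)) =
      (algebraMap O B).mapMatrix (g : M2 O) := fun g => by
    ext a b
    exact f.commutes _
  refine MonoidHom.ext fun σ => ?_
  show _ * (f : A →+* B).mapMatrix (r σ) * _ =
    (f : A →+* B).mapMatrix ((algebraMap O A).mapMatrix ↑(D.g i)⁻¹ * r σ *
      (algebraMap O A).mapMatrix ↑(D.g i))
  rw [map_mul, map_mul, h, h]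
  rfl

variable {D}

theorem IsEigen.map {x : D.ι → A} (h : IsEigen D r x) (f : A →ₐ[O] B) :
    IsEigen D (mapM (f : A →+* B) r) (fun i => f (x i)) := fun i => by
  rw [Aux.loc_mapM]
  exact ⟨(h i).1.map (f : A →+* B), (h i).2.map (f : A →+* B)⟩

end Map

section Descent

variable {r : Gal →* M2 A}

/-- The only possible position of the line at `2`. -/
def twoPos (S : Setting O) (r : Gal →* M2 A) : A :=
  -(r S.σ2 1 1 - 1) * Ring.inverse (r S.σ2 0 1)

theorem TwoLine.eq_twoPos {x : A} (hu : IsUnit (r S.σ2 0 1)) (h : TwoLine S r x) :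
    x = twoPos S r := by
  have h2 := (h.1 _ S.σ2_mem).2
  rw [twoPos, ← eq_neg_of_add_eq_zero_left h2, Ring.mul_inverse_cancel_right _ _ hu]

theorem TwoLine.of_map {f : A →+* B} (hf : Function.Injective f) (hu : IsUnit (r S.σ2 0 1))
    {y : B} (h : TwoLine S (mapM f r) y) : y = f (twoPos S r) ∧ TwoLine S r (twoPos S r) := by
  have hy : y = f (twoPos S r) := by
    rw [h.eq_twoPos (by simpa using hu.map f), twoPos, twoPos, mapM_apply, mapM_apply, map_mul,
      map_neg, map_sub, map_one]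
    congr 1
    obtain ⟨u, hu⟩ := hu
    rw [← hu, Ring.inverse_unit]
    exact Ring.inverse_unit (Units.map (f : A →* B) u)
  subst hy
  exact ⟨rfl, fun σ hσ => (h.1 σ hσ).of_map hf, fun σ hσ => (h.2 σ hσ).of_map hf⟩

/-- Divisibility by powers of `2` in `B` is bounded below by that in `A`. -/
def TwoSaturated (f : A →+* B) : Prop :=
  ∀ n : ℕ, ∃ m : ℕ, ∀ a : A, f a ∈ Ideal.span {((2 ^ m : ℕ) : B)} →
    a ∈ Ideal.span {((2 ^ n : ℕ) : A)}

theorem twoSaturated_of_linearMap {R : Type} [CommRing R] [IsNoetherianRing R] [Algebra R A]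
    [Algebra R B] [Module.Finite R B] (f : A →ₐ[R] B) (hf : Function.Injective f) :
    TwoSaturated (f : A →+* B) := by
  intro n
  obtain ⟨k, hk⟩ := (Ideal.span {(2 : R)}).exists_pow_inf_eq_pow_smul (LinearMap.range f.toLinearMap)
  refine ⟨n + k, fun a ha => ?_⟩
  obtain ⟨b, hb⟩ := Ideal.mem_span_singleton'.mp ha
  have h1 : f a ∈ Ideal.span {(2 : R)} ^ (n + k) • (⊤ : Submodule R B) ⊓
      LinearMap.range f.toLinearMap := by
    refine ⟨?_, ⟨a, rfl⟩⟩
    rw [show f a = (2 : R) ^ (n + k) • b from (by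
      rw [Algebra.smul_def, map_pow, map_ofNat, mul_comm]
      simpa using hb.symm), Ideal.span_singleton_pow]
    exact Submodule.smul_mem_smul (Ideal.mem_span_singleton_self _) Submodule.mem_top
  rw [hk _ (Nat.le_add_left k n), Nat.add_sub_cancel] at h1
  have h2 := Submodule.smul_mono (le_refl (Ideal.span {(2 : R)} ^ n)) inf_le_right h1
  rw [Ideal.span_singleton_pow, Submodule.ideal_span_singleton_smul,
    Submodule.mem_smul_pointwise_iff_exists] at h2
  obtain ⟨_, ⟨c, rfl⟩, hc⟩ := h2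
  refine Ideal.mem_span_singleton'.mpr ⟨c, hf (Eq.trans ?_ hc)⟩
  rw [AlgHom.toLinearMap_apply, ← map_smul, Algebra.smul_def, map_pow (algebraMap R A), map_ofNat]
  push_cast
  ring_nf

theorem twoSaturated_of_pow_eq_zero (f : A →+* B) (hf : Function.Injective f) {m : ℕ}
    (hm : ((2 ^ m : ℕ) : B) = 0) : TwoSaturated f := fun n => ⟨m, fun a ha => by
  rw [hm, Ideal.span_singleton_eq_bot.mpr rfl, Ideal.mem_bot] at ha
  rw [hf (ha.trans (map_zero f).symm)]
  exact Ideal.zero_mem _⟩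

theorem natCast_sub_natCast_mem {n a b : ℕ} (h : a ≡ b [MOD n]) :
    (a : A) - (b : A) ∈ Ideal.span {(n : A)} := by
  obtain ⟨c, hc⟩ := (Nat.modEq_iff_dvd.mp h.symm)
  refine Ideal.mem_span_singleton'.mpr ⟨(c : A), ?_⟩
  have := congrArg (Int.cast : ℤ → A) hc
  push_cast at this
  rw [this, mul_comm]

theorem IsLift.of_map {f : A →+* B} (hf : Function.Injective f) (hs : TwoSaturated f)
    (hu : IsUnit (r S.σ2 0 1)) (h : IsLift S Lv (mapM f r)) : IsLift S Lv r where
  det σ hσ n a ha := by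
    obtain ⟨m, hm⟩ := hs n
    haveI : NeZero (2 ^ (n + m)) := ⟨pow_ne_zero _ two_ne_zero⟩
    obtain ⟨a', ha'⟩ := CFT.Tangent.exists_pow_eq_on_roots (2 ^ (n + m)) σ
    have hpow : ∀ {k : ℕ}, k ≤ n + m → ∀ μ : QBar, μ ^ 2 ^ k = 1 → σ μ = μ ^ a' :=
      fun {k} hk μ hμ => ha' μ (by
        obtain ⟨c, hc⟩ := Nat.exists_eq_add_of_le hk
        rw [hc, pow_add, pow_mul, hμ, one_pow])
    have h1 := h.det σ hσ m a' (hpow (Nat.le_add_left m n))
    rw [show (mapM f r σ).det = f (r σ).det from (f.map_det _).symm, ← map_natCast f a',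
      ← map_sub] at h1
    have h2 := hm _ h1
    have hmod : a' ≡ a [MOD 2 ^ n] := by
      obtain ⟨ζ, hζ⟩ := HasEnoughRootsOfUnity.exists_primitiveRoot QBar (2 ^ n)
      have he : ζ ^ a' = ζ ^ a := by
        rw [← hpow (Nat.le_add_right n m) ζ hζ.pow_eq_one, ← ha ζ hζ.pow_eq_one]
      rw [← pow_mod_orderOf ζ a', ← pow_mod_orderOf ζ a, ← hζ.eq_orderOf] at he
      exact hζ.pow_inj (Nat.mod_lt _ (pow_pos two_pos n)) (Nat.mod_lt _ (pow_pos two_pos n)) he
    have := add_mem h2 (natCast_sub_natCast_mem (A := A) hmod)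
    rwa [sub_add_sub_cancel] at this
  unramified q hq h2 hT hQ P hP σ hσ :=
    Matrix.map_injective hf ((h.unramified q hq h2 hT hQ P hP σ hσ).trans
      (Matrix.map_one f (map_zero f) (map_one f)).symm)
  steinberg q hq P hP σ hσ := by
    obtain ⟨h1, h2⟩ := h.steinberg q hq P hP σ hσ
    refine ⟨hf ?_, hf ?_⟩
    · rw [Matrix.trace_fin_two] at h1 ⊢
      rw [map_add, map_ofNat]
      exact h1
    · rw [f.map_det, map_one]
      exact h2
  qdet q hq P hP σ hσ := hf (by
    rw [f.map_det, map_sub, map_one, map_zero]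
    exact h.qdet q hq P hP σ hσ)
  two := by
    obtain ⟨y, hy⟩ := h.two
    exact ⟨_, (hy.of_map hf hu).2⟩

theorem IsSigned.of_map {f : A →+* B} (hf : Function.Injective f) (hu : IsUnit (r S.σ2 0 1))
    {a : A} (h : IsSigned S Lv (f a) (mapM f r)) : IsSigned S Lv a r := by
  obtain ⟨y, hy, hv⟩ := h
  obtain ⟨rfl, hx⟩ := hy.of_map hf hu
  refine ⟨_, hx, hf ?_⟩
  rw [map_mul, f.map_det, ← lineVal_map]
  exact hv

theorem isUnit_σ2_entry [IsLocalRing A] [Algebra O A] {h : IsResAlg O A}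
    (hl : Lifts S.W h r) : IsUnit (r S.σ2 0 1) :=
  isUnit_of_augment_ne_zero h (by rw [hl, S.rb_σ2]; simp [upperU])

variable [Algebra O A] [Algebra O B] {D : Aux S Lv}

theorem IsEigen.of_map {f : A →ₐ[O] B} (hf : Function.Injective f) {x : D.ι → A}
    (h : IsEigen D (mapM (f : A →+* B) r) (fun i => f (x i))) : IsEigen D r x := fun i => by
  obtain ⟨h1, h2⟩ := h i
  rw [Aux.loc_mapM] at h1 h2
  exact ⟨h1.of_map (f := (f : A →+* B)) hf, h2.of_map (f := (f : A →+* B)) hf⟩

end Descent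

section Conj

/-- The image of the line `x` under a change of basis. -/
def lineMove (P : M2 A) (x : A) : A :=
  (x * P 0 0 + P 1 0) * Ring.inverse (x * P 0 1 + P 1 1)

theorem StableLine.conj {x : A} {T : M2 A} (h : StableLine x T) (P : (M2 A)ˣ)
    (hu : IsUnit (x * (P : M2 A) 0 1 + (P : M2 A) 1 1)) :
    StableLine (lineMove P x) ((↑P⁻¹ : M2 A) * T * (P : M2 A)) ∧
      lineVal (lineMove P x) ((↑P⁻¹ : M2 A) * T * (P : M2 A)) = lineVal x T := by
  set u := x * (P : M2 A) 0 1 + (P : M2 A) 1 1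
  have hf : Matrix.vecMul ![x, 1] T = lineVal x T • ![x, 1] := by
    funext j
    unfold StableLine at h
    fin_cases j <;> simp [Matrix.vecMul, dotProduct, Fin.sum_univ_two, lineVal]
    linear_combination h
  have hP : Matrix.vecMul ![x, 1] (P : M2 A) = u • ![lineMove (P : M2 A) x, 1] := by
    funext j
    have hinv := Ring.mul_inverse_cancel u hu
    fin_cases j <;> simp [Matrix.vecMul, dotProduct, Fin.sum_univ_two, lineMove]
    · linear_combination -(x * (P : M2 A) 0 0 + (P : M2 A) 1 0) * hinv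
    · rfl
  have key : Matrix.vecMul ![lineMove (P : M2 A) x, 1] ((↑P⁻¹ : M2 A) * T * (P : M2 A)) =
      lineVal x T • ![lineMove (P : M2 A) x, 1] := by
    refine hu.smul_left_cancel.mp ?_
    rw [← Matrix.smul_vecMul, ← hP, Matrix.vecMul_vecMul, ← mul_assoc, ← mul_assoc,
      Units.mul_inv, one_mul, ← Matrix.vecMul_vecMul, hf, Matrix.smul_vecMul, hP, smul_comm]
  generalize (↑P⁻¹ : M2 A) * T * (P : M2 A) = G at key ⊢
  have k0 := congrFun key 0
  have k1 := congrFun key 1
  simp [Matrix.vecMul, dotProduct, Fin.sum_univ_two] at k0 k1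
  refine ⟨?_, by unfold lineVal at k1 ⊢; linear_combination k1⟩
  unfold StableLine
  linear_combination k0 - lineMove (P : M2 A) x * k1

theorem FixesLine.conj {x : A} {T : M2 A} (h : FixesLine x T) (P : (M2 A)ˣ)
    (hu : IsUnit (x * (P : M2 A) 0 1 + (P : M2 A) 1 1)) :
    FixesLine (lineMove P x) ((↑P⁻¹ : M2 A) * T * (P : M2 A)) :=
  (h.stableLine.conj P hu).1.fixesLine ((h.stableLine.conj P hu).2.trans h.lineVal_eq)

variable [IsLocalRing A] {r : Gal →* M2 A}

/-- A change of basis congruent to the identity. -/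
def IsNearOne (P : M2 A) : Prop := ∀ i j, (P - 1) i j ∈ maximalIdeal A

theorem IsNearOne.isUnit {P : M2 A} (hP : IsNearOne P) (x : A) :
    IsUnit (x * P 0 1 + P 1 1) := by
  by_contra h
  have h0 : x * P 0 1 + P 1 1 ∈ maximalIdeal A := h
  have := sub_mem (sub_mem h0 (Ideal.mul_mem_left _ x (by simpa using hP 0 1))) (hP 1 1)
  simp at this

theorem IsNearOne.lineMove_mem {P : M2 A} (hP : IsNearOne P) {x : A}
    (hx : x ∈ maximalIdeal A) : lineMove P x ∈ maximalIdeal A :=
  Ideal.mul_mem_right _ _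
    (add_mem (Ideal.mul_mem_right _ _ hx) (by simpa using hP 1 0))

theorem IsNearOne.conj {P : (M2 A)ˣ} (hP : IsNearOne (P : M2 A)) (G : (M2 A)ˣ) :
    IsNearOne ((G⁻¹ * P * G : (M2 A)ˣ) : M2 A) := by
  intro i j
  have h1 : (residue A).mapMatrix (P : M2 A) = 1 := by
    ext a b
    have := (residue_eq_zero_iff _).mpr (hP a b)
    rw [Matrix.sub_apply, map_sub, sub_eq_zero] at this
    rw [RingHom.mapMatrix_apply, Matrix.map_apply, this]
    by_cases hab : a = b
    · subst hab; simp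
    · simp [hab]
  rw [← residue_eq_zero_iff]
  show (residue A).mapMatrix ((↑G⁻¹ : M2 A) * (P : M2 A) * (G : M2 A) - 1) i j = 0
  rw [map_sub, map_mul, map_mul, h1, mul_one, ← map_mul, Units.inv_mul, map_one, sub_self]
  rfl

theorem TwoLine.conj {x : A} (h : TwoLine S r x) {P : (M2 A)ˣ} (hP : IsNearOne (P : M2 A)) :
    TwoLine S (conjM P r) (lineMove P x) :=
  ⟨fun σ hσ => by rw [conjM_apply]; exact (h.1 σ hσ).conj P (hP.isUnit x),
    fun σ hσ => by rw [conjM_apply]; exact ((h.2 σ hσ).conj P (hP.isUnit x)).1⟩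

theorem IsLift.conj (h : IsLift S Lv r) {P : (M2 A)ˣ} (hP : IsNearOne (P : M2 A)) :
    IsLift S Lv (conjM P r) where
  det σ hσ n a ha := by rw [conjM_apply, Matrix.det_units_conj']; exact h.det σ hσ n a ha
  unramified q hq h2 hT hQ Q hQ' σ hσ := by
    rw [conjM_apply, h.unramified q hq h2 hT hQ Q hQ' σ hσ, mul_one, Units.inv_mul]
  steinberg q hq Q hQ σ hσ := by
    rw [conjM_apply, Matrix.det_units_conj', Matrix.trace_units_conj']
    exact h.steinberg q hq Q hQ σ hσ
  qdet q hq Q hQ σ hσ := by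
    rw [conjM_apply, ← h.qdet q hq Q hQ σ hσ, ← Matrix.det_units_conj' P (r σ - 1)]
    rw [mul_sub, sub_mul, mul_one, Units.inv_mul]
  two := h.two.elim fun x hx => ⟨_, hx.conj hP⟩

theorem IsSigned.conj {a : A} (h : IsSigned S Lv a r) {P : (M2 A)ˣ}
    (hP : IsNearOne (P : M2 A)) : IsSigned S Lv a (conjM P r) := by
  obtain ⟨x, hx, hv⟩ := h
  refine ⟨_, hx.conj hP, ?_⟩
  rw [conjM_apply, conjM_apply, Matrix.det_units_conj',
    ((hx.2 _ S.φ2_frob.mem_decompositionSubgroup).conj P (hP.isUnit x)).2]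
  exact hv

variable [Algebra O A] {D : Aux S Lv}

theorem IsEigen.conj {x : D.ι → A} (h : IsEigen D r x) {P : (M2 A)ˣ}
    (hP : IsNearOne (P : M2 A)) :
    IsEigen D (conjM P r)
      (fun i => lineMove ((D.basis i A)⁻¹ * P * D.basis i A : (M2 A)ˣ) (x i)) := fun i => by
  have hl : ∀ σ, D.loc i (conjM P r) σ =
      (↑((D.basis i A)⁻¹ * P * D.basis i A : (M2 A)ˣ)⁻¹ : M2 A) * D.loc i r σ *
        ((D.basis i A)⁻¹ * P * D.basis i A : (M2 A)ˣ) := fun σ => by
    simp only [Aux.loc, conjM_apply, mul_inv_rev, inv_inv, Units.val_mul, mul_assoc,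
      Units.mul_inv_cancel_left]
  rw [hl, hl]
  exact ⟨((h i).1.conj _ ((hP.conj _).isUnit _)).1, (h i).2.conj _ ((hP.conj _).isUnit _)⟩

end Conj

section Level

/-- A lift of the base level is a lift of every level. -/
theorem IsLift.of_base {r : Gal →* M2 A} (h : IsLift S (Level.base S) r) : IsLift S Lv r where
  det σ _ := h.det σ (Subgroup.mem_top _)
  unramified q hq h2 hT _ := h.unramified q hq h2 hT (Finset.notMem_empty q)
  steinberg := h.steinberg
  qdet q hq P hP σ hσ := by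
    rw [h.unramified q (Lv.prime_of_mem q hq) (Lv.ne_two q hq) (Lv.notMem_T q hq)
      (Finset.notMem_empty q) P hP σ hσ, sub_self, Matrix.det_fin_two]
    simp
  two := h.two

end Level

section Product

/-- A representation with values in a product. -/
def piM {κ : Type} {C : κ → Type} [∀ k, CommRing (C k)] (r : ∀ k, Gal →* M2 (C k)) :
    Gal →* M2 (∀ k, C k) where
  toFun σ := Matrix.of fun i j k => r k σ i j
  map_one' := by
    refine Matrix.ext fun i j => funext fun k => ?_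
    by_cases hij : i = j
    · subst hij; simp
    · simp [hij]
  map_mul' σ τ := by
    refine Matrix.ext fun i j => funext fun k => ?_
    simp [Matrix.mul_apply, Fin.sum_univ_two]

/-- A pair of representations. -/
def prodM (r : Gal →* M2 A) (r' : Gal →* M2 B) : Gal →* M2 (A × B) where
  toFun σ := Matrix.of fun i j => (r σ i j, r' σ i j)
  map_one' := by
    refine Matrix.ext fun i j => ?_
    by_cases hij : i = j
    · subst hij; simp
    · simp [hij]
  map_mul' σ τ := by ext i j <;> simp [Matrix.mul_apply, Fin.sum_univ_two]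

theorem mapM_fst_prodM (r : Gal →* M2 A) (r' : Gal →* M2 B) :
    mapM (RingHom.fst A B) (prodM r r') = r := by ext σ i j; rfl

theorem mapM_snd_prodM (r : Gal →* M2 A) (r' : Gal →* M2 B) :
    mapM (RingHom.snd A B) (prodM r r') = r' := by ext σ i j; rfl

theorem fst_det_prodM (r : Gal →* M2 A) (r' : Gal →* M2 B) (σ : Gal) :
    (prodM r r' σ).det.1 = (r σ).det :=
  ((RingHom.fst A B).map_det (prodM r r' σ : Matrix (Fin 2) (Fin 2) (A × B))).trans
    (congrArg Matrix.det (DFunLike.congr_fun (mapM_fst_prodM r r') σ) :)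

theorem snd_det_prodM (r : Gal →* M2 A) (r' : Gal →* M2 B) (σ : Gal) :
    (prodM r r' σ).det.2 = (r' σ).det :=
  ((RingHom.snd A B).map_det (prodM r r' σ : Matrix (Fin 2) (Fin 2) (A × B))).trans
    (congrArg Matrix.det (DFunLike.congr_fun (mapM_snd_prodM r r') σ) :)

variable {κ : Type} {C : κ → Type} [∀ k, CommRing (C k)] {r : ∀ k, Gal →* M2 (C k)}

theorem mapM_eval_piM (k : κ) : mapM (Pi.evalRingHom C k) (piM r) = r k := by ext σ i j; rfl

theorem det_piM_apply (k : κ) (σ : Gal) : (piM r σ).det k = (r k σ).det :=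
  ((Pi.evalRingHom C k).map_det (piM r σ)).trans
    (congrArg Matrix.det (DFunLike.congr_fun (mapM_eval_piM (r := r) k) σ) :)

theorem twoLine_piM {x : ∀ k, C k} (h : ∀ k, TwoLine S (r k) (x k)) : TwoLine S (piM r) x :=
  ⟨fun σ hσ => ⟨funext fun k => ((h k).1 σ hσ).1, funext fun k => ((h k).1 σ hσ).2⟩,
    fun σ hσ => funext fun k => (h k).2 σ hσ⟩

theorem IsLift.pi (h : ∀ k, IsLift S Lv (r k)) : IsLift S Lv (piM r) where
  det σ hσ n a ha := by
    choose c hc using fun k => Ideal.mem_span_singleton'.mp ((h k).det σ hσ n a ha)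
    refine Ideal.mem_span_singleton'.mpr ⟨c, funext fun k => ?_⟩
    show c k * ((2 ^ n : ℕ) : ∀ k, C k) k = (piM r σ).det k - (a : ∀ k, C k) k
    rw [Pi.natCast_apply, Pi.natCast_apply, hc k, det_piM_apply]
  unramified q hq h2 hT hQ P hP σ hσ := by
    refine Matrix.ext fun i j => funext fun k => ?_
    show r k σ i j = _
    rw [(h k).unramified q hq h2 hT hQ P hP σ hσ]
    by_cases hij : i = j
    · subst hij; simp
    · simp [hij]
  steinberg q hq P hP σ hσ := by
    refine ⟨funext fun k => ?_, funext fun k => ?_⟩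
    · rw [Matrix.trace_fin_two]
      show r k σ 0 0 + r k σ 1 1 = _
      rw [← Matrix.trace_fin_two, ((h k).steinberg q hq P hP σ hσ).1]
      rfl
    · rw [det_piM_apply,
        ((h k).steinberg q hq P hP σ hσ).2]
      rfl
  qdet q hq P hP σ hσ := funext fun k => by
    show Pi.evalRingHom C k (piM r σ - 1).det = 0
    rw [RingHom.map_det, map_sub, map_one]
    exact (h k).qdet q hq P hP σ hσ
  two := by
    choose x hx using fun k => (h k).two
    exact ⟨x, twoLine_piM hx⟩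

theorem IsSigned.pi {a : ∀ k, C k} (h : ∀ k, IsSigned S Lv (a k) (r k)) :
    IsSigned S Lv a (piM r) := by
  choose x hx hv using h
  refine ⟨x, twoLine_piM hx, funext fun k => ?_⟩
  show lineVal (x k) (r k S.φ2) = a k * (piM r Lv.root2).det k
  rw [det_piM_apply, hv k]

theorem IsEigen.pi [∀ k, Algebra O (C k)] {D : Aux S Lv} {x : D.ι → ∀ k, C k}
    (h : ∀ k, IsEigen D (r k) (fun i => x i k)) : IsEigen D (piM r) x := by
  intro i
  have hk : ∀ (k : κ) (σ : Gal),
      (Pi.evalRingHom C k).mapMatrix (D.loc i (piM r) σ) = D.loc i (r k) σ := fun k σ => by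
    rw [← mapM_eval_piM (r := r) k]
    exact (DFunLike.congr_fun (D.loc_mapM (r := piM r) i (Pi.evalAlgHom O C k)) σ).symm
  refine ⟨funext fun k => ?_, funext fun k => ?_, funext fun k => ?_⟩
  · have := (h k i).1; rw [← hk] at this; exact this
  · have := (h k i).2.1; rw [← hk] at this; exact this
  · have := (h k i).2.2; rw [← hk] at this; exact this

variable {r₁ : Gal →* M2 A} {r₂ : Gal →* M2 B}

theorem IsLift.prod (h : IsLift S Lv r₁) (h' : IsLift S Lv r₂) :
    IsLift S Lv (prodM r₁ r₂) where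
  det σ hσ n a ha := by
    obtain ⟨c, hc⟩ := Ideal.mem_span_singleton'.mp (h.det σ hσ n a ha)
    obtain ⟨d, hd⟩ := Ideal.mem_span_singleton'.mp (h'.det σ hσ n a ha)
    refine Ideal.mem_span_singleton'.mpr ⟨(c, d), Prod.ext ?_ ?_⟩
    · rw [Prod.fst_mul, Prod.fst_natCast, Prod.fst_sub, Prod.fst_natCast, hc,
        fst_det_prodM]
    · rw [Prod.snd_mul, Prod.snd_natCast, Prod.snd_sub, Prod.snd_natCast, hd,
        snd_det_prodM]
  unramified q hq h2 hT hQ P hP σ hσ := by
    refine Matrix.ext fun i j => ?_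
    show (r₁ σ i j, r₂ σ i j) = _
    rw [h.unramified q hq h2 hT hQ P hP σ hσ, h'.unramified q hq h2 hT hQ P hP σ hσ]
    by_cases hij : i = j
    · subst hij; simp
    · simp [hij]
  steinberg q hq P hP σ hσ := by
    obtain ⟨h1, h2⟩ := h.steinberg q hq P hP σ hσ
    obtain ⟨h3, h4⟩ := h'.steinberg q hq P hP σ hσ
    refine ⟨?_, Prod.ext ?_ ?_⟩
    · rw [Matrix.trace_fin_two] at h1 h3 ⊢
      exact Prod.ext (h1.trans rfl) (h3.trans rfl)
    · exact (fst_det_prodM _ _ _).trans h2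
    · exact (snd_det_prodM _ _ _).trans h4
  qdet q hq P hP σ hσ := by
    refine Prod.ext ?_ ?_
    · show RingHom.fst A B (prodM r₁ r₂ σ - 1).det = 0
      rw [RingHom.map_det, map_sub, map_one]
      exact h.qdet q hq P hP σ hσ
    · show RingHom.snd A B (prodM r₁ r₂ σ - 1).det = 0
      rw [RingHom.map_det, map_sub, map_one]
      exact h'.qdet q hq P hP σ hσ
  two := by
    obtain ⟨x, hx⟩ := h.two
    obtain ⟨y, hy⟩ := h'.two
    exact ⟨(x, y), fun σ hσ => ⟨Prod.ext (hx.1 σ hσ).1 (hy.1 σ hσ).1,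
      Prod.ext (hx.1 σ hσ).2 (hy.1 σ hσ).2⟩, fun σ hσ => Prod.ext (hx.2 σ hσ) (hy.2 σ hσ)⟩

theorem IsSigned.prod {a : A} {b : B} (h : IsSigned S Lv a r₁) (h' : IsSigned S Lv b r₂) :
    IsSigned S Lv (a, b) (prodM r₁ r₂) := by
  obtain ⟨x, hx, hv⟩ := h
  obtain ⟨y, hy, hw⟩ := h'
  refine ⟨(x, y), ⟨fun σ hσ => ⟨Prod.ext (hx.1 σ hσ).1 (hy.1 σ hσ).1,
      Prod.ext (hx.1 σ hσ).2 (hy.1 σ hσ).2⟩, fun σ hσ => Prod.ext (hx.2 σ hσ) (hy.2 σ hσ)⟩,
    Prod.ext ?_ ?_⟩
  · refine hv.trans ?_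
    rw [Prod.fst_mul]
    exact congrArg (a * ·) (fst_det_prodM _ _ _).symm
  · refine hw.trans ?_
    rw [Prod.snd_mul]
    exact congrArg (b * ·) (snd_det_prodM _ _ _).symm

theorem IsEigen.prod [Algebra O A] [Algebra O B] {D : Aux S Lv} {x : D.ι → A} {y : D.ι → B}
    (h : IsEigen D r₁ x) (h' : IsEigen D r₂ y) :
    IsEigen D (prodM r₁ r₂) (fun i => (x i, y i)) := by
  intro i
  have h1 : ∀ σ, (RingHom.fst A B).mapMatrix (D.loc i (prodM r₁ r₂) σ) = D.loc i r₁ σ := fun σ => by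
    rw [← mapM_fst_prodM r₁ r₂]
    exact (DFunLike.congr_fun (D.loc_mapM (r := prodM r₁ r₂) i (AlgHom.fst O A B)) σ).symm
  have h2 : ∀ σ, (RingHom.snd A B).mapMatrix (D.loc i (prodM r₁ r₂) σ) = D.loc i r₂ σ := fun σ => by
    rw [← mapM_snd_prodM r₁ r₂]
    exact (DFunLike.congr_fun (D.loc_mapM (r := prodM r₁ r₂) i (AlgHom.snd O A B)) σ).symm
  obtain ⟨a, b, c⟩ := h i
  obtain ⟨a', b', c'⟩ := h' i
  rw [← h1] at a
  rw [← h2] at a'
  rw [← h1] at b c
  rw [← h2] at b' c'
  exact ⟨Prod.ext a a', Prod.ext b b', Prod.ext c c'⟩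

end Product

end Fermat.Agent.TwoAdic.Deform
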