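import Fermat.Agent.TwoAdic.Deform.Tangent
import Fermat.Agent.TwoAdic.Deform.EigenRing
import Fermat.Agent.TwoAdic.Deform.Functorial

/-!
# The auxiliary rings of a family

For a coefficient algebra `R` with a lift `ru`, `D.Ring ru I` adjoins the auxiliary lines and
divides by `I`; `auxRing` is the signed one. The pushed lift satisfies all the conditions, and the
Selmer bound bounds the number of generators.
-/

set_option autoImplicit false
set_option linter.style.haveILetI false

noncomputable section

namespace Fermat.Agent.TwoAdic.Deform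

open IsLocalRing Fermat.Agent.Deform Fermat.Agent.CFT.Tangent Fermat.Agent.Arith

variable {O : Type} [CommRing O] [IsLocalRing O] {S : Setting O} {Lv : Level S}
variable {R : Type} [CommRing R] [Algebra O R]

/-- The data of the eigen ring at the Frobenius elements. -/
abbrev Aux.frobMat (D : Aux S Lv) (ru : Gal →* M2 R) : D.ι → M2 R :=
  fun i => D.loc i ru (D.φ i)

/-- The data of the eigen ring at the inertia elements. -/
abbrev Aux.tameMat (D : Aux S Lv) (ru : Gal →* M2 R) : D.ι → M2 R :=
  fun i => D.loc i ru (D.τ i)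

/-- The defect of the sign condition. -/
def signDefect (S : Setting O) (Lv : Level S) (ru : Gal →* M2 R) (a : O) : R :=
  lineVal (twoPos S ru) (ru S.φ2) - algebraMap O R a * (ru Lv.root2).det

variable [IsLocalRing R]

/-- The ring adjoining the auxiliary lines, modulo `I`. -/
abbrev Aux.Ring (D : Aux S Lv) (ru : Gal →* M2 R) (I : Ideal R) : Type :=
  EigenRing (D.frobMat ru) (D.tameMat ru) D.isU I

/-- The signed auxiliary ring. -/
abbrev auxRing (D : Aux S Lv) (ru : Gal →* M2 R) (a : O) : Type :=
  D.Ring ru (Ideal.span {signDefect S Lv ru a})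

/-- The lift over the auxiliary ring. -/
abbrev Aux.lift (D : Aux S Lv) (ru : Gal →* M2 R) (I : Ideal R) : Gal →* M2 (D.Ring ru I) :=
  mapM (algebraMap R (D.Ring ru I)) ru

variable {D : Aux S Lv} {ru : Gal →* M2 R} {h : IsResAlg O R}

theorem augment_eq_iff_sub_mem (x y : R) :
    augment h x = augment h y ↔ x - y ∈ maximalIdeal R := by
  rw [← sub_eq_zero, ← map_sub, augment_eq_zero_iff]

theorem augment_loc (hl : Lifts S.W h ru) (i : D.ι) (σ : Gal) (j l : Fin 2) :
    augment h (D.loc i ru σ j l) = residualAt S (D.g i) σ j l := by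
  rw [← augM_apply (h := h), augM_loc D i hl]

theorem eigenData_aux (hl : Lifts S.W h ru) {I : Ideal R} (hI : I ≤ maximalIdeal R) :
    EigenData (D.frobMat ru) (D.tameMat ru) D.isU I where
  lower i := by rw [← augment_eq_zero_iff h, augment_loc hl]; exact D.rb_lower i
  upper i := isUnit_of_augment_ne_zero h (by rw [augment_loc hl]; exact D.rb_upper i)
  diag i := by rw [← augment_eq_iff_sub_mem (h := h), augment_loc hl, augment_loc hl]; exact D.rb_diag i
  tame i a b := by
    rw [← augment_eq_zero_iff h, Matrix.sub_apply, map_sub, augment_loc hl,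
      residualAt_eq_one D i (D.τ_mem i)]
    by_cases hab : a = b
    · subst hab; simp
    · simp [hab]
  le := hI

theorem twoLine_twoPos (hl : Lifts S.W h ru) (hlift : IsLift S Lv ru) :
    TwoLine S ru (twoPos S ru) := by
  obtain ⟨x, hx⟩ := hlift.two
  rwa [← hx.eq_twoPos (isUnit_σ2_entry hl)]

theorem signDefect_mem (hl : Lifts S.W h ru) (hlift : IsLift S Lv ru) {a : O}
    (ha : residue O a = 1) : signDefect S Lv ru a ∈ maximalIdeal R := by
  rw [← augment_eq_zero_iff h, signDefect, map_sub, lineVal, map_add, map_mul,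
    augment_twoLine hl (twoLine_twoPos hl hlift), zero_mul, zero_add, map_mul, AlgHom.commutes,
    ResidueField.algebraMap_eq, ha, one_mul]
  have hd : augment h (ru Lv.root2).det = (S.W.rb Lv.root2).det := by
    rw [← augM_lift (h := h) hl]
    exact (augment h : R →+* ResidueField O).map_det _
  rw [hd, S.det_rb, hl S.φ2, (rb_decomp_entries S.φ2_frob.mem_decompositionSubgroup).2.2, sub_self]

theorem span_signDefect_le (hl : Lifts S.W h ru) (hlift : IsLift S Lv ru) {a : O}
    (ha : residue O a = 1) : Ideal.span {signDefect S Lv ru a} ≤ maximalIdeal R :=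
  (Ideal.span_singleton_le_iff_mem _).mpr (signDefect_mem hl hlift ha)

variable [IsAdicComplete (maximalIdeal R) R] {I : Ideal R}

theorem isLocalRing_ring (hl : Lifts S.W h ru) (hI : I ≤ maximalIdeal R) :
    IsLocalRing (D.Ring ru I) :=
  (eigenData_aux hl hI).isLocalRing

/-- The facts about the ring and its lift. -/
structure RingSpec (D : Aux S Lv) (ru : Gal →* M2 R) (I : Ideal R)
    [IsLocalRing (D.Ring ru I)] : Prop where
  resAlg : IsResAlg O (D.Ring ru I)
  finite : Module.Finite R (D.Ring ru I)
  noetherian : IsNoetherianRing (D.Ring ru I)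
  complete : IsAdicComplete (maximalIdeal (D.Ring ru I)) (D.Ring ru I)
  localHom : IsLocalHom (algebraMap R (D.Ring ru I))
  lifts : Lifts S.W resAlg (D.lift ru I)
  normal : IsNormal S.W (D.lift ru I)
  cont : IsCont (D.lift ru I)
  isLift : IsLift S Lv (D.lift ru I)
  mem : ∀ i, eigenX (D.frobMat ru) (D.tameMat ru) D.isU I i ∈ maximalIdeal (D.Ring ru I)
  eigen : IsEigen D (D.lift ru I) (eigenX (D.frobMat ru) (D.tameMat ru) D.isU I)

theorem ringSpec [IsNoetherianRing R] (hl : Lifts S.W h ru) (hn : IsNormal S.W ru)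
    (hc : IsCont ru) (hlift : IsLift S Lv ru) (hI : I ≤ maximalIdeal R)
    [IsLocalRing (D.Ring ru I)] : RingSpec D ru I := by
  have hE := eigenData_aux (D := D) hl hI
  have hA := hE.isResAlg h
  have hloc := hE.isLocalHom
  refine ⟨hA, hE.finite, hE.isNoetherianRing, hE.isAdicComplete, hloc,
    hl.map hA (IsScalarTower.toAlgHom O R _) hloc, hn.map (IsScalarTower.toAlgHom O R _),
    hc.map _ hloc, hlift.map _, hE.eigenX_mem, fun i => ?_⟩
  have e := D.loc_mapM (r := ru) i (IsScalarTower.toAlgHom O R (D.Ring ru I))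
  show StableLine _ (D.loc i (mapM ((IsScalarTower.toAlgHom O R (D.Ring ru I) :
      R →ₐ[O] D.Ring ru I) : R →+* D.Ring ru I) ru) (D.φ i)) ∧ FixesLine _
    (D.loc i (mapM ((IsScalarTower.toAlgHom O R (D.Ring ru I) :
      R →ₐ[O] D.Ring ru I) : R →+* D.Ring ru I) ru) (D.τ i))
  rw [e]
  exact ⟨stableLine_eigenX _ _ _ _ i, fixesLine_eigenX _ _ _ _ i⟩

omit [IsAdicComplete (maximalIdeal R) R] in
theorem isSigned_lift (hl : Lifts S.W h ru) (hlift : IsLift S Lv ru) {a : O}
    (ha : signDefect S Lv ru a ∈ I) :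
    IsSigned S Lv (algebraMap O (D.Ring ru I) a) (D.lift ru I) := by
  refine ⟨_, (twoLine_twoPos hl hlift).map (algebraMap R (D.Ring ru I)), ?_⟩
  have h0 := algebraMap_eq_zero_of_mem (D.frobMat ru) (D.tameMat ru) D.isU I ha
  rw [signDefect, map_sub, sub_eq_zero, map_mul, ← IsScalarTower.algebraMap_apply,
    RingHom.map_det] at h0
  show lineVal _ ((algebraMap R (D.Ring ru I)).mapMatrix (ru S.φ2)) = _
  rw [lineVal_map, h0]
  rfl

omit [IsAdicComplete (maximalIdeal R) R] in
/-- A derivation of the ring killing the entries and the lines is zero. -/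
theorem ring_der_eq_zero [IsLocalRing (D.Ring ru I)] (hA : IsResAlg O (D.Ring ru I))
    [IsLocalHom (algebraMap R (D.Ring ru I))]
    (hgen : ∀ δ : tangentDer h, (∀ σ j l, δ.1 (ru σ j l) = 0) → δ = 0) (δ : tangentDer hA)
    (h1 : ∀ σ j l, δ.1 (D.lift ru I σ j l) = 0)
    (h2 : ∀ i, δ.1 (eigenX (D.frobMat ru) (D.tameMat ru) D.isU I i) = 0) : δ = 0 := by
  have haug : ∀ a : R, augment hA (algebraMap R (D.Ring ru I) a) = augment h a :=
    augment_comp h hA (IsScalarTower.toAlgHom O R (D.Ring ru I))
      ‹IsLocalHom (algebraMap R (D.Ring ru I))›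
  let δR : tangentDer h := ⟨fun a => δ.1 (algebraMap R (D.Ring ru I) a),
    fun a b => (congrArg δ.1 (map_add _ a b)).trans (der_add δ _ _),
    fun a b => (congrArg δ.1 (map_mul _ a b)).trans ((der_mul δ _ _).trans
      (by rw [haug, haug])),
    fun o => (congrArg δ.1 (IsScalarTower.algebraMap_apply O R _ o).symm).trans
      (der_algebraMap δ o)⟩
  have hR : δR = 0 := hgen δR h1
  refine Subtype.ext (funext fun x => ?_)
  have hx : x ∈ Algebra.adjoin R
      (Set.range (eigenX (D.frobMat ru) (D.tameMat ru) D.isU I)) := by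
    rw [adjoin_eigenX_eq_top]; exact Algebra.mem_top
  show δ.1 x = 0
  induction hx using Algebra.adjoin_induction with
  | mem y hy => obtain ⟨i, rfl⟩ := hy; exact h2 i
  | algebraMap a => exact congrFun (congrArg Subtype.val hR) a
  | add y z _ _ hy hz => rw [der_add, hy, hz, add_zero]
  | mul y z _ _ hy hz => rw [der_mul, hy, hz, mul_zero, mul_zero, add_zero]

variable [IsNoetherianRing R] [Finite (ResidueField O)] [IsAdicComplete (maximalIdeal O) O]

/-- The signed auxiliary ring is a quotient of a power series ring. -/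
theorem exists_surjective_auxRing (hI : AuxInertia D) (hl : Lifts S.W h ru)
    (hn : IsNormal S.W ru) (hc : IsCont ru) (hlift : IsLift S Lv ru)
    (hgen : ∀ δ : tangentDer h, (∀ σ j l, δ.1 (ru σ j l) = 0) → δ = 0)
    {a : O} (ha : residue O a = 1) {n : ℕ} (hb : SignedSelmerBound D n) :
    ∃ γ : MvPowerSeries (Fin (n + D.numU)) O →ₐ[O] auxRing D ru a, Function.Surjective γ := by
  have hle := span_signDefect_le hl hlift ha
  haveI := isLocalRing_ring (D := D) hl hle
  have sp := ringSpec (D := D) hl hn hc hlift hle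
  haveI := sp.localHom
  haveI := sp.noetherian
  haveI := sp.complete
  exact exists_surjective_of_signedSelmerBound D hI sp.lifts sp.normal sp.cont sp.isLift sp.mem
    sp.eigen (ring_der_eq_zero sp.resAlg hgen) rfl ha
    (isSigned_lift hl hlift (Ideal.mem_span_singleton_self _)) hb

/-- The unsigned auxiliary ring is a quotient of a power series ring. -/
theorem exists_surjective_ring_bot (hI : AuxInertia D) (hl : Lifts S.W h ru)
    (hn : IsNormal S.W ru) (hc : IsCont ru) (hlift : IsLift S Lv ru)
    (hgen : ∀ δ : tangentDer h, (∀ σ j l, δ.1 (ru σ j l) = 0) → δ = 0)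
    {n : ℕ} (hb : SelmerBound D n) :
    ∃ γ : MvPowerSeries (Fin (n + D.numU)) O →ₐ[O] D.Ring ru ⊥, Function.Surjective γ := by
  haveI := isLocalRing_ring (D := D) (I := ⊥) hl bot_le
  have sp := ringSpec (D := D) (I := ⊥) hl hn hc hlift bot_le
  haveI := sp.localHom
  haveI := sp.noetherian
  haveI := sp.complete
  exact exists_surjective_of_selmerBound D hI sp.lifts sp.normal sp.cont sp.isLift sp.mem
    sp.eigen (ring_der_eq_zero sp.resAlg hgen) hb

end Fermat.Agent.TwoAdic.Deform
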