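import Fermat.Agent.TwoAdic.Deform.Classes
import Fermat.Agent.RT.Assembly.Tame

/-!
# Tame inertia at odd primes where the residual representation is unramified

A lift is killed by wild inertia and a Frobenius conjugates an inertia element to its `q`-th
power; a cocycle at an auxiliary prime is determined on inertia by its value at `τ`.
-/

set_option autoImplicit false

noncomputable section

namespace Fermat.Agent.TwoAdic.Deform

open IsLocalRing Fermat.Agent.Deform Fermat.Agent.Arith Fermat.Agent.CFT.Tangent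

variable {O : Type} [CommRing O] [IsLocalRing O] {S : Setting O}

section Lift

variable {R : Type} [CommRing R] [IsLocalRing R]

theorem pow_two_pow_sub_one_mem (h2 : (2 : R) ∈ maximalIdeal R) {X : M2 R}
    (hX : ∀ i j, X i j - (1 : M2 R) i j ∈ maximalIdeal R) (k : ℕ) :
    ∀ i j, (X ^ 2 ^ k) i j - (1 : M2 R) i j ∈ maximalIdeal R ^ (k + 1) := by
  induction k with
  | zero => simpa using hX
  | succ k ih =>
    intro i j
    set Y := X ^ 2 ^ k - 1 with hY
    have hXY : X ^ 2 ^ k = 1 + Y := by rw [hY]; abel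
    have hmem : ∀ i j, Y i j ∈ maximalIdeal R ^ (k + 1) := fun i j => by
      rw [hY, Matrix.sub_apply]; exact ih i j
    have e : X ^ 2 ^ (k + 1) - 1 = (2 : R) • Y + Y * Y := by
      rw [pow_succ 2 k, pow_mul, hXY, two_smul]
      noncomm_ring
    rw [← Matrix.sub_apply, e, Matrix.add_apply, Matrix.smul_apply, smul_eq_mul, Matrix.mul_apply,
      pow_succ' (maximalIdeal R)]
    exact add_mem (Ideal.mul_mem_mul h2 (hmem i j)) (sum_mem fun l _ =>
      Ideal.mul_mem_mul (Ideal.pow_le_self k.succ_ne_zero (hmem i l)) (hmem l j))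

variable [Algebra O R] [IsNoetherianRing R] {h : IsResAlg O R} {r : Gal →* M2 R}

omit [IsNoetherianRing R] in
/-- `2` lies in the maximal ideal of a coefficient algebra. -/
theorem Setting.two_mem (S : Setting O) (h : IsResAlg O R) : (2 : R) ∈ maximalIdeal R :=
  (augment_eq_zero_iff h 2).mp (by rw [map_ofNat]; exact S.two_eq_zero)

omit [IsNoetherianRing R] in
/-- A lift is residually trivial on inertia at a prime outside `S.T`. -/
theorem sub_one_mem_of_inertia (hl : Lifts S.W h r) {q : ℕ} (hq : q.Prime) (hq2 : q ≠ 2)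
    (hqT : q ∉ S.T) {P : ValuationSubring QBar} (hP : P.LiesOverPrime q) {σ : Gal}
    (hσ : σ ∈ P.inertiaSubgroupIn ℚ) (i j : Fin 2) :
    r σ i j - (1 : M2 R) i j ∈ maximalIdeal R := by
  rw [← augment_eq_zero_iff h, map_sub, hl σ i j, S.rb_unramified q hq hq2 hqT P hP σ hσ]
  by_cases hij : i = j
  · subst hij; simp
  · simp [hij]

/-- An inertia element with trivial tame characters at `q ≠ 2` is killed by a lift. -/
theorem eq_one_of_tameTrivial (hr : IsCont r) (hl : Lifts S.W h r) {q : ℕ} (hq : q.Prime)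
    (hq2 : q ≠ 2) (hqT : q ∉ S.T) {P : ValuationSubring QBar} (hP : P.LiesOverPrime q)
    {ν : Gal} (hν : ν ∈ P.inertiaSubgroupIn ℚ) (htriv : RT.Assembly.TameTrivial P ν) :
    r ν = 1 := by
  refine Matrix.ext fun i j => sub_eq_zero.mp ?_
  rw [← Ideal.mem_bot, ← Ideal.iInf_pow_eq_bot_of_isLocalRing (maximalIdeal R)
    (maximalIdeal.isMaximal R).ne_top, Ideal.mem_iInf]
  intro n
  let π : R →+* R ⧸ maximalIdeal R ^ n := Ideal.Quotient.mk _
  have hfin : ∃ L : IntermediateField ℚ QBar, FiniteDimensional ℚ L ∧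
      ∀ σ : GQ, (∀ x ∈ L, σ x = x) → mapM π r σ = 1 := by
    obtain ⟨L, hL, hL'⟩ := hr n
    refine ⟨L, hL, fun σ hσ => Matrix.ext fun a b => ?_⟩
    rw [mapM_apply]
    by_cases hab : a = b
    · subst hab
      have := hL' σ hσ a a
      rw [Matrix.one_apply_eq] at this ⊢
      rw [← map_one π]
      exact Ideal.Quotient.eq.mpr this
    · have := hL' σ hσ a b
      rw [Matrix.one_apply_ne hab, sub_zero] at this
      rw [Matrix.one_apply_ne hab]
      exact Ideal.Quotient.eq_zero_iff_mem.mpr this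
  have hone : mapM π r ν = 1 := by
    refine RT.Assembly.eq_one_of_tameTrivial (mapM π r) hfin hP hq hν htriv (n := 2 ^ n)
      (fun hd => hq2 ((Nat.prime_dvd_prime_iff_eq hq Nat.prime_two).mp (hq.dvd_of_dvd_pow hd))) ?_
    rw [← map_pow (mapM π r)]
    refine Matrix.ext fun a b => ?_
    have := Ideal.pow_le_pow_right (n := n + 1) (m := n) n.le_succ (pow_two_pow_sub_one_mem (S.two_mem h)
      (sub_one_mem_of_inertia hl hq hq2 hqT hP hν) n a b)
    rw [← map_pow r] at this
    rw [mapM_apply]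
    by_cases hab : a = b
    · subst hab
      rw [Matrix.one_apply_eq] at this ⊢
      rw [← map_one π]
      exact Ideal.Quotient.eq.mpr this
    · rw [Matrix.one_apply_ne hab, sub_zero] at this
      rw [Matrix.one_apply_ne hab]
      exact Ideal.Quotient.eq_zero_iff_mem.mpr this
  refine Ideal.Quotient.eq_zero_iff_mem.mp ?_
  show π (r ν i j - (1 : M2 R) i j) = 0
  rw [map_sub, ← mapM_apply, hone]
  by_cases hij : i = j
  · subst hij; simp
  · simp [hij]

/-- The tame relation. -/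
theorem frobenius_mul_inertia (hr : IsCont r) (hl : Lifts S.W h r) {q : ℕ} (hq : q.Prime)
    (hq2 : q ≠ 2) (hqT : q ∉ S.T) {P : ValuationSubring QBar} (hP : P.LiesOverPrime q)
    {φ : Gal} (hφ : P.IsFrobeniusAt φ q) {σ : Gal} (hσ : σ ∈ P.inertiaSubgroupIn ℚ) :
    r φ * r σ = r σ ^ q * r φ := by
  obtain ⟨hν, htriv⟩ := RT.Assembly.tameTrivial_frobenius_conj hφ hσ
  have h1 := eq_one_of_tameTrivial hr hl hq hq2 hqT hP hν htriv
  calc r φ * r σ = r (φ * σ * φ⁻¹ * (σ ^ q)⁻¹) * (r σ ^ q * r φ) := by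
        rw [← map_pow r σ q, ← map_mul, ← map_mul, ← map_mul]
        congr 1
        group
    _ = r σ ^ q * r φ := by rw [h1, one_mul]

end Lift

section Cocycle

variable {Lv : Level S}

theorem Setting.charP_residue (S : Setting O) : CharP (ResidueField O) 2 :=
  CharTwo.of_one_ne_zero_of_two_eq_zero one_ne_zero S.two_eq_zero

/-- A linear functional of a cocycle at an auxiliary prime vanishing at `τ` vanishes on inertia. -/
theorem Aux.apply_inertia_eq_zero (D : Aux S Lv) (i : D.ι) {b : Cochain O}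
    (hb : ∀ g g', b (g * g') = S.W.rb g * b g' * S.W.rb g⁻¹ + b g)
    (hfin : ∃ L : IntermediateField ℚ QBar, FiniteDimensional ℚ L ∧
      ∀ σ : Gal, (∀ x ∈ L, σ x = x) → b σ = 0)
    (f : M2 (ResidueField O) →ₗ[ResidueField O] ResidueField O) (h0 : f (b (D.τ i)) = 0)
    {σ : Gal} (hσ : σ ∈ (D.P i).inertiaSubgroupIn ℚ) : f (b σ) = 0 := by
  have := S.charP_residue
  have : Fact (Nat.Prime 2) := ⟨Nat.prime_two⟩
  let := ZMod.algebra (ResidueField O) 2
  have hqQ := D.q_mem i
  have hq := Lv.prime_of_mem _ hqQ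
  have hq2 := Lv.ne_two _ hqQ
  obtain ⟨y, hy, hτy⟩ := D.τ_gen i
  have hy0 : y ≠ 0 := fun h => hτy (by rw [h, map_zero])
  have hτ : D.τ i y = -y := by
    refine (sq_eq_sq_iff_eq_or_eq_neg.mp ?_).resolve_left hτy
    rw [← map_pow, hy, map_natCast]
  have hres : EC.Reduction.res (D.P i) (D.τ i y / y) = -1 := by
    rw [hτ, neg_div, div_self hy0, show (-1 : QBar) = 0 - 1 from (zero_sub 1).symm,
      EC.Reduction.res_sub (zero_mem _) (one_mem _), EC.Reduction.res_zero, EC.Reduction.res_one,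
      zero_sub]
  have := residueField_charP (D.P_over i) hq
  refine (Module.forall_dual_apply_eq_zero_iff (ZMod 2) _).mp fun χ => ?_
  refine RT.Assembly.eq_zero_of_apply_eq_zero (p := 2) Nat.prime_two (D.P_over i) hq hq2
    (fun g => χ (f (b g))) (fun g hg g' _ => ?_) ?_ (D.τ_mem i) hy0 (m := 1) ?_ ?_ ?_
    (show χ (f (b (D.τ i))) = 0 by rw [h0, map_zero]) σ hσ
  · rw [hb, S.rb_unramified _ hq hq2 (Lv.notMem_T _ hqQ) _ (D.P_over i) g hg,
      S.rb_unramified _ hq hq2 (Lv.notMem_T _ hqQ) _ (D.P_over i) g⁻¹ (inv_mem hg),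
      one_mul, mul_one, map_add, map_add, add_comm]
  · obtain ⟨L, hL, hL'⟩ := hfin
    exact ⟨L, hL, fun g hg => by rw [hL' g hg, map_zero, map_zero]⟩
  · have := Mazur.Eisenstein.ordAt_pow (D.P_over i) hq hy0 2
    rw [hy, Mazur.Eisenstein.ordAt_prime (D.P_over i) hq] at this
    push_cast at this ⊢
    linarith
  · rw [hres]
    exact Ring.neg_one_ne_one_of_char_ne_two fun e => hq2
      ((ringChar.eq (IsLocalRing.ResidueField (D.P i)) (D.q i)).symm.trans e)
  · rw [hres, neg_one_sq]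

/-- The local class at an auxiliary prime is determined at `τ`. -/
theorem Aux.locCls_inertia_eq_zero (D : Aux S Lv) (i : D.ι) {b : Cochain O}
    (hb : ∀ g g', b (g * g') = S.W.rb g * b g' * S.W.rb g⁻¹ + b g)
    (hfin : ∃ L : IntermediateField ℚ QBar, FiniteDimensional ℚ L ∧
      ∀ σ : Gal, (∀ x ∈ L, σ x = x) → b σ = 0)
    (h0 : D.locCls i b (D.τ i) 1 0 = 0 ∧ D.locCls i b (D.τ i) 1 1 = 0)
    {σ : Gal} (hσ : σ ∈ (D.P i).inertiaSubgroupIn ℚ) :
    D.locCls i b σ 1 0 = 0 ∧ D.locCls i b σ 1 1 = 0 := by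
  let g := D.basis i (ResidueField O)
  let f : Fin 2 → M2 (ResidueField O) →ₗ[ResidueField O] ResidueField O := fun j =>
    Matrix.entryLinearMap _ (ResidueField O) 1 j ∘ₗ LinearMap.mulLeftRight (ResidueField O)
      ((↑g⁻¹ : M2 (ResidueField O)), (↑g : M2 (ResidueField O)))
  exact ⟨D.apply_inertia_eq_zero i hb hfin (f 0) h0.1 hσ,
    D.apply_inertia_eq_zero i hb hfin (f 1) h0.2 hσ⟩

end Cocycle

end Fermat.Agent.TwoAdic.Deform
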