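import Fermat.Agent.TwoAdic.Deform.Setting
import Fermat.Agent.Deform.Residual

/-!
# From representations on modules to normalised matrix lifts

A representation with the expected residual representation and basis-free local properties
(functionals for the lines) has a normalised matrix form satisfying `IsLift`, `IsSigned` and
`IsEigen`.
-/

set_option autoImplicit false
set_option linter.style.haveILetI false

noncomputable section

namespace Fermat.Agent.TwoAdic.Deform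

open IsLocalRing Module Fermat.Agent.Deform Fermat.Agent.Arith
open scoped Matrix

variable {O : Type} [CommRing O] [IsLocalRing O] {S : Setting O} {Lv : Level S}
variable {A : Type} [CommRing A] [IsLocalRing A] [Algebra O A]

/-- The basis-free deformation condition; the line at `2` is given by a functional. -/
structure IsTwoAdicType (S : Setting O) (Lv : Level S) (ρ : GaloisRepAdic A) : Prop where
  det : ∀ σ ∈ Lv.H, ∀ n a : ℕ, (∀ μ : QBar, μ ^ 2 ^ n = 1 → σ μ = μ ^ a) →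
    LinearMap.det (ρ.ρ σ) - (a : A) ∈ Ideal.span {((2 ^ n : ℕ) : A)}
  unramified : ∀ q : ℕ, q.Prime → q ≠ 2 → q ∉ S.T → q ∉ Lv.Q → ρ.IsUnramifiedAt q
  steinberg : ∀ q ∈ S.T, ρ.IsUnipotentOnInertiaAt q
  qdet : ∀ q ∈ Lv.Q, ∀ P : ValuationSubring QBar, P.LiesOverPrime q →
    ∀ σ ∈ P.inertiaSubgroupIn ℚ, LinearMap.det (ρ.ρ σ - 1) = 0
  two : ∃ f : ρ.V →ₗ[A] A, Function.Surjective f ∧
    (∀ σ ∈ S.P2.inertiaSubgroupIn ℚ, ∀ v, f (ρ.ρ σ v) = f v) ∧
      ∀ σ ∈ S.P2.decompositionSubgroup ℚ, ∃ z : A, ∀ v, f (ρ.ρ σ v) = z * f v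

variable {ρ : GaloisRepAdic A} {b : Basis (Fin 2) A ρ.V}

/-- The row of a functional. -/
def rowOf (f : ρ.V →ₗ[A] A) (b : Basis (Fin 2) A ρ.V) : Fin 2 → A := fun j => f (b j)

theorem rowOf_vecMul (f : ρ.V →ₗ[A] A) {σ : Gal} {z : A}
    (hσ : ∀ v, f (ρ.ρ σ v) = z * f v) :
    rowOf f b ᵥ* matOf ρ b σ = z • rowOf f b := by
  funext j
  have hsum : ρ.ρ σ (b j) = matOf ρ b σ 0 j • b 0 + matOf ρ b σ 1 j • b 1 := by
    conv_lhs => rw [← b.sum_repr (ρ.ρ σ (b j))]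
    rw [Fin.sum_univ_two, matOf_apply, matOf_apply]
  have h := hσ (b j)
  rw [hsum, map_add, map_smul, map_smul, smul_eq_mul, smul_eq_mul] at h
  simp only [Matrix.vecMul, dotProduct, Fin.sum_univ_two, rowOf, Pi.smul_apply, smul_eq_mul]
  linear_combination h

/-- An eigen row vector with invertible second entry gives a line. -/
theorem line_of_row {w : Fin 2 → A} {u : Aˣ} (hu : (u : A) = w 1) {F : M2 A} {z : A}
    (h : w ᵥ* F = z • w) :
    StableLine (w 0 * ↑u⁻¹) F ∧ lineVal (w 0 * ↑u⁻¹) F = z := by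
  have h0 := congr_fun h 0
  have h1 := congr_fun h 1
  simp only [Matrix.vecMul, dotProduct, Fin.sum_univ_two, Pi.smul_apply, smul_eq_mul] at h0 h1
  have e : (↑u⁻¹ : A) * w 1 = 1 := by rw [← hu, Units.inv_mul]
  have hz : lineVal (w 0 * ↑u⁻¹) F = z := by
    unfold lineVal
    linear_combination (↑u⁻¹ : A) * h1 - (F 1 1 - z) * e
  refine ⟨?_, hz⟩
  unfold StableLine
  rw [show w 0 * ↑u⁻¹ * F 0 1 + F 1 1 = z from hz]
  linear_combination (↑u⁻¹ : A) * h0 - F 1 0 * e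

/-- A row containing a unit whose first entry is not one has invertible second entry. -/
theorem exists_unit_snd {w : Fin 2 → A} (hspan : ∃ c : Fin 2 → A, c 0 * w 0 + c 1 * w 1 = 1)
    (h0 : w 0 ∈ maximalIdeal A) : ∃ u : Aˣ, (u : A) = w 1 := by
  by_contra hne
  have h1 : w 1 ∈ maximalIdeal A := fun hu => hne ⟨hu.unit, rfl⟩
  obtain ⟨c, hc⟩ := hspan
  exact (maximalIdeal.isMaximal A).ne_top ((Ideal.eq_top_iff_one _).mpr
    (hc ▸ add_mem (Ideal.mul_mem_left _ _ h0) (Ideal.mul_mem_left _ _ h1)))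

theorem exists_comb_rowOf {f : ρ.V →ₗ[A] A} (hf : Function.Surjective f) :
    ∃ c : Fin 2 → A, c 0 * rowOf f b 0 + c 1 * rowOf f b 1 = 1 := by
  obtain ⟨v, hv⟩ := hf 1
  refine ⟨fun j => b.repr v j, ?_⟩
  rw [← b.sum_repr v, map_sum, Fin.sum_univ_two, map_smul, map_smul] at hv
  exact hv

variable {h : IsResAlg O A}

/-- The line at `2` of a functional. -/
theorem exists_twoLine_of_functional (hl : Lifts S.W h (matOf ρ b)) {f : ρ.V →ₗ[A] A}
    (hf : Function.Surjective f)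
    (hI : ∀ σ ∈ S.P2.inertiaSubgroupIn ℚ, ∀ v, f (ρ.ρ σ v) = f v)
    (hD : ∀ σ ∈ S.P2.decompositionSubgroup ℚ, ∃ z : A, ∀ v, f (ρ.ρ σ v) = z * f v) :
    ∃ x : A, TwoLine S (matOf ρ b) x ∧
      ∀ σ ∈ S.P2.decompositionSubgroup ℚ, ∀ z : A, (∀ v, f (ρ.ρ σ v) = z * f v) →
        lineVal x (matOf ρ b σ) = z := by
  have hfix : ∀ σ ∈ S.P2.inertiaSubgroupIn ℚ, rowOf f b ᵥ* matOf ρ b σ = (1 : A) • rowOf f b :=
    fun σ hσ => rowOf_vecMul f fun v => by rw [one_mul]; exact hI σ hσ v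
  have h0 : rowOf f b 0 ∈ maximalIdeal A := by
    refine (augment_eq_zero_iff h _).mp ?_
    have hl' : ∀ σ i j, augment h (matOf ρ b σ i j) = S.W.rb σ i j := hl
    have h1 := congrArg (augment h) (congr_fun (hfix S.σ2 S.σ2_mem) 1)
    simpa [Matrix.vecMul, dotProduct, Fin.sum_univ_two, hl', S.rb_σ2, upperU] using h1
  obtain ⟨u, hu⟩ := exists_unit_snd (exists_comb_rowOf hf) h0
  refine ⟨rowOf f b 0 * ↑u⁻¹, ⟨fun σ hσ => ?_, fun σ hσ => ?_⟩, fun σ hσ z hz => ?_⟩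
  · exact (line_of_row hu (hfix σ hσ)).1.fixesLine (line_of_row hu (hfix σ hσ)).2
  · obtain ⟨z, hz⟩ := hD σ hσ
    exact (line_of_row hu (rowOf_vecMul f hz)).1
  · exact (line_of_row hu (rowOf_vecMul f hz)).2

theorem det_matOf (σ : Gal) : (matOf ρ b σ).det = LinearMap.det (ρ.ρ σ) :=
  LinearMap.det_toMatrix b (ρ.ρ σ)

theorem isLift_matOf (hρ : IsTwoAdicType S Lv ρ) (hl : Lifts S.W h (matOf ρ b)) :
    IsLift S Lv (matOf ρ b) := by
  obtain ⟨f, hf, hI, hD⟩ := hρ.two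
  obtain ⟨x, hx, -⟩ := exists_twoLine_of_functional hl hf hI hD
  refine ⟨fun σ hσ n a ha => ?_, fun q hq h2 hT hQ P hP σ hσ => ?_, fun q hq P hP σ hσ => ?_,
    fun q hq P hP σ hσ => ?_, ⟨x, hx⟩⟩
  · rw [det_matOf]; exact hρ.det σ hσ n a ha
  · show LinearMap.toMatrixAlgEquiv b (ρ.ρ σ) = 1
    rw [hρ.unramified q hq h2 hT hQ P hP σ hσ, map_one]
  · have h1 := hρ.steinberg q hq P hP σ hσ
    rw [← LinearMap.charpoly_toMatrix (ρ.ρ σ) b, Matrix.charpoly_fin_two,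
      show (Polynomial.X - 1 : Polynomial A) ^ 2 = Polynomial.X ^ 2 - Polynomial.C 2 * Polynomial.X +
        Polynomial.C 1 by rw [map_ofNat, map_one]; ring] at h1
    have e0 := congrArg (fun p => Polynomial.coeff p 0) h1
    have e1 := congrArg (fun p => Polynomial.coeff p 1) h1
    simp [Polynomial.coeff_X_pow, Polynomial.coeff_one, -LinearMap.det_toMatrix] at e0 e1
    have hm : matOf ρ b σ = LinearMap.toMatrix b b (ρ.ρ σ) := rfl
    exact ⟨hm ▸ e1, hm ▸ e0⟩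
  · show (LinearMap.toMatrixAlgEquiv b (ρ.ρ σ) - 1).det = 0
    rw [← map_one (LinearMap.toMatrixAlgEquiv b), ← map_sub]
    exact (LinearMap.det_toMatrix b _).trans (hρ.qdet q hq P hP σ hσ)

theorem isSigned_matOf (hl : Lifts S.W h (matOf ρ b)) {a : A} {f : ρ.V →ₗ[A] A}
    (hf : Function.Surjective f)
    (hI : ∀ σ ∈ S.P2.inertiaSubgroupIn ℚ, ∀ v, f (ρ.ρ σ v) = f v)
    (hD : ∀ σ ∈ S.P2.decompositionSubgroup ℚ, ∃ z : A, ∀ v, f (ρ.ρ σ v) = z * f v)
    (hval : ∀ v, f (ρ.ρ S.φ2 v) = a * LinearMap.det (ρ.ρ Lv.root2) * f v) :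
    IsSigned S Lv a (matOf ρ b) := by
  obtain ⟨x, hx, hv⟩ := exists_twoLine_of_functional hl hf hI hD
  exact ⟨x, hx, by rw [hv S.φ2 S.φ2_frob.mem_decompositionSubgroup _ hval, det_matOf]⟩

/-- An auxiliary line from a functional with the selected residual eigenvalue. -/
theorem exists_eigen_of_functional (D : Aux S Lv) (i : D.ι) (hl : Lifts S.W h (matOf ρ b))
    {f : ρ.V →ₗ[A] A} (hf : Function.Surjective f) (hτ : ∀ v, f (ρ.ρ (D.τ i) v) = f v) {α : A}
    (hφ : ∀ v, f (ρ.ρ (D.φ i) v) = α * f v)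
    (hα : augment h α = residualAt S (D.g i) (D.φ i) 1 1) :
    ∃ x ∈ maximalIdeal A, StableLine x (D.loc i (matOf ρ b) (D.φ i)) ∧
      lineVal x (D.loc i (matOf ρ b) (D.φ i)) = α ∧
      FixesLine x (D.loc i (matOf ρ b) (D.τ i)) := by
  set G := D.basis i A
  set w : Fin 2 → A := rowOf f b ᵥ* (G : M2 A)
  have hw : ∀ σ z, (∀ v, f (ρ.ρ σ v) = z * f v) → w ᵥ* D.loc i (matOf ρ b) σ = z • w := by
    intro σ z hz
    show (rowOf f b ᵥ* (G : M2 A)) ᵥ* ((↑G⁻¹ : M2 A) * matOf ρ b σ * (G : M2 A)) = _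
    rw [Matrix.vecMul_vecMul, ← mul_assoc, Units.mul_inv_cancel_left, ← Matrix.vecMul_vecMul,
      rowOf_vecMul f hz, Matrix.smul_vecMul]
  have hN : ∀ j l, augment h (D.loc i (matOf ρ b) (D.φ i) j l) =
      residualAt S (D.g i) (D.φ i) j l := by
    intro j l
    have hG : ∀ M : M2 O, (augment h : A →+* ResidueField O).mapMatrix
        ((algebraMap O A).mapMatrix M) = (algebraMap O (ResidueField O)).mapMatrix M :=
      fun M => Matrix.ext fun s t => (augment h).commutes (M s t)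
    show (augment h : A →+* ResidueField O).mapMatrix ((algebraMap O A).mapMatrix ↑(D.g i)⁻¹ *
      matOf ρ b (D.φ i) * (algebraMap O A).mapMatrix ↑(D.g i)) j l = _
    rw [map_mul, map_mul, hG, hG,
      show (augment h : A →+* ResidueField O).mapMatrix (matOf ρ b (D.φ i)) = S.W.rb (D.φ i) from
        Matrix.ext fun s t => hl (D.φ i) s t]
    rfl
  have h0 : w 0 ∈ maximalIdeal A := by
    refine (augment_eq_zero_iff h _).mp ?_
    have h1 := congrArg (augment h) (congr_fun (hw (D.φ i) α hφ) 1)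
    simp only [Matrix.vecMul, dotProduct, Fin.sum_univ_two, Pi.smul_apply, smul_eq_mul, map_add,
      map_mul, hN, hα] at h1
    exact eq_zero_of_ne_zero_of_mul_right_eq_zero (D.rb_upper i) (by linear_combination h1)
  have hcomb : ∃ c : Fin 2 → A, c 0 * w 0 + c 1 * w 1 = 1 := by
    obtain ⟨c, hc⟩ := exists_comb_rowOf (b := b) hf
    refine ⟨(↑G⁻¹ : M2 A) *ᵥ c, ?_⟩
    have e : ∀ p q : Fin 2 → A, p 0 * q 0 + p 1 * q 1 = q ⬝ᵥ p := fun p q => by
      simp [dotProduct, Fin.sum_univ_two, mul_comm]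
    rw [e, ← Matrix.dotProduct_mulVec, Matrix.mulVec_mulVec, Units.mul_inv, Matrix.one_mulVec,
      ← e]
    exact hc
  obtain ⟨u, hu⟩ := exists_unit_snd hcomb h0
  have hfix := line_of_row hu (hw (D.τ i) 1 (fun v => by rw [one_mul]; exact hτ v))
  exact ⟨w 0 * ↑u⁻¹, Ideal.mul_mem_right _ _ h0, (line_of_row hu (hw _ α hφ)).1,
    (line_of_row hu (hw _ α hφ)).2, hfix.1.fixesLine hfix.2⟩

/-- A representation with the residual representation of `S` has a normalised lifting basis. -/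
theorem exists_normalBasis [IsAdicComplete (maximalIdeal A) A]
    {ρbar : ResidualGaloisRep (ResidueField O)} {bb : Basis (Fin 2) (ResidueField O) ρbar.V}
    (hW : S.W.rb = matRes ρbar bb) (h : IsResAlg O A) [IsLocalHom (algebraMap O A)]
    (ρ : GaloisRepAdic A)
    (he : ρ.residual.IsEquiv (ρbar.baseChangeAlong (ResidueField.map (algebraMap O A)))) :
    ∃ b : Basis (Fin 2) A ρ.V, Lifts S.W h (matOf ρ b) ∧ IsNormal S.W (matOf ρ b) := by
  obtain ⟨b, hl⟩ := exists_lifts_basis hW h ρ he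
  obtain ⟨P, hPl, hPn⟩ := exists_normal hl
  let e : ρ.V ≃ₗ[A] ρ.V := LinearMap.GeneralLinearGroup.generalLinearEquiv A ρ.V
    (Units.map (LinearMap.toMatrixAlgEquiv b).symm.toMonoidHom P)
  have hmat : matOf ρ (b.map e) = conjM P (matOf ρ b) := by
    refine MonoidHom.ext fun σ => ?_
    have hrepr : ∀ v, (b.map e).repr v = b.repr (e.symm v) := fun v => rfl
    have hP : LinearMap.toMatrixAlgEquiv b (e : ρ.V →ₗ[A] ρ.V) = (P : M2 A) :=
      (LinearMap.toMatrixAlgEquiv b).apply_symm_apply _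
    have hPi : LinearMap.toMatrixAlgEquiv b (e.symm : ρ.V →ₗ[A] ρ.V) = (↑P⁻¹ : M2 A) :=
      (LinearMap.toMatrixAlgEquiv b).apply_symm_apply _
    show LinearMap.toMatrixAlgEquiv (b.map e) (ρ.ρ σ) =
      (↑P⁻¹ : M2 A) * LinearMap.toMatrixAlgEquiv b (ρ.ρ σ) * (P : M2 A)
    rw [← hP, ← hPi, ← map_mul, ← map_mul]
    ext i j
    rw [LinearMap.toMatrixAlgEquiv_apply, LinearMap.toMatrixAlgEquiv_apply, hrepr, Basis.map_apply]
    rfl
  exact ⟨b.map e, hmat ▸ hPl, hmat ▸ hPn⟩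

end Fermat.Agent.TwoAdic.Deform
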