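import Fermat.Agent.Mazur.Eisenstein.CycInertia

/-!
# A Frobenius element fixing the roots of unity of `r`-power order
-/

set_option autoImplicit false

noncomputable section

namespace Fermat.Agent.TwoAdic.Deform

open Fermat.Agent.Arith
open scoped Pointwise

variable {A : ValuationSubring QBar} {r : ℕ}

/-- A condition on the image of one element is clopen. -/
theorem isClopen_apply_mem (x : QBar) (s : Set QBar) : IsClopen {σ : GQ | σ x ∈ s} := by
  have key : ∀ s : Set QBar, IsOpen {σ : GQ | σ x ∈ s} := by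
    intro s
    haveI : FiniteDimensional ℚ (IntermediateField.adjoin ℚ {x}) :=
      IntermediateField.adjoin.finiteDimensional (Algebra.IsIntegral.isIntegral x)
    set H := (IntermediateField.adjoin ℚ {x}).fixingSubgroup with hH
    have hHo : IsOpen (H : Set GQ) := IntermediateField.fixingSubgroup_isOpen _
    refine isOpen_iff_mem_nhds.mpr fun σ hσ => ?_
    refine Filter.mem_of_superset ((isOpenMap_mul_left σ _ hHo).mem_nhds
      ⟨1, one_mem H, mul_one σ⟩) ?_
    rintro _ ⟨h, hh, rfl⟩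
    show σ (h x) ∈ s
    rwa [(IntermediateField.mem_fixingSubgroup_iff _ _).mp hh x
      (IntermediateField.mem_adjoin_simple_self ℚ x)]
  refine ⟨?_, key s⟩
  rw [← isOpen_compl_iff]
  exact key sᶜ

theorem isClosed_inertia : IsClosed (A.inertiaSubgroupIn ℚ : Set GQ) := by
  have e : (A.inertiaSubgroupIn ℚ : Set GQ) = (⋂ x ∈ A, {σ : GQ | σ x ∈ A}) ∩
      (⋂ x ∈ A, {σ : GQ | σ x ∈ {y | y - x ∈ A.nonunits}}) ∩
        ⋂ x ∉ A, {σ : GQ | σ x ∈ (A : Set QBar)ᶜ} := by
    ext σ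
    simp only [SetLike.mem_coe, Set.mem_inter_iff, Set.mem_iInter, Set.mem_setOf_eq,
      Set.mem_compl_iff]
    rw [mem_inertia_iff_forall_mem]
    constructor
    · rintro ⟨hσ, hres⟩
      refine ⟨⟨fun x hx => map_mem_of_mem_decomposition hσ hx, hres⟩, fun x hx h => hx ?_⟩
      have := map_mem_of_mem_decomposition (inv_smul_eq_iff.mpr hσ.symm) h
      rwa [show σ⁻¹ (σ x) = x from σ.symm_apply_apply x] at this
    · rintro ⟨⟨h1, h2⟩, h3⟩
      refine ⟨?_, h2⟩
      ext x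
      rw [ValuationSubring.mem_pointwise_smul_iff_inv_smul_mem]
      constructor
      · intro h
        have := h1 _ h
        rwa [show σ (σ⁻¹ • x) = x from σ.apply_symm_apply x] at this
      · intro h
        by_contra hn
        exact h3 _ hn (by rwa [show σ (σ⁻¹ • x) = x from σ.apply_symm_apply x])
  rw [e]
  exact ((isClosed_biInter fun x _ => (isClopen_apply_mem x _).1).inter
    (isClosed_biInter fun x _ => (isClopen_apply_mem x _).1)).inter
    (isClosed_iInter fun x => isClosed_iInter fun _ => (isClopen_apply_mem x _).1)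

/-- A Frobenius element at `r` fixing all roots of unity of `r`-power order. -/
theorem exists_frobenius_fix_roots (hA : A.LiesOverPrime r) (hr : r.Prime) :
    ∃ φ : GQ, A.IsFrobeniusAt φ r ∧ ∀ (n : ℕ) (μ : QBar), μ ^ r ^ n = 1 → φ μ = μ := by
  obtain ⟨F, hF⟩ := exists_isFrobeniusAt hA hr
  set C : ℕ → Set GQ := fun n => (A.inertiaSubgroupIn ℚ : Set GQ) ∩
    ⋂ μ ∈ {μ : QBar | μ ^ r ^ n = 1}, {σ : GQ | σ μ ∈ {y : QBar | F y = μ}} with hC
  have hmem : ∀ n σ, σ ∈ C n ↔ σ ∈ A.inertiaSubgroupIn ℚ ∧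
      ∀ μ : QBar, μ ^ r ^ n = 1 → F (σ μ) = μ := fun n σ => by simp [hC]
  have hne : ∀ n, (C n).Nonempty := fun n => by
    haveI : NeZero (r ^ (n + 1)) := ⟨pow_ne_zero _ hr.ne_zero⟩
    obtain ⟨ζ, hζ⟩ := HasEnoughRootsOfUnity.exists_primitiveRoot QBar (r ^ (n + 1))
    obtain ⟨σ, hσ, hσζ⟩ := Mazur.Eisenstein.exists_inertia_apply hA hr hζ
      (hζ.map_of_injective (f := (F⁻¹ : GQ)) (F⁻¹ : GQ).injective)
    refine ⟨σ, (hmem n σ).mpr ⟨hσ, fun μ hμ => ?_⟩⟩
    obtain ⟨i, -, rfl⟩ := hζ.eq_pow_of_pow_eq_one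
      (show μ ^ r ^ (n + 1) = 1 by rw [pow_succ, pow_mul, hμ, one_pow])
    rw [map_pow, hσζ, map_pow, show F (F⁻¹ ζ) = ζ from F.apply_symm_apply ζ]
  have hclosed : ∀ n, IsClosed (C n) := fun n =>
    isClosed_inertia.inter (isClosed_biInter fun μ _ => (isClopen_apply_mem μ _).1)
  obtain ⟨σ, hσ⟩ := IsCompact.nonempty_iInter_of_sequence_nonempty_isCompact_isClosed C
    (fun n σ hσ => by
      rw [hmem] at hσ ⊢
      exact ⟨hσ.1, fun μ hμ => hσ.2 μ (by rw [pow_succ, pow_mul, hμ, one_pow])⟩)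
    hne (hclosed 0).isCompact hclosed
  rw [Set.mem_iInter] at hσ
  exact ⟨F * σ, isFrobeniusAt_mul_inertia hF ((hmem 0 σ).mp (hσ 0)).1,
    fun n μ hμ => ((hmem n σ).mp (hσ n)).2 μ hμ⟩

end Fermat.Agent.TwoAdic.Deform
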