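import Fermat.Agent.TwoAdic.Deform.CurveFrame
import Fermat.Agent.TwoAdic.Deform.CycFrobenius
import Fermat.Agent.TwoAdic.Deform.Bridge
import Fermat.Agent.TwoAdic.Deform.Forced

/-!
# The setting and the point of a curve satisfying `IsTwoAdicCurve`

`curveSetting h h2` is the deformation setting over a coefficient ring `O` with residue
characteristic two, with residual matrices the image of `curveFrame`; `exists_curvePoint` gives the
normalised lift coming from the Tate module.
-/

set_option autoImplicit false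
set_option linter.style.haveILetI false
set_option linter.unusedSectionVars false

open scoped WeierstrassCurve.Affine Pointwise
open WeierstrassCurve

noncomputable section

namespace Fermat.Agent.TwoAdic.Deform

open IsLocalRing Fermat.Agent.Arith Fermat.Agent.Deform Fermat.Agent.EC.Rep
  Fermat.Agent.TwoAdic.Curve

local instance factTwoCurvePoint : Fact (Nat.Prime 2) := ⟨Nat.prime_two⟩

variable {W : WeierstrassCurve ℤ} (h : IsTwoAdicCurve W)
variable {O : Type} [CommRing O] [IsLocalRing O] (h2 : (2 : O) ∈ maximalIdeal O)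

include h2 in
theorem two_eq_zero_residue : (2 : ResidueField O) = 0 := by
  rw [← map_ofNat (residue O) 2, residue_eq_zero_iff]; exact h2

/-- The map from `F₂` to the residue field. -/
def resTwo : ZMod 2 →+* ResidueField O :=
  haveI : CharP (ResidueField O) 2 := CharTwo.of_one_ne_zero_of_two_eq_zero one_ne_zero
    (two_eq_zero_residue h2)
  ZMod.castHom dvd_rfl _

theorem resTwo_injective : Function.Injective (resTwo h2) := RingHom.injective _

/-- The residual matrices. -/
def curveRb : Gal →* M2 (ResidueField O) := mapM (resTwo h2) (curveRho h)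

theorem curveRb_eq_one_iff (σ : Gal) : curveRb h h2 σ = 1 ↔ curveRho h σ = 1 := by
  have e : curveRb h h2 σ = (resTwo h2).mapMatrix (curveRho h σ) := rfl
  refine ⟨fun h1 => Matrix.map_injective (resTwo_injective h2) ?_, fun h1 => by rw [e, h1, map_one]⟩
  rw [e] at h1
  exact h1.trans (map_one (resTwo h2).mapMatrix).symm

theorem curveRb_decomp {σ : Gal} (hσ : σ ∈ (padicPlace 2).decompositionSubgroup ℚ) :
    curveRb h h2 σ = 1 ∨ curveRb h h2 σ = upperU (ResidueField O) := by
  rcases curveRho_decomp h hσ with e | e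
  · exact Or.inl ((curveRb_eq_one_iff h h2 σ).mpr e)
  · refine Or.inr (Matrix.ext fun i j => ?_)
    rw [curveRb, mapM_apply, e]
    fin_cases i <;> fin_cases j <;> simp [Selmer.refM, upperU]

/-- Elements with the three residual values used for the normalisation. -/
def normalElt (M : M2 (ZMod 2)) (hM : M.det ≠ 0) : Gal := (exists_curveRho_eq h hM).choose

theorem curveRho_normalElt (M : M2 (ZMod 2)) (hM : M.det ≠ 0) :
    curveRho h (normalElt h M hM) = M :=
  (exists_curveRho_eq h hM).choose_spec

theorem curveRb_normalElt (M : M2 (ZMod 2)) (hM : M.det ≠ 0) :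
    curveRb h h2 (normalElt h M hM) = (resTwo h2).mapMatrix M :=
  congrArg (resTwo h2).mapMatrix (curveRho_normalElt h M hM)

/-- The rigidifying data. -/
def curveRigid : Rigid O where
  rb := curveRb h h2
  cX := Finsupp.single (normalElt h Selmer.rotM (by decide)) 1 +
    (Finsupp.single (normalElt h Selmer.refM (by decide)) 1 +
      (Finsupp.single (normalElt h Selmer.refM' (by decide)) 1 + Finsupp.single 1 1))
  cY := Finsupp.single (normalElt h Selmer.refM' (by decide)) 1 + Finsupp.single 1 1
  hX := by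
    rw [← Finsupp.linearCombination_apply, map_add, map_add, map_add,
      Finsupp.linearCombination_single, Finsupp.linearCombination_single,
      Finsupp.linearCombination_single, Finsupp.linearCombination_single, one_smul, one_smul,
      one_smul, one_smul, curveRb_normalElt, curveRb_normalElt, curveRb_normalElt, map_one,
      ← map_one (resTwo h2).mapMatrix, ← map_add, ← map_add, ← map_add,
      show Selmer.rotM + (Selmer.refM + (Selmer.refM' + 1)) = Matrix.single 0 0 1 by decide]
    ext i j
    fin_cases i <;> fin_cases j <;> simp [Matrix.single_apply]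
  hY := by
    rw [← Finsupp.linearCombination_apply, map_add, Finsupp.linearCombination_single,
      Finsupp.linearCombination_single, one_smul, one_smul, curveRb_normalElt, map_one,
      ← map_one (resTwo h2).mapMatrix, ← map_add,
      show Selmer.refM' + 1 = Matrix.single 1 0 1 by decide]
    ext i j
    fin_cases i <;> fin_cases j <;> simp [Matrix.single_apply]

/-- The deformation setting of the curve. -/
def curveSetting : Setting O where
  W := curveRigid h h2
  two_eq_zero := two_eq_zero_residue h2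
  det_rb σ := by
    show (curveRb h h2 σ).det = 1
    rw [show curveRb h h2 σ = (resTwo h2).mapMatrix (curveRho h σ) from rfl, ← RingHom.map_det,
      (show ∀ x : ZMod 2, x ≠ 0 → x = 1 by decide) _ (isUnit_det_curveRho h σ), map_one]
  rb_finiteLevel := by
    obtain ⟨L, hL, h1⟩ := (curveFrame h).ρ_finiteLevel
    exact ⟨L, hL, fun σ hσ => (curveRb_eq_one_iff h h2 σ).mpr (h1 σ hσ)⟩
  T := badOdd W
  prime_of_mem := (curveFrame h).prime_of_mem
  two_notMem := (curveFrame h).two_notMem
  rb_unramified q hq hq2 hT P hP σ hσ :=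
    (curveRb_eq_one_iff h h2 σ).mpr ((curveFrame h).unramified q hq hq2 hT P hP σ hσ)
  rb_trace_inertia q hq P hP σ hσ := by
    have h1 : (curveRho h σ).trace = 0 := (curveFrame h).trace_inertia q hq P hP σ hσ
    rw [Matrix.trace_fin_two] at h1
    show (curveRb h h2 σ).trace = 0
    rw [Matrix.trace_fin_two, curveRb, mapM_apply, mapM_apply, ← map_add, h1, map_zero]
  P2 := padicPlace 2
  P2_over := CFT.Local.padicPlace_liesOverPrime 2
  σ2 := (curveFrame h).σ2
  σ2_mem := (curveFrame h).σ2_mem
  rb_σ2 := by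
    show curveRb h h2 (curveFrame h).σ2 = _
    refine (curveRb_decomp h h2 ?_).resolve_left fun e => ?_
    · exact MulAction.mem_stabilizer_iff.mpr
        (mem_inertia_iff_forall_mem.mp (curveFrame h).σ2_mem).1
    · have h1 : curveRho h (curveFrame h).σ2 = Selmer.refM := (curveFrame h).ρ_σ2
      exact absurd (h1.symm.trans ((curveRb_eq_one_iff h h2 _).mp e)) (by decide)
  rb_decomp σ hσ := curveRb_decomp h h2 hσ
  φ2 := (exists_frobenius_fix_roots (CFT.Local.padicPlace_liesOverPrime 2) Nat.prime_two).choose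
  φ2_frob := (exists_frobenius_fix_roots
    (CFT.Local.padicPlace_liesOverPrime 2) Nat.prime_two).choose_spec.1
  φ2_roots := (exists_frobenius_fix_roots
    (CFT.Local.padicPlace_liesOverPrime 2) Nat.prime_two).choose_spec.2
  disc := (W.Δ : ℚ)
  sqrtDisc := Curve.sqrtDisc W
  sqrtDisc_sq := by rw [Curve.sqrtDisc_sq, map_intCast]
  disc_odd := by
    rw [padicValRat.of_int]
    exact_mod_cast h.odd_val 2 Nat.prime_two h.two_dvd
  rb_inertia2_iff σ hσ := by
    show curveRb h h2 σ = 1 ↔ _
    rw [curveRb_eq_one_iff, curveRho_eq_one_iff]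
    refine ⟨fun e => (sign_perm_eq_one_iff h.delta_ne_zero).mp (by rw [e, map_one]), fun e => ?_⟩
    exact perm_eq_one_of_fix_sqrtDisc h.delta_ne_zero (CFT.Local.padicPlace_liesOverPrime 2)
      Nat.prime_two h.two_dvd (h.semistable 2 Nat.prime_two h.two_dvd)
      (mem_inertia_iff_forall_mem.mp hσ).1 e

theorem curveSetting_T : (curveSetting h h2).T = badOdd W := rfl

theorem curveSetting_rb : (curveSetting h h2).W.rb = mapM (resTwo h2) (curveFrame h).ρ := rfl

theorem curveSetting_rb_eq (g : ZMod 2 →+* ResidueField O) :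
    (curveSetting h h2).W.rb = mapM g (curveFrame h).ρ := by
  rw [Subsingleton.elim g (resTwo h2)]; rfl

theorem curveSetting_P2 : (curveSetting h h2).P2 = (curveFrame h).P2 := rfl

theorem curveSetting_σ2 : (curveSetting h h2).σ2 = (curveFrame h).σ2 := rfl

/-- Every invertible matrix over `F₂` is a residual value. -/
theorem exists_rb_eq {M : M2 (ZMod 2)} (hM : M.det ≠ 0) :
    ∃ σ, (curveSetting h h2).W.rb σ = (resTwo h2).mapMatrix M :=
  ⟨_, curveRb_normalElt h h2 M hM⟩

/-- The residual trace of Frobenius. -/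
theorem trace_rb_frobenius {ℓ : ℕ} (hℓ : ℓ.Prime) (hgood : W.IsGoodPrimeFor ℓ) (hℓ2 : ℓ ≠ 2)
    {P : ValuationSubring QBar} (hP : P.LiesOverPrime ℓ) {σ : Gal}
    (hσ : P.IsFrobeniusAt σ ℓ) :
    ((curveSetting h h2).W.rb σ).trace = (W.apOfModel ℓ : ResidueField O) := by
  have e : (curveSetting h h2).W.rb σ =
      ((resTwo h2).comp PadicInt.toZMod).mapMatrix (curveRep h σ) := rfl
  rw [e, ← map_intCast ((resTwo h2).comp PadicInt.toZMod), ← curveRep_trace h hℓ hgood hℓ2 hP hσ,
    Matrix.trace_fin_two, Matrix.trace_fin_two, map_add]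
  rfl

variable [Algebra ℤ_[2] O]

include h2 in
theorem isLocalHom_algebraMap_padic : IsLocalHom (algebraMap ℤ_[2] O) := by
  refine ⟨fun a ha => ?_⟩
  by_contra hn
  have h1 : a ∈ maximalIdeal ℤ_[2] := hn
  rw [PadicInt.maximalIdeal_eq_span_p, Ideal.mem_span_singleton] at h1
  obtain ⟨c, rfl⟩ := h1
  refine (mem_maximalIdeal _).mp ?_ ha
  rw [map_mul, map_natCast, Nat.cast_ofNat]
  exact Ideal.mul_mem_right _ _ h2

theorem residue_algebraMap_padic (x : ℤ_[2]) :
    residue O (algebraMap ℤ_[2] O x) = resTwo h2 (PadicInt.toZMod x) := by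
  have h0 : x - ((PadicInt.toZMod x).val : ℤ_[2]) ∈ RingHom.ker (PadicInt.toZMod (p := 2)) := by
    rw [RingHom.mem_ker, map_sub, map_natCast, ZMod.natCast_zmod_val, sub_self]
  rw [PadicInt.ker_toZMod, PadicInt.maximalIdeal_eq_span_p, Ideal.mem_span_singleton,
    Nat.cast_ofNat] at h0
  obtain ⟨c, hc⟩ := h0
  rw [sub_eq_iff_eq_add] at hc
  conv_lhs => rw [hc, map_add, map_add, map_mul, map_mul, map_ofNat, map_ofNat,
    two_eq_zero_residue h2, zero_mul, zero_add, map_natCast, map_natCast]
  conv_rhs => rw [← ZMod.natCast_zmod_val (PadicInt.toZMod x), map_natCast]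

/-- The point of the curve. -/
theorem exists_curvePoint [IsAdicComplete (maximalIdeal O) O] [IsNoetherianRing O]
    (hO : IsResAlg O O) :
    ∃ r : Gal →* M2 O, IsCont r ∧ Lifts (curveSetting h h2).W hO r ∧
      IsNormal (curveSetting h h2).W r ∧
      IsLift (curveSetting h h2) (Level.base (curveSetting h h2)) r ∧
      (∀ ℓ : ℕ, ℓ.Prime → W.IsGoodPrimeFor ℓ → ℓ ≠ 2 →
        ∀ P : ValuationSubring QBar, P.LiesOverPrime ℓ → ∀ σ : Gal, P.IsFrobeniusAt σ ℓ →
          (r σ).trace = (W.apOfModel ℓ : O)) ∧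
      ∃ a : O, a * a = 1 ∧
        IsSigned (curveSetting h h2) (Level.base (curveSetting h h2)) a r := by
  set S := curveSetting h h2 with hS
  set f := algebraMap ℤ_[2] O
  set r₀ := mapM f (curveRep h) with hr₀
  have hc₀ : IsCont r₀ := (curveRep_cont h).map f (isLocalHom_algebraMap_padic h2)
  have haug : ∀ y : O, augment hO y = residue O y := fun y => (augment hO).commutes y
  have hl₀ : Lifts S.W hO r₀ := fun σ i j => by
    rw [haug, hr₀, mapM_apply, residue_algebraMap_padic h2]
    rfl
  obtain ⟨P, hl, hn⟩ := exists_normal hl₀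
  set r := conjM P r₀ with hr
  have hdet : ∀ σ, (r σ).det = f (curveRep h σ).det := fun σ => by
    have hinv : (↑P⁻¹ : M2 O).det * (P : M2 O).det = 1 := by
      rw [← Matrix.det_mul, Units.inv_mul, Matrix.det_one]
    rw [hr, conjM_apply, Matrix.det_mul, Matrix.det_mul,
      show (r₀ σ).det = f (curveRep h σ).det from (RingHom.map_det f (curveRep h σ)).symm]
    linear_combination f (curveRep h σ).det * hinv
  have htr : ∀ σ, (r σ).trace = f (curveRep h σ).trace := fun σ => by
    rw [hr, conjM_apply, mul_assoc, Matrix.trace_mul_comm, Units.mul_inv_cancel_right,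
      Matrix.trace_fin_two, Matrix.trace_fin_two, map_add]
    rfl
  -- the line at two
  set w : Fin 2 → O := ![(P : M2 O) 1 0, (P : M2 O) 1 1]
  have hw : ∀ σ ∈ S.P2.decompositionSubgroup ℚ,
      Matrix.vecMul w (r σ) = f (curveRep h σ 1 1) • w := by
    intro σ hσ
    have hlow : r₀ σ 1 0 = 0 := by rw [hr₀, mapM_apply, curveRep_lower h hσ, map_zero]
    have e0 : Matrix.vecMul ![0, 1] (r₀ σ) = f (curveRep h σ 1 1) • ![0, 1] := by
      funext j
      fin_cases j
      · simpa [Matrix.vecMul, dotProduct, Fin.sum_univ_two] using hlow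
      · simp [Matrix.vecMul, dotProduct, Fin.sum_univ_two, hr₀]
    have ew : w = Matrix.vecMul ![0, 1] (P : M2 O) := by
      funext j
      fin_cases j <;> simp [w, Matrix.vecMul, dotProduct, Fin.sum_univ_two]
    rw [ew, Matrix.vecMul_vecMul, hr, conjM_apply, ← mul_assoc, Units.mul_inv_cancel_left,
      ← Matrix.vecMul_vecMul, e0, Matrix.smul_vecMul]
  have hwI : ∀ σ ∈ S.P2.inertiaSubgroupIn ℚ, Matrix.vecMul w (r σ) = (1 : O) • w := by
    intro σ hσ
    rw [hw σ (MulAction.mem_stabilizer_iff.mpr (mem_inertia_iff_forall_mem.mp hσ).1),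
      curveRep_quot h hσ, map_one]
  have hw0 : w 0 ∈ maximalIdeal O := by
    refine (augment_eq_zero_iff hO _).mp ?_
    have hl' : ∀ σ i j, augment hO (r σ i j) = S.W.rb σ i j := hl
    have h1 := congrArg (augment hO) (congr_fun (hwI S.σ2 S.σ2_mem) 1)
    simpa [Matrix.vecMul, dotProduct, Fin.sum_univ_two, hl', S.rb_σ2, upperU] using h1
  obtain ⟨u, hu⟩ := exists_unit_snd (w := w) ⟨![(↑P⁻¹ : M2 O) 0 1, (↑P⁻¹ : M2 O) 1 1], by
    have := congrArg (fun M : M2 O => M 1 1) (Units.mul_inv P)
    simpa [w, Matrix.mul_apply, Fin.sum_univ_two, mul_comm] using this⟩ hw0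
  have hx : TwoLine S r (w 0 * ↑u⁻¹) :=
    ⟨fun σ hσ => (line_of_row hu (hwI σ hσ)).1.fixesLine (line_of_row hu (hwI σ hσ)).2,
      fun σ hσ => (line_of_row hu (hw σ hσ)).1⟩
  have hD : IsLift S (Level.base S) r := by
    refine ⟨fun σ _ n a ha => ?_, fun q hq h2q hT _ Q hQ σ hσ => ?_, fun q hq Q hQ σ hσ => ?_,
      fun q hq => absurd hq (Finset.notMem_empty q), ⟨_, hx⟩⟩
    · rw [hdet]
      have := Ideal.mem_map_of_mem f (curveRep_det h ha)
      rwa [map_sub, map_natCast, Ideal.map_span, Set.image_singleton, map_natCast] at this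
    · rw [hr, conjM_apply,
        show r₀ σ = f.mapMatrix (curveRep h σ) from rfl,
        curveRep_unramified h hq h2q hT hQ hσ, map_one, mul_one, Units.inv_mul]
    · obtain ⟨e1, e2⟩ := curveRep_steinberg h hq hQ hσ
      exact ⟨by rw [htr, e1, map_ofNat], by rw [hdet, e2, map_one]⟩
  have hcr : IsCont r := hc₀.conj P
  refine ⟨r, hcr, hl, hn, hD, fun ℓ hℓ hgood hℓ2 Q hQ σ hσ => ?_, ?_⟩
  · rw [htr, curveRep_trace h hℓ hgood hℓ2 hQ hσ, map_intCast]
  · refine ⟨lineVal (w 0 * ↑u⁻¹) (r S.φ2), ?_, _, hx, ?_⟩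
    · rw [← sq, lineVal_sq_eq hcr hl hD hx]
      show (r 1).det ^ 2 = 1
      rw [map_one, Matrix.det_one, one_pow]
    · show _ = _ * (r 1).det
      rw [map_one, Matrix.det_one, mul_one]

end Fermat.Agent.TwoAdic.Deform
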