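import Fermat.Agent.TwoAdic.Deform.Tangent

/-!
# A uniform bound for the ring without auxiliary functionals

The derivations killing the chosen inertia elements at `Q` give classes of the base problem, so
the tangent dimension is at most the base bound plus `4` per auxiliary prime.
-/

set_option autoImplicit false
set_option linter.style.haveILetI false

noncomputable section

namespace Fermat.Agent.TwoAdic.Deform

open IsLocalRing Fermat.Agent.Deform Fermat.Agent.CFT.Tangent Fermat.Agent.Arith Module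

variable {O : Type} [CommRing O] [IsLocalRing O] (S : Setting O)

/-- No auxiliary places. -/
def Aux.empty : Aux S (Level.base S) where
  ι := Empty
  q := Empty.elim
  q_mem i := i.elim
  q_injective i := i.elim
  q_surj v hv := absurd hv (Finset.notMem_empty v)
  P := Empty.elim
  P_over i := i.elim
  φ := Empty.elim
  φ_frob i := i.elim
  τ := Empty.elim
  τ_mem i := i.elim
  τ_gen i := i.elim
  g := Empty.elim
  isU := Empty.elim
  rb_lower i := i.elim
  rb_upper i := i.elim
  rb_diag i := i.elim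

variable {S} {Lv : Level S}

/-- On inertia at an auxiliary prime, a class is decided by the chosen element. -/
def AuxInertiaFull (D : Aux S Lv) : Prop :=
  ∀ b : Cochain O, (∀ g g', b (g * g') = S.W.rb g * b g' * S.W.rb g⁻¹ + b g) →
    (∃ L : IntermediateField ℚ QBar, FiniteDimensional ℚ L ∧
      ∀ σ : Gal, (∀ x ∈ L, σ x = x) → b σ = 0) →
    ∀ i, b (D.τ i) = 0 → ∀ σ ∈ (D.P i).inertiaSubgroupIn ℚ, b σ = 0

/-- Vanishing on the inertia of one place spreads to its conjugates. -/
theorem cocycle_conj_eq_zero {b : Cochain O}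
    (hb : ∀ g g', b (g * g') = S.W.rb g * b g' * S.W.rb g⁻¹ + b g) {g σ : Gal}
    (hσ : S.W.rb σ = 1) (hbσ : b σ = 0) : b (g * σ * g⁻¹) = 0 := by
  have hσ' : S.W.rb σ⁻¹ = 1 := by
    have := map_mul S.W.rb σ σ⁻¹
    rwa [mul_inv_cancel, map_one, hσ, one_mul, eq_comm] at this
  have h1 : b 1 = 0 := by
    have := hb 1 1
    rw [one_mul, map_one, inv_one, map_one, one_mul, mul_one, left_eq_add] at this
    exact this
  have h2 := hb g g⁻¹
  rw [mul_inv_cancel, h1] at h2
  rw [mul_assoc, hb g (σ * g⁻¹), hb σ g⁻¹, hσ, hσ', hbσ, add_zero, one_mul, mul_one]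
  exact h2.symm

theorem cls_eq_zero_at_Q (D : Aux S Lv) {b : Cochain O}
    (hb : ∀ g g', b (g * g') = S.W.rb g * b g' * S.W.rb g⁻¹ + b g)
    (h0 : ∀ i, ∀ σ ∈ (D.P i).inertiaSubgroupIn ℚ, b σ = 0) {q : ℕ} (hq : q ∈ Lv.Q)
    {P : ValuationSubring QBar} (hP : P.LiesOverPrime q) {σ : Gal}
    (hσ : σ ∈ P.inertiaSubgroupIn ℚ) : b σ = 0 := by
  obtain ⟨i, rfl⟩ := D.q_surj q hq
  obtain ⟨g, rfl⟩ := exists_smul_eq (D.P_over i) hP (Lv.prime_of_mem _ hq)
  have hτ : g⁻¹ * σ * g ∈ (D.P i).inertiaSubgroupIn ℚ :=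
    (mem_inertia_smul_iff (g := g)).mp (by
      rwa [← mul_assoc, ← mul_assoc, mul_inv_cancel, one_mul, mul_inv_cancel_right])
  have hrb := S.rb_unramified _ (Lv.prime_of_mem _ hq) (Lv.ne_two _ hq) (Lv.notMem_T _ hq) _
    (D.P_over i) _ hτ
  have := cocycle_conj_eq_zero hb (g := g) hrb (h0 i _ hτ)
  rwa [← mul_assoc, ← mul_assoc, mul_inv_cancel, one_mul, mul_inv_cancel_right] at this

variable {R : Type} [CommRing R] [IsLocalRing R] [Algebra O R] {h : IsResAlg O R}
  {ru : Gal →* M2 R} [Finite (ResidueField O)] [IsNoetherianRing R]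

/-- A uniform bound on the tangent space of the ring without auxiliary functionals. -/
theorem finrank_tangentDer_le_base (D : Aux S Lv) (hF : AuxInertiaFull D)
    (hl : Lifts S.W h ru) (hn : IsNormal S.W ru) (hc : IsCont ru) (hlift : IsLift S Lv ru)
    (hgen : ∀ δ : tangentDer h, (∀ σ j l, δ.1 (ru σ j l) = 0) → δ = 0) {n : ℕ}
    (hb : SelmerBound (Aux.empty S) n) :
    finrank (ResidueField O) (tangentDer h) ≤ n + 4 * Fintype.card D.ι := by
  let k := ResidueField O
  let cls := tangentCls S.W h ru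
  let ev : tangentDer h →ₗ[k] (D.ι → M2 k) :=
    { toFun := fun δ i => cls δ (D.τ i)
      map_add' := fun δ δ' => funext fun i => by simp [map_add]
      map_smul' := fun c δ => funext fun i => by simp [map_smul] }
  have hcob : ∀ δ X, cls δ = cobdLin S.W.rb X → δ = 0 := fun δ X hX =>
    hgen δ (der_entries_eq_zero δ hl hn hX)
  have hinj : Function.Injective cls :=
    (injective_iff_map_eq_zero _).mpr fun δ hδ => hcob δ 0 (by rw [hδ, map_zero])
  have hV : finrank k ((LinearMap.ker ev).map cls) ≤ n := by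
    refine hb _ inferInstance ?_ ?_
    · rintro _ ⟨δ, hδ, rfl⟩
      have hker : ∀ i, cls δ (D.τ i) = 0 := fun i => congr_fun hδ i
      have hQ : ∀ q ∈ Lv.Q, ∀ P : ValuationSubring QBar, P.LiesOverPrime q →
          ∀ σ ∈ P.inertiaSubgroupIn ℚ, cls δ σ = 0 := fun q hq P hP σ hσ =>
        cls_eq_zero_at_Q D (tangentCls_mul hl δ) (fun i => hF _ (tangentCls_mul hl δ)
          (tangentCls_finiteLevel hc δ) i (hker i)) hq hP hσ
      obtain ⟨x2, hx2⟩ := hlift.two
      obtain ⟨t1, t2, -⟩ := two_cls δ hl hx2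
      refine ⟨tangentCls_mul hl δ, tangentCls_finiteLevel hc δ, fun q hq h2 hT _ P hP σ hσ => ?_,
        fun q hq P hP σ hσ => steinberg_cls δ hl hlift hq hP hσ,
        fun q hq _ P hP σ hσ => ?_, t1, t2, fun i => i.elim, fun i => i.elim⟩
      · by_cases hQm : q ∈ Lv.Q
        · exact hQ q hQm P hP σ hσ
        · exact unramified_cls δ hlift hq h2 hT hQm hP hσ
      · by_cases hQm : q ∈ Lv.Q
        · show (cls δ σ).trace = 0
          rw [hQ q hQm P hP σ hσ, Matrix.trace_zero]
        · exact trace_cls δ hl hlift hq hQm hP hσ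
    · refine eq_bot_iff.mpr fun b hb => ?_
      obtain ⟨⟨δ, -, rfl⟩, X, hX⟩ := Submodule.mem_inf.mp hb
      rw [Submodule.mem_bot, hcob δ X hX.symm, map_zero]
  have hsub : finrank k ((LinearMap.ker ev).map cls) = finrank k (LinearMap.ker ev) :=
    ((LinearMap.ker ev).equivMapOfInjective cls hinj).finrank_eq.symm
  have hrange : finrank k (LinearMap.range ev) ≤ 4 * Fintype.card D.ι := by
    refine (Submodule.finrank_le _).trans ?_
    rw [Module.finrank_pi_fintype]
    simp [Module.finrank_matrix, mul_comm]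
  have := LinearMap.finrank_range_add_finrank_ker ev
  show finrank k (tangentDer h) ≤ _
  omega

end Fermat.Agent.TwoAdic.Deform
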