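import Fermat.Agent.TwoAdic.Deform.Tame
import Fermat.Agent.TwoAdic.Deform.BaseBound

/-!
# Inertia at the auxiliary primes is topologically generated by `τ` modulo squares
-/

set_option autoImplicit false

noncomputable section

namespace Fermat.Agent.TwoAdic.Deform

open IsLocalRing Fermat.Agent.Deform Fermat.Agent.Arith

variable {O : Type} [CommRing O] [IsLocalRing O] {S : Setting O} {Lv : Level S}

theorem auxInertia (D : Aux S Lv) : AuxInertia D :=
  fun _ hb hfin i h0 h1 _ hσ => D.locCls_inertia_eq_zero i hb hfin ⟨h0, h1⟩ hσ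

theorem auxInertiaFull (D : Aux S Lv) : AuxInertiaFull D :=
  fun b hb hfin i h0 _ hσ => Matrix.ext fun r c =>
    D.apply_inertia_eq_zero i hb hfin (Matrix.entryLinearMap _ (ResidueField O) r c)
      (by rw [Matrix.entryLinearMap_apply, h0, Matrix.zero_apply]) hσ

end Fermat.Agent.TwoAdic.Deform
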