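import Fermat.Agent.TwoAdic.Deform.Setting
import Fermat.Agent.CFT.Tangent.Dictionary

/-!
# The Selmer space of the deformation problem

The interface with the Selmer calculus: cocycles with the local conditions cut out by the
deformation conditions, the functional given by `α₂ / √χ(2)`, and the bound to be proved.
-/

set_option autoImplicit false

noncomputable section

namespace Fermat.Agent.TwoAdic.Deform

open IsLocalRing Fermat.Agent.Deform Fermat.Agent.Arith Fermat.Agent.CFT.Tangent

variable {O : Type} [CommRing O] [IsLocalRing O] (S : Setting O)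

/-- A cochain with values in the adjoint representation. -/
abbrev Cochain (O : Type) [CommRing O] [IsLocalRing O] : Type := Gal → M2 (ResidueField O)

/-- The correction making a class upper triangular at `2`. -/
def twoShift (b : Cochain O) : Cochain O :=
  b + cobdLin S.W.rb (Matrix.single 1 0 (b S.σ2 1 1))

variable {S} {Lv : Level S}

/-- A cochain in the basis at an auxiliary prime. -/
def Aux.locCls (D : Aux S Lv) (i : D.ι) (b : Cochain O) (σ : Gal) : M2 (ResidueField O) :=
  (↑(D.basis i (ResidueField O))⁻¹ : M2 (ResidueField O)) * b σ *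
    (D.basis i (ResidueField O) : M2 (ResidueField O))

/-- The Selmer conditions. -/
structure IsSelmer (D : Aux S Lv) (b : Cochain O) : Prop where
  cocycle : ∀ g h, b (g * h) = S.W.rb g * b h * S.W.rb g⁻¹ + b g
  finiteLevel : ∃ L : IntermediateField ℚ QBar, FiniteDimensional ℚ L ∧
    ∀ σ : Gal, (∀ x ∈ L, σ x = x) → b σ = 0
  unramified : ∀ q : ℕ, q.Prime → q ≠ 2 → q ∉ S.T → q ∉ Lv.Q →
    ∀ P : ValuationSubring QBar, P.LiesOverPrime q → ∀ σ ∈ P.inertiaSubgroupIn ℚ, b σ = 0
  steinberg : ∀ q ∈ S.T, ∀ P : ValuationSubring QBar, P.LiesOverPrime q →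
    ∀ σ ∈ P.inertiaSubgroupIn ℚ, (b σ).trace = 0 ∧ (b σ * S.W.rb σ).trace = 0
  trace : ∀ q : ℕ, q.Prime → q ∉ Lv.Q →
    ∀ P : ValuationSubring QBar, P.LiesOverPrime q → ∀ σ ∈ P.inertiaSubgroupIn ℚ, (b σ).trace = 0
  two_inertia : ∀ σ ∈ S.P2.inertiaSubgroupIn ℚ,
    twoShift S b σ 1 0 = 0 ∧ twoShift S b σ 1 1 = 0
  two_decomp : ∀ σ ∈ S.P2.decompositionSubgroup ℚ, twoShift S b σ 1 0 = 0
  aux_inertia : ∀ i, ∀ σ ∈ (D.P i).inertiaSubgroupIn ℚ,
    D.locCls i b σ 1 0 = 0 ∧ D.locCls i b σ 1 1 = 0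
  aux_frobenius : ∀ i, D.isU i = true → D.locCls i b (D.φ i) 1 0 = 0

/-- The derivative of `α₂ / √χ(2)`. -/
def alphaFun (Lv : Level S) (b : Cochain O) : ResidueField O :=
  twoShift S b S.φ2 1 1 + (b Lv.root2).trace

/-- At most `n` independent Selmer classes. -/
def SelmerBound (D : Aux S Lv) (n : ℕ) : Prop :=
  ∀ V : Submodule (ResidueField O) (Cochain O), Module.Finite (ResidueField O) V →
    (∀ b ∈ V, IsSelmer D b) → V ⊓ LinearMap.range (cobdLin S.W.rb) = ⊥ →
      Module.finrank (ResidueField O) V ≤ n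

/-- At most `n` independent Selmer classes killed by `alphaFun`. -/
def SignedSelmerBound (D : Aux S Lv) (n : ℕ) : Prop :=
  ∀ V : Submodule (ResidueField O) (Cochain O), Module.Finite (ResidueField O) V →
    (∀ b ∈ V, IsSelmer D b ∧ alphaFun Lv b = 0) → V ⊓ LinearMap.range (cobdLin S.W.rb) = ⊥ →
      Module.finrank (ResidueField O) V ≤ n

end Fermat.Agent.TwoAdic.Deform
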