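import Fermat.Agent.TwoAdic.Deform.CurveTwo
import Fermat.Agent.EC.Rep.Local.Unipotent
import Fermat.Agent.EC.Rep.Tate.DetCyclotomic
import Fermat.Agent.TwoAdic.CFT.Quad
import Fermat.Agent.TwoAdic.Selmer.Defs
import Fermat.Agent.CFT.Local.Global

/-!
# The frame of a curve satisfying `IsTwoAdicCurve`

`curveRep h` are the matrices of the 2-adic Tate module in a basis adapted to `padicPlace 2`,
`curveRho h` their reduction modulo two and `curveFrame h` the associated `Selmer.Frame`.
-/

set_option autoImplicit false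
set_option linter.style.haveILetI false

open scoped WeierstrassCurve.Affine Pointwise
open WeierstrassCurve

noncomputable section

namespace Fermat.Agent.TwoAdic.Deform

open Fermat.Agent.Arith Fermat.Agent.Deform Fermat.Agent.EC.Rep Fermat.Agent.TwoAdic.Curve

local instance factTwoCurveFrame : Fact (Nat.Prime 2) := ⟨Nat.prime_two⟩

variable {W : WeierstrassCurve ℤ}

/-- The odd bad primes. -/
def badOdd (W : WeierstrassCurve ℤ) : Finset ℕ := W.Δ.natAbs.primeFactors.erase 2

theorem mem_badOdd (hΔ : W.Δ ≠ 0) {q : ℕ} :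
    q ∈ badOdd W ↔ q ≠ 2 ∧ q.Prime ∧ (q : ℤ) ∣ W.Δ := by
  simp [badOdd, Nat.mem_primeFactors, hΔ, Int.natCast_dvd]

theorem good_of_notMem_badOdd (hΔ : W.Δ ≠ 0) {q : ℕ} (hq : q.Prime) (h2 : q ≠ 2)
    (hT : q ∉ badOdd W) : W.IsGoodPrimeFor q := fun hd => hT ((mem_badOdd hΔ).mpr ⟨h2, hq, hd⟩)

variable (h : IsTwoAdicCurve W)

/-- A basis of the Tate module adapted to `padicPlace 2`. -/
def twoBasis : Module.Basis (Fin 2) ℤ_[2] (tateRep W 2 h.delta_ne_zero).V :=
  (exists_twoBasis h (CFT.Local.padicPlace_liesOverPrime 2)).choose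

/-- The matrices of the Tate module. -/
def curveRep : Gal →* M2 ℤ_[2] := matOf (tateRep W 2 h.delta_ne_zero) (twoBasis h)

/-- Their reduction modulo two. -/
def curveRho : Gal →* M2 (ZMod 2) := rep2 h.delta_ne_zero (twoBasis h)

theorem curveRho_apply (σ : Gal) (i j : Fin 2) :
    curveRho h σ i j = PadicInt.toZMod (curveRep h σ i j) := rfl

theorem curveRep_lower {σ : Gal} (hσ : σ ∈ (padicPlace 2).decompositionSubgroup ℚ) :
    curveRep h σ 1 0 = 0 :=
  (exists_twoBasis h (CFT.Local.padicPlace_liesOverPrime 2)).choose_spec.1 σ hσ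

theorem curveRep_quot {σ : Gal} (hσ : σ ∈ (padicPlace 2).inertiaSubgroupIn ℚ) :
    curveRep h σ 1 1 = 1 :=
  (exists_twoBasis h (CFT.Local.padicPlace_liesOverPrime 2)).choose_spec.2 σ hσ

theorem curveRep_cont : IsCont (curveRep h) := isCont_matOf _ _

theorem curveRho_eq_one_iff (σ : Gal) : curveRho h σ = 1 ↔ perm h.delta_ne_zero σ = 1 :=
  rep2_eq_one_iff _ _ σ

theorem isUnit_det_curveRho (σ : Gal) : (curveRho h σ).det ≠ 0 :=
  ((Matrix.isUnit_iff_isUnit_det _).mp (IsUnit.map (curveRho h) (Group.isUnit σ))).ne_zero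

theorem exists_curveRho_eq {M : M2 (ZMod 2)} (hM : M.det ≠ 0) : ∃ σ, curveRho h σ = M :=
  rep2_surjective h _ ((Matrix.isUnit_iff_isUnit_det _).mpr (isUnit_iff_ne_zero.mpr hM))

theorem curveRho_decomp {σ : Gal} (hσ : σ ∈ (padicPlace 2).decompositionSubgroup ℚ) :
    curveRho h σ = 1 ∨ curveRho h σ = Selmer.refM := by
  have h10 : curveRho h σ 1 0 = 0 := by rw [curveRho_apply, curveRep_lower h hσ, map_zero]
  exact (show ∀ M : M2 (ZMod 2), M 1 0 = 0 ∧ M.det ≠ 0 → M = 1 ∨ M = Selmer.refM by decide) _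
    ⟨h10, isUnit_det_curveRho h σ⟩

theorem curveRep_unramified {q : ℕ} (hq : q.Prime) (h2 : q ≠ 2) (hT : q ∉ badOdd W)
    {P : ValuationSubring QBar} (hP : P.LiesOverPrime q) {σ : Gal}
    (hσ : σ ∈ P.inertiaSubgroupIn ℚ) : curveRep h σ = 1 := by
  show LinearMap.toMatrixAlgEquiv (twoBasis h) ((tateRep W 2 h.delta_ne_zero).ρ σ) = 1
  rw [isUnramifiedAt_tateRep h.delta_ne_zero hq (good_of_notMem_badOdd h.delta_ne_zero hq h2 hT)
    h2 P hP σ hσ, map_one]

theorem curveRep_steinberg {q : ℕ} (hq : q ∈ badOdd W)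
    {P : ValuationSubring QBar} (hP : P.LiesOverPrime q) {σ : Gal}
    (hσ : σ ∈ P.inertiaSubgroupIn ℚ) :
    (curveRep h σ).trace = 2 ∧ (curveRep h σ).det = 1 := by
  obtain ⟨h2, hqp, hqΔ⟩ := (mem_badOdd h.delta_ne_zero).mp hq
  have h1 := isUnipotentOnInertiaAt_tateRep h.delta_ne_zero hqp h2
    (fun hh => h.semistable q hqp hqΔ hh.1) P hP σ hσ
  rw [← LinearMap.charpoly_toMatrix _ (twoBasis h), Matrix.charpoly_fin_two,
    show (Polynomial.X - 1 : Polynomial ℤ_[2]) ^ 2 = Polynomial.X ^ 2 -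
      Polynomial.C 2 * Polynomial.X + Polynomial.C 1 by rw [map_ofNat, map_one]; ring] at h1
  have e0 := congrArg (fun p => Polynomial.coeff p 0) h1
  have e1 := congrArg (fun p => Polynomial.coeff p 1) h1
  simp [Polynomial.coeff_X_pow, Polynomial.coeff_one, -LinearMap.det_toMatrix] at e0 e1
  exact ⟨e1, e0⟩

theorem curveRep_det {σ : Gal} {n a : ℕ} (ha : ∀ μ : QBar, μ ^ 2 ^ n = 1 → σ μ = μ ^ a) :
    (curveRep h σ).det - (a : ℤ_[2]) ∈ Ideal.span {((2 ^ n : ℕ) : ℤ_[2])} := by
  rw [show (curveRep h σ).det = LinearMap.det ((tateRep W 2 h.delta_ne_zero).ρ σ) from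
    LinearMap.det_toMatrix _ _]
  exact (detIsCyclotomic_tateRep h.delta_ne_zero).2 n σ a ha

/-- The trace of Frobenius. -/
theorem curveRep_trace {ℓ : ℕ} (hℓ : ℓ.Prime) (hgood : W.IsGoodPrimeFor ℓ) (h2 : ℓ ≠ 2)
    {P : ValuationSubring QBar} (hP : P.LiesOverPrime ℓ) {σ : Gal}
    (hσ : P.IsFrobeniusAt σ ℓ) : (curveRep h σ).trace = (W.apOfModel ℓ : ℤ_[2]) := by
  rw [← (tateRep_trace_det_frobenius h.delta_ne_zero hℓ hgood h2 hP hσ).1]
  exact (LinearMap.trace_eq_matrix_trace ℤ_[2] (twoBasis h) _).symm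

/-- The trace of Frobenius modulo two. -/
theorem trace_curveRho_frobenius {ℓ : ℕ} (hℓ : ℓ.Prime) (hgood : W.IsGoodPrimeFor ℓ) (h2 : ℓ ≠ 2)
    {P : ValuationSubring QBar} (hP : P.LiesOverPrime ℓ) {σ : Gal}
    (hσ : P.IsFrobeniusAt σ ℓ) : (curveRho h σ).trace = (W.apOfModel ℓ : ZMod 2) := by
  rw [Matrix.trace_fin_two, curveRho_apply, curveRho_apply, ← map_add, ← Matrix.trace_fin_two,
    curveRep_trace h hℓ hgood h2 hP hσ, map_intCast]

/-! ### The points of order two in the adapted basis -/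

/-- The point of order two of a vector modulo two. -/
def pnt (u : Fin 2 → ZMod 2) : PtQ W :=
  tateRed h.delta_ne_zero 1 ((u 0).val • twoBasis h 0 + (u 1).val • twoBasis h 1)

theorem tateRed_eq_pnt (v : (tateRep W 2 h.delta_ne_zero).V) :
    tateRed h.delta_ne_zero 1 v = pnt h fun l => PadicInt.toZMod ((twoBasis h).repr v l) := by
  have key : ∀ l, ∃ c : ℤ_[2], (twoBasis h).repr v l =
      ((PadicInt.toZMod ((twoBasis h).repr v l)).val : ℤ_[2]) + 2 * c := by
    intro l
    have h0 : (twoBasis h).repr v l - ((PadicInt.toZMod ((twoBasis h).repr v l)).val : ℤ_[2]) ∈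
        RingHom.ker (PadicInt.toZMod (p := 2)) := by
      rw [RingHom.mem_ker, map_sub, map_natCast, ZMod.natCast_zmod_val, sub_self]
    rw [PadicInt.ker_toZMod, PadicInt.maximalIdeal_eq_span_p, Ideal.mem_span_singleton,
      Nat.cast_ofNat] at h0
    obtain ⟨c, hc⟩ := h0
    exact ⟨c, by linear_combination hc⟩
  choose c hc using key
  have e : v = ((PadicInt.toZMod ((twoBasis h).repr v 0)).val • twoBasis h 0 +
      (PadicInt.toZMod ((twoBasis h).repr v 1)).val • twoBasis h 1) +
      (2 : ℤ_[2]) • (c 0 • twoBasis h 0 + c 1 • twoBasis h 1) := by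
    conv_lhs => rw [← (twoBasis h).sum_repr v, Fin.sum_univ_two, hc 0, hc 1]
    simp only [add_smul, smul_add, mul_smul, Nat.cast_smul_eq_nsmul]
    abel
  conv_lhs => rw [e]
  rw [map_add, tateRed_smul h.delta_ne_zero (a := 2) (by rw [Int.cast_ofNat, sub_self]; exact zero_mem _)]
  have := pow_smul_tateRed h.delta_ne_zero 1 (c 0 • twoBasis h 0 + c 1 • twoBasis h 1)
  rw [pow_one] at this
  exact (congrArg₂ (· + ·) rfl this).trans (add_zero _)

theorem smul_pnt (σ : Gal) (u : Fin 2 → ZMod 2) :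
    σ • pnt h u = pnt h ((curveRho h σ).mulVec u) := by
  set v := (u 0).val • twoBasis h 0 + (u 1).val • twoBasis h 1 with hv
  have hu : ∀ l, PadicInt.toZMod ((twoBasis h).repr v l) = u l := by
    intro l
    rw [hv, map_add, map_nsmul, map_nsmul]
    simp only [Module.Basis.repr_self, Finsupp.add_apply, Finsupp.smul_apply, map_add, map_nsmul]
    fin_cases l <;>
      simp [Finsupp.single_eq_same, Finsupp.single_apply, ZMod.natCast_zmod_val]
  show σ • tateRed h.delta_ne_zero 1 v = _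
  rw [← red_tateRep, tateRed_eq_pnt]
  refine congrArg (pnt h) (funext fun l => ?_)
  rw [← LinearMap.toMatrix_mulVec_repr (twoBasis h) (twoBasis h) _ v]
  simp only [Matrix.mulVec, dotProduct, map_sum, map_mul, hu]
  rfl

theorem two_zsmul_pnt (u : Fin 2 → ZMod 2) : (2 : ℤ) • pnt h u = 0 := by
  have := pow_smul_tateRed h.delta_ne_zero 1
    ((u 0).val • twoBasis h 0 + (u 1).val • twoBasis h 1)
  rwa [pow_one] at this

theorem pnt_injective : Function.Injective (pnt h) := by
  intro u u' e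
  have h0 : tateRed h.delta_ne_zero 1 (((u 0).val • twoBasis h 0 + (u 1).val • twoBasis h 1) -
      ((u' 0).val • twoBasis h 0 + (u' 1).val • twoBasis h 1)) = 0 := by
    rw [map_sub, sub_eq_zero]; exact e
  obtain ⟨w, hw⟩ := exists_two_smul_of_tateRed_eq_zero h.delta_ne_zero h0
  funext l
  have hl := congrArg (fun x => PadicInt.toZMod ((twoBasis h).repr x l)) hw
  simp only [map_sub, map_add, map_nsmul, map_smul, Module.Basis.repr_self, Finsupp.sub_apply,
    Finsupp.add_apply, Finsupp.smul_apply, smul_eq_mul, toZMod_eq_zero_of_two_mul] at hl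
  fin_cases l <;>
    simpa [Finsupp.single_apply, sub_eq_zero, ZMod.natCast_zmod_val] using hl

theorem exists_ptIndex (i : Fin 3) :
    ∃ j, pnt h (Selmer.pt i) = Subtype.val (twoPoint h.delta_ne_zero j) := by
  rcases eq_zero_or_twoPoint h.delta_ne_zero
    ⟨pnt h (Selmer.pt i), (Submodule.mem_torsionBy_iff _ _).mpr (two_zsmul_pnt h _)⟩ with e | ⟨j, e⟩
  · have e' : pnt h (Selmer.pt i) = pnt h 0 := by
      rw [show pnt h 0 = 0 by simp [pnt]]; exact congrArg Subtype.val e
    exact absurd (pnt_injective h e')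
      ((show ∀ i : Fin 3, Selmer.pt i ≠ 0 by decide) i)
  · exact ⟨j, congrArg Subtype.val e⟩

/-- The root belonging to a nonzero vector. -/
def ptIndex (i : Fin 3) : Fin 3 := (exists_ptIndex h i).choose

theorem pnt_pt (i : Fin 3) :
    pnt h (Selmer.pt i) = Subtype.val (twoPoint h.delta_ne_zero (ptIndex h i)) :=
  (exists_ptIndex h i).choose_spec

theorem ptIndex_bijective : Function.Bijective (ptIndex h) := by
  refine Finite.injective_iff_bijective.mp fun i j e => ?_
  exact (show ∀ i j : Fin 3, Selmer.pt i = Selmer.pt j → i = j by decide) i j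
    (pnt_injective h (by rw [pnt_pt, pnt_pt, e]))

theorem perm_ptIndex (σ : Gal) (i : Fin 3) :
    perm h.delta_ne_zero σ (ptIndex h i) = ptIndex h (Selmer.perm (curveRho h σ) i) := by
  refine twoPoint_injective h.delta_ne_zero (Subtype.ext ?_)
  rw [← smul_twoPoint, ← pnt_pt,
    ← (show ∀ (M : M2 (ZMod 2)) (i : Fin 3), M.det ≠ 0 →
      M.mulVec (Selmer.pt i) = Selmer.pt (Selmer.perm M i) by decide)
        _ i (isUnit_det_curveRho h σ), ← smul_pnt, pnt_pt]
  rfl

theorem sign_perm_iff (σ : Gal) :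
    σ (sqrtDisc W) = sqrtDisc W ↔ (curveRho h σ = 1 ∨ (curveRho h σ).trace = 1) := by
  rw [← sign_perm_eq_one_iff h.delta_ne_zero,
    (show ∀ π : Equiv.Perm (Fin 3), Equiv.Perm.sign π = 1 ↔ (π = 1 ∨ ∀ i, π i ≠ i) by decide) _,
    ← curveRho_eq_one_iff h]
  refine or_congr_right ?_
  rw [← (show ∀ M : M2 (ZMod 2), M.det ≠ 0 →
    ((∀ i, Selmer.perm M i ≠ i) ↔ M.trace = 1) by decide) _ (isUnit_det_curveRho h σ)]
  constructor
  · intro hall i e
    exact hall (ptIndex h i) (by rw [perm_ptIndex, e])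
  · intro hall j e
    obtain ⟨i, rfl⟩ := (ptIndex_bijective h).2 j
    exact hall i ((ptIndex_bijective h).1 (by rw [← perm_ptIndex, e]))

include h in
theorem exists_rootNum : ∃ s : ℕ, s ≠ 0 ∧
    (W.Δ : ℤ) = -(2 * ((∏ q ∈ badOdd W, q : ℕ) : ℤ)) * (s : ℤ) ^ 2 := by
  obtain ⟨m, s, hodd, hsq, hs, heq, hiff⟩ :=
    CFT.exists_eq_neg_two_mul_mul_sq h.delta_neg h.two_dvd h.odd_val
  refine ⟨s, hs, ?_⟩
  have hT : badOdd W = m.primeFactors := by
    ext q
    rw [mem_badOdd h.delta_ne_zero, Nat.mem_primeFactors]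
    constructor
    · rintro ⟨h2, hq, hd⟩
      exact ⟨hq, (hiff q hq h2).mpr hd, hsq.ne_zero⟩
    · rintro ⟨hq, hd, -⟩
      have h2 : q ≠ 2 := fun e => by
        subst e
        exact (Nat.not_even_iff_odd.mpr hodd) (even_iff_two_dvd.mpr hd)
      exact ⟨h2, hq, (hiff q hq h2).mp hd⟩
  rw [hT, Nat.prod_primeFactors_of_squarefree hsq]
  exact heq

/-- The frame of the curve. -/
def curveFrame : Selmer.Frame where
  ρ := curveRho h
  ρ_finiteLevel := by
    obtain ⟨L, hL, h1⟩ := curveRep_cont h 1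
    refine ⟨L, hL, fun σ hσ => Matrix.ext fun i j => ?_⟩
    have h2 := h1 σ hσ i j
    rw [pow_one, ← PadicInt.ker_toZMod, RingHom.mem_ker, map_sub, sub_eq_zero] at h2
    rw [curveRho_apply, h2, Matrix.one_apply, Matrix.one_apply]
    split <;> simp
  rot_mem := exists_curveRho_eq h (by decide)
  T := badOdd W
  prime_of_mem q hq := ((mem_badOdd h.delta_ne_zero).mp hq).2.1
  two_notMem hq := ((mem_badOdd h.delta_ne_zero).mp hq).1 rfl
  exists_three_five := by
    obtain ⟨q, hq, hd, h8⟩ := h.exists_three_five_mod_eight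
    exact ⟨q, (mem_badOdd h.delta_ne_zero).mpr ⟨fun e => by omega, hq, hd⟩, h8⟩
  unramified q hq h2 hT P hP σ hσ := Matrix.ext fun i j => by
    rw [curveRho_apply, curveRep_unramified h hq h2 hT hP hσ, Matrix.one_apply, Matrix.one_apply]
    split <;> simp
  trace_inertia q hq P hP σ hσ := by
    have h1 := congrArg PadicInt.toZMod (curveRep_steinberg h hq hP hσ).1
    rw [Matrix.trace_fin_two, map_add, map_ofNat] at h1
    rw [Matrix.trace_fin_two, curveRho_apply, curveRho_apply, h1]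
    rfl
  root := sqrtDisc W / ((exists_rootNum h).choose : QBar)
  root_sq := by
    obtain ⟨hs, heq⟩ := (exists_rootNum h).choose_spec
    generalize (exists_rootNum h).choose = s at hs heq ⊢
    rw [div_pow, sqrtDisc_sq, heq]
    push_cast
    rw [mul_div_assoc, div_self (pow_ne_zero 2 (Nat.cast_ne_zero.mpr hs)), mul_one]
    ring
  root_iff σ := by
    rw [← sign_perm_iff h σ, map_div₀, map_natCast]
    exact div_left_inj' (Nat.cast_ne_zero.mpr (exists_rootNum h).choose_spec.1)
  P2 := padicPlace 2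
  P2_over := CFT.Local.padicPlace_liesOverPrime 2
  σ2 := (h.exists_inertia_transposition (CFT.Local.padicPlace_liesOverPrime 2) Nat.prime_two
    h.two_dvd).choose
  σ2_mem := (h.exists_inertia_transposition (CFT.Local.padicPlace_liesOverPrime 2) Nat.prime_two
    h.two_dvd).choose_spec.1
  ρ_σ2 := by
    obtain ⟨hI, hneg, -⟩ := (h.exists_inertia_transposition
      (CFT.Local.padicPlace_liesOverPrime 2) Nat.prime_two h.two_dvd).choose_spec
    refine (curveRho_decomp h (MulAction.mem_stabilizer_iff.mpr (mem_inertia_iff_forall_mem.mp hI).1)).resolve_left fun e => ?_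
    have := (sign_perm_iff h _).mpr (Or.inl e)
    rw [hneg] at this
    exact sqrtDisc_ne_zero h.delta_ne_zero (neg_eq_self.mp this)
  decomp2 σ hσ := curveRho_decomp h hσ
  θ i := root W (ptIndex h i)
  θ_integral i := isIntegral_root W _
  θ_perm σ i := by rw [← root_perm h.delta_ne_zero, perm_ptIndex]
  θ_injective := (root_injective h.delta_ne_zero).comp (ptIndex_bijective h).1
  θ_distinct q hq h2 hT P hP i j hij hn := by
    have hne : ptIndex h i ≠ ptIndex h j := fun e => hij ((ptIndex_bijective h).1 e)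
    generalize ptIndex h i = a, ptIndex h j = b at hne hn
    have key : rootDiff W ∈ P.nonunits := by
      have hn' := nonunits_neg hn
      rw [neg_sub] at hn'
      have m01 : root W 0 - root W 1 ∈ P := sub_mem (root_mem 0) (root_mem 1)
      have m02 : root W 0 - root W 2 ∈ P := sub_mem (root_mem 0) (root_mem 2)
      have m12 : root W 1 - root W 2 ∈ P := sub_mem (root_mem 1) (root_mem 2)
      rw [rootDiff]
      fin_cases a <;> fin_cases b <;> first
        | exact absurd rfl hne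
        | exact nonunits_mul_right (nonunits_mul_right hn m02) m12
        | exact nonunits_mul_right (nonunits_mul_right hn' m02) m12
        | exact nonunits_mul_right (nonunits_mul_left m01 hn) m12
        | exact nonunits_mul_right (nonunits_mul_left m01 hn') m12
        | exact nonunits_mul_left (mul_mem m01 m02) hn
        | exact nonunits_mul_left (mul_mem m01 m02) hn'
    have hd : rootDiff W ^ 2 ∈ P.nonunits := by
      rw [sq]; exact nonunits_mul_right key (mem_of_mem_nonunits key)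
    rw [rootDiff_sq, show (256 : QBar) * (W.Δ : QBar) = ((256 * W.Δ : ℤ) : QBar) by push_cast; rfl,
      intCast_mem_nonunits_iff hP hq] at hd
    rcases (Nat.prime_iff_prime_int.mp hq).dvd_or_dvd hd with hh | hh
    · have := (Nat.prime_iff_prime_int.mp hq).dvd_of_dvd_pow
        (show (q : ℤ) ∣ 2 ^ 8 by norm_num; exact hh)
      exact h2 ((Nat.prime_dvd_prime_iff_eq hq Nat.prime_two).mp
        (Int.natCast_dvd_natCast.mp (by exact_mod_cast this)))
    · exact good_of_notMem_badOdd h.delta_ne_zero hq h2 hT hh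

end Fermat.Agent.TwoAdic.Deform
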