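import Fermat.Agent.EC.Rep.Local.StrictOrdinary
import Fermat.Agent.TwoAdic.Curve.Inertia
import Fermat.Agent.Deform.Matrix

/-!
# The 2-adic Tate module of a curve satisfying `IsTwoAdicCurve`, modulo two and at two

The reduction modulo two of the matrices of the Tate module has the kernel of the permutation
representation on the points of order two and all of `GL₂(F₂)` as image; at a place over two some
basis makes the matrices upper triangular with inertia fixing the quotient.
-/

set_option autoImplicit false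
set_option linter.style.haveILetI false

open scoped WeierstrassCurve.Affine Pointwise
open WeierstrassCurve

noncomputable section

namespace Fermat.Agent.TwoAdic.Deform

open Fermat.Agent.Arith Fermat.Agent.Deform Fermat.Agent.EC.Rep Fermat.Agent.EC.Reduction
  Fermat.Agent.TwoAdic.Curve

local instance factTwoCurveTwo : Fact (Nat.Prime 2) := ⟨Nat.prime_two⟩

variable {W : WeierstrassCurve ℤ} {A : ValuationSubring QBar}

/-- Some point of order two does not reduce to the origin. -/
theorem exists_two_not_inE1 (h : IsTwoAdicCurve W) (hA : A.LiesOverPrime 2) :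
    ∃ P : EC.AtP.PointQBar W, 2 • P = 0 ∧ ¬ InE1 A P := by
  obtain ⟨i, hi, -, -⟩ := h.exists_unit_root_two hA
  have htors : ∀ j, 2 • (Subtype.val (twoPoint h.delta_ne_zero j) : EC.AtP.PointQBar W) = 0 :=
    fun j => by
      rw [← natCast_zsmul]
      exact (Submodule.mem_torsionBy_iff _ _).mp (twoPoint h.delta_ne_zero j).2
  obtain ⟨j, k, hji, hki, hjk⟩ : ∃ j k : Fin 3, j ≠ i ∧ k ≠ i ∧ j ≠ k :=
    (show ∀ i : Fin 3, ∃ j k, j ≠ i ∧ k ≠ i ∧ j ≠ k by decide) i
  suffices root W j / 4 ∈ A ∨ root W k / 4 ∈ A by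
    rcases this with hm | hm
    · exact ⟨_, htors j, fun hn => hn hm⟩
    · exact ⟨_, htors k, fun hn => hn hm⟩
  have h3 : root W i * root W j * root W k = -16 * (W.b₆ : QBar) := by
    rw [← (root_sum W).2.2]
    fin_cases i <;> fin_cases j <;> fin_cases k <;>
      first | exact absurd rfl hji | exact absurd rfl hki | exact absurd rfl hjk |
        (simp only [Fin.zero_eta, Fin.mk_one, Fin.reduceFinMk] <;> ring)
  have hprod : (root W j / 4) * (root W k / 4) ∈ A := by
    have hi0 : root W i ≠ 0 := fun h0 => hi (by rw [h0]; exact A.nonunits.zero_mem)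
    have e : (root W j / 4) * (root W k / 4) = -(W.b₆ : QBar) * (root W i)⁻¹ := by
      field_simp
      linear_combination h3
    rw [e]
    refine mul_mem (neg_mem (intCast_mem A _)) ?_
    by_contra hn
    exact hi (by simpa using inv_mem_nonunits hn)
  by_contra hnot
  rw [not_or] at hnot
  obtain ⟨hj, hk⟩ := hnot
  have hj0 : root W j / 4 ≠ 0 := fun h0 => hj (h0 ▸ A.zero_mem)
  refine hk ?_
  rw [← mul_div_cancel_left₀ (root W k / 4) hj0, div_eq_mul_inv]
  exact mul_mem hprod (mem_of_mem_nonunits (inv_mem_nonunits hj))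

section Tate

variable (hΔ : W.Δ ≠ 0)

theorem exists_two_smul_of_tateRed_eq_zero {v : (tateRep W 2 hΔ).V}
    (hv : tateRed hΔ 1 v = 0) : ∃ w : (tateRep W 2 hΔ).V, v = (2 : ℤ_[2]) • w := by
  obtain ⟨h1, h2⟩ := (tateRed_eq_zero_iff hΔ 1 v).mp hv
  obtain ⟨c₁, hc₁⟩ := Ideal.mem_span_singleton'.mp h1
  obtain ⟨c₂, hc₂⟩ := Ideal.mem_span_singleton'.mp h2
  rw [pow_one, Nat.cast_ofNat, mul_comm] at hc₁ hc₂
  exact ⟨(show (tateRep W 2 hΔ).V from (c₁, c₂)), Prod.ext hc₁.symm hc₂.symm⟩

variable (b : Module.Basis (Fin 2) ℤ_[2] (tateRep W 2 hΔ).V)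

/-- The matrices of the Tate module modulo two. -/
def rep2 : Gal →* M2 (ZMod 2) := mapM PadicInt.toZMod (matOf (tateRep W 2 hΔ) b)

theorem toZMod_eq_zero_of_two_mul (c : ℤ_[2]) : PadicInt.toZMod (2 * c) = 0 := by
  rw [map_mul, map_ofNat, show (2 : ZMod 2) = 0 from rfl, zero_mul]

theorem rep2_eq_one_iff (σ : GQ) : rep2 hΔ b σ = 1 ↔ perm hΔ σ = 1 := by
  constructor
  · intro hσ
    refine Equiv.ext fun i => twoPoint_injective hΔ (Subtype.ext ?_)
    rw [← smul_twoPoint hΔ σ i]
    obtain ⟨v, hv⟩ := exists_tateRed_eq hΔ 1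
      (x := (Subtype.val (twoPoint hΔ i) : PtQ W)) (by
        rw [pow_one]; exact (Submodule.mem_torsionBy_iff _ _).mp (twoPoint hΔ i).2)
    show σ • (Subtype.val (twoPoint hΔ i) : PtQ W) = Subtype.val (twoPoint hΔ i)
    rw [← hv, ← red_tateRep hΔ σ 1 v, ← sub_eq_zero, ← map_sub]
    have key : ∀ j, ∃ w : (tateRep W 2 hΔ).V,
        (tateRep W 2 hΔ).ρ σ (b j) - b j = (2 : ℤ_[2]) • w := by
      intro j
      have h2 : ∀ l, ∃ c : ℤ_[2],
          b.repr ((tateRep W 2 hΔ).ρ σ (b j) - b j) l = 2 * c := by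
        intro l
        have h0 : PadicInt.toZMod (b.repr ((tateRep W 2 hΔ).ρ σ (b j) - b j) l) = 0 := by
          rw [map_sub, Finsupp.sub_apply, map_sub, ← matOf_apply, b.repr_self,
            show PadicInt.toZMod (matOf (tateRep W 2 hΔ) b σ l j) = rep2 hΔ b σ l j from rfl, hσ,
            Matrix.one_apply, Finsupp.single_apply]
          simp only [eq_comm (a := j)]
          split <;> simp
        rw [← RingHom.mem_ker, PadicInt.ker_toZMod, PadicInt.maximalIdeal_eq_span_p,
          Ideal.mem_span_singleton, Nat.cast_ofNat] at h0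
        exact h0
      choose c hc using h2
      refine ⟨c 0 • b 0 + c 1 • b 1, ?_⟩
      conv_lhs => rw [← b.sum_repr ((tateRep W 2 hΔ).ρ σ (b j) - b j), Fin.sum_univ_two, hc, hc]
      rw [smul_add, smul_smul, smul_smul]
    obtain ⟨w₀, h₀⟩ := key 0
    obtain ⟨w₁, h₁⟩ := key 1
    have e : (tateRep W 2 hΔ).ρ σ v - v =
        (2 : ℤ_[2]) • (b.repr v 0 • w₀ + b.repr v 1 • w₁) := by
      conv_lhs => rw [← b.sum_repr v, Fin.sum_univ_two]
      rw [map_add, map_smul, map_smul, smul_add, smul_comm (2 : ℤ_[2]),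
        smul_comm (2 : ℤ_[2]) (b.repr v 1), ← h₀, ← h₁, smul_sub, smul_sub]
      abel
    rw [e, tateRed_smul hΔ (a := 2) (by rw [Int.cast_ofNat, sub_self]; exact zero_mem _)]
    have := pow_smul_tateRed hΔ 1 (b.repr v 0 • w₀ + b.repr v 1 • w₁)
    rw [pow_one] at this
    exact this
  · intro hσ
    refine Matrix.ext fun l j => ?_
    have h0 : tateRed hΔ 1 ((tateRep W 2 hΔ).ρ σ (b j) - b j) = 0 := by
      rw [map_sub, red_tateRep, sub_eq_zero]
      have ht : (2 : ℤ) • tateRed hΔ 1 (b j) = 0 := by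
        have := pow_smul_tateRed hΔ 1 (b j); rwa [pow_one] at this
      rcases eq_zero_or_twoPoint hΔ
        ⟨tateRed hΔ 1 (b j), (Submodule.mem_torsionBy_iff _ _).mpr ht⟩ with h | ⟨i, h⟩
      · have h' : tateRed hΔ 1 (b j) = 0 := congrArg Subtype.val h
        rw [h']; exact map_zero (Affine.Point.map (σ : GQ).toAlgHom)
      · have h' : tateRed hΔ 1 (b j) = Subtype.val (twoPoint hΔ i) := congrArg Subtype.val h
        rw [h']
        exact congrArg Subtype.val ((smul_twoPoint hΔ σ i).trans (by rw [hσ]; rfl))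
    obtain ⟨w, hw⟩ := exists_two_smul_of_tateRed_eq_zero hΔ h0
    have h1 : matOf (tateRep W 2 hΔ) b σ l j = b.repr (b j) l + 2 * b.repr w l := by
      rw [matOf_apply, ← smul_eq_mul, ← Finsupp.smul_apply, ← map_smul, ← hw, ← Finsupp.add_apply,
        ← map_add, add_sub_cancel]
    show PadicInt.toZMod (matOf (tateRep W 2 hΔ) b σ l j) = _
    rw [h1, map_add, toZMod_eq_zero_of_two_mul, add_zero, b.repr_self, Finsupp.single_apply,
      Matrix.one_apply]
    simp only [eq_comm (a := j)]
    split <;> simp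

theorem card_units_mat_two : Fintype.card (M2 (ZMod 2))ˣ = 6 := by decide

/-- Every invertible matrix over `F₂` is a value. -/
theorem rep2_surjective (h : IsTwoAdicCurve W)
    (b : Module.Basis (Fin 2) ℤ_[2] (tateRep W 2 h.delta_ne_zero).V)
    {M : M2 (ZMod 2)} (hM : IsUnit M) : ∃ σ, rep2 h.delta_ne_zero b σ = M := by
  set u := (rep2 h.delta_ne_zero b).toHomUnits
  let Φ : Equiv.Perm (Fin 3) → (M2 (ZMod 2))ˣ := fun π => u (h.perm_surjective π).choose
  have hΦ : Function.Injective Φ := fun π π' e => by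
    have hs := (h.perm_surjective π).choose_spec
    have hs' := (h.perm_surjective π').choose_spec
    rw [← hs, ← hs', ← inv_mul_eq_one, ← map_inv, ← map_mul, ← rep2_eq_one_iff _ b]
    have e1 : u ((h.perm_surjective π).choose⁻¹ * (h.perm_surjective π').choose) = 1 := by
      rw [map_mul, map_inv, inv_mul_eq_one]; exact e
    exact congrArg Units.val e1
  have hbij : Function.Bijective Φ :=
    (Fintype.bijective_iff_injective_and_card Φ).mpr ⟨hΦ, by
      rw [card_units_mat_two, Fintype.card_perm, Fintype.card_fin]; rfl⟩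
  obtain ⟨π, hπ⟩ := hbij.2 hM.unit
  exact ⟨_, congrArg Units.val hπ⟩

/-- A basis adapted to a place over two. -/
theorem exists_twoBasis (h : IsTwoAdicCurve W) (hA : A.LiesOverPrime 2) :
    ∃ b : Module.Basis (Fin 2) ℤ_[2] (tateRep W 2 h.delta_ne_zero).V,
      (∀ σ ∈ A.decompositionSubgroup ℚ, matOf (tateRep W 2 h.delta_ne_zero) b σ 1 0 = 0) ∧
      ∀ σ ∈ A.inertiaSubgroupIn ℚ, matOf (tateRep W 2 h.delta_ne_zero) b σ 1 1 = 1 := by
  obtain ⟨b, hI, hD⟩ := exists_line_tateRep h.delta_ne_zero hA (exists_two_not_inE1 h hA) h.two_dvd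
    (h.semistable 2 Nat.prime_two h.two_dvd)
  refine ⟨b, fun σ hσ => ?_, fun σ hσ => ?_⟩
  · obtain ⟨c, hc⟩ := Submodule.mem_span_singleton.mp (hD σ hσ).1
    rw [matOf_apply, ← hc, map_smul, b.repr_self, Finsupp.smul_apply,
      Finsupp.single_eq_of_ne (by decide), smul_zero]
  · obtain ⟨c, hc⟩ := Submodule.mem_span_singleton.mp (hI σ hσ (b 1))
    rw [matOf_apply, eq_add_of_sub_eq hc.symm, map_add, map_smul, b.repr_self, b.repr_self,
      Finsupp.add_apply, Finsupp.smul_apply, Finsupp.single_eq_of_ne (by decide),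
      Finsupp.single_eq_same, smul_zero, zero_add]

end Tate

end Fermat.Agent.TwoAdic.Deform
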