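import Fermat.Agent.TwoAdic.Deform.Classes

/-!
# Derivations applied to matrices

For a tangent derivation `δ` of a coefficient algebra with normalised lift `ru`, the entrywise
derivative of `ru σ` is `tangentCls δ σ * rb σ`.
-/

set_option autoImplicit false

noncomputable section

namespace Fermat.Agent.TwoAdic.Deform

open IsLocalRing Fermat.Agent.Deform Fermat.Agent.CFT.Tangent

variable {O : Type} [CommRing O] [IsLocalRing O] {R : Type} [CommRing R] [IsLocalRing R]
  [Algebra O R] {h : IsResAlg O R} (δ : tangentDer h)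

/-- The entrywise derivative of a matrix. -/
def derM (M : M2 R) : M2 (ResidueField O) := Matrix.of fun i j => δ.1 (M i j)

/-- The entrywise residue of a matrix. -/
def augM (h : IsResAlg O R) : M2 R →+* M2 (ResidueField O) :=
  (augment h : R →+* ResidueField O).mapMatrix

theorem derM_apply (M : M2 R) (i j : Fin 2) : derM δ M i j = δ.1 (M i j) := rfl

theorem augM_apply (M : M2 R) (i j : Fin 2) : augM h M i j = augment h (M i j) := rfl

theorem der_add (a b : R) : δ.1 (a + b) = δ.1 a + δ.1 b := δ.2.1 a b

theorem der_mul (a b : R) : δ.1 (a * b) = augment h a * δ.1 b + augment h b * δ.1 a :=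
  δ.2.2.1 a b

theorem der_algebraMap (o : O) : δ.1 (algebraMap O R o) = 0 := δ.2.2.2 o

theorem der_sub (a b : R) : δ.1 (a - b) = δ.1 a - δ.1 b :=
  eq_sub_of_add_eq (by rw [← der_add, sub_add_cancel])

theorem der_natCast (m : ℕ) : δ.1 (m : R) = 0 := by
  rw [← map_natCast (algebraMap O R), der_algebraMap]

theorem der_one : δ.1 1 = 0 := by simpa using der_natCast δ 1

theorem der_zero : δ.1 0 = 0 := by simpa using der_natCast δ 0

theorem derM_one : derM δ 1 = 0 := by
  ext i j
  by_cases hij : i = j
  · subst hij; simp [derM_apply, der_one]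
  · simp [derM_apply, Matrix.one_apply_ne hij, der_zero]

theorem derM_mul (M N : M2 R) :
    derM δ (M * N) = augM h M * derM δ N + derM δ M * augM h N := by
  ext i j
  simp only [derM_apply, Matrix.mul_apply, Matrix.add_apply, Fin.sum_univ_two, der_add, der_mul,
    augM_apply]
  ring

theorem derM_map_algebraMap (G : M2 O) : derM δ ((algebraMap O R).mapMatrix G) = 0 := by
  ext i j
  exact der_algebraMap δ (G i j)

theorem augM_map_algebraMap (G : M2 O) :
    augM h ((algebraMap O R).mapMatrix G) = (algebraMap O (ResidueField O)).mapMatrix G := by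
  ext i j
  exact (augment h).commutes (G i j)

variable {W : Rigid O} {ru : Gal →* M2 R}

theorem augM_lift (hl : Lifts W h ru) (σ : Gal) : augM h (ru σ) = W.rb σ := Matrix.ext (hl σ)

theorem derM_lift (σ : Gal) : derM δ (ru σ) = tangentCls W h ru δ σ * W.rb σ := by
  show _ = (Matrix.of fun i j => δ.1 (ru σ i j)) * W.rb σ⁻¹ * W.rb σ
  rw [mul_assoc, ← map_mul, inv_mul_cancel, map_one, mul_one]
  rfl

theorem tangentCls_eq_zero_of_derM {σ : Gal} (hσ : derM δ (ru σ) = 0) :
    tangentCls W h ru δ σ = 0 := by
  show derM δ (ru σ) * W.rb σ⁻¹ = 0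
  rw [hσ, zero_mul]

/-- A class which is a coboundary comes from a derivation killing the entries. -/
theorem der_entries_eq_zero [Finite (ResidueField O)] (hl : Lifts W h ru) (hn : IsNormal W ru)
    {X : M2 (ResidueField O)} (hX : tangentCls W h ru δ = cobdLin W.rb X) (σ : Gal) (i j : Fin 2) :
    δ.1 (ru σ i j) = 0 := by
  letI := dualAlgebra O
  have hD := isLevel_dual (𝒪 := O)
  have hloc : ∀ δ : tangentDer h,
      IsLocalHom (tangentHom h δ : R →+* DualNumber (ResidueField O)) := fun δ => ⟨fun a ha => by
    by_contra hna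
    rw [TrivSqZeroExt.isUnit_iff_isUnit_fst] at ha
    have h0 : augment h a = 0 := (augment_eq_zero_iff h a).mpr hna
    rw [show TrivSqZeroExt.fst ((tangentHom h δ : R →+* DualNumber (ResidueField O)) a) =
      augment h a from rfl, h0] at ha
    exact not_isUnit_zero ha⟩
  let Q : (M2 (DualNumber (ResidueField O)))ˣ :=
    ⟨1 + epsM X, 1 - epsM X, dualM_ext (by simp) (by simp), dualM_ext (by simp) (by simp)⟩
  have hconj : mapM (tangentHom h (δ + δ) : R →+* DualNumber (ResidueField O)) ru =
      conjM Q (mapM (tangentHom h δ : R →+* DualNumber (ResidueField O)) ru) := by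
    refine MonoidHom.ext fun σ => ?_
    rw [conjM_apply, mapM_tangentHom hl, mapM_tangentHom hl, map_add, Pi.add_apply, hX]
    show _ = (1 - epsM X) * _ * (1 + epsM X)
    refine dualM_ext (by simp) ?_
    simp only [cobdLin, LinearMap.coe_mk, AddHom.coe_mk, sndM_mul, sndM_add, sndM_sub, sndM_one,
      fstM_mul, fstM_add, fstM_sub, fstM_one, sndM_epsM, fstM_epsM, sndM_inlM, fstM_inlM,
      add_zero, sub_zero, zero_add, mul_zero, one_mul, mul_one, zero_sub]
    have e : W.rb σ⁻¹ * W.rb σ = 1 := by rw [← map_mul, inv_mul_cancel, map_one]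
    simp only [add_mul, sub_mul, neg_mul, mul_assoc, e, mul_one]
    abel
  have heq : mapM (tangentHom h (δ + δ) : R →+* DualNumber (ResidueField O)) ru =
      mapM (tangentHom h δ : R →+* DualNumber (ResidueField O)) ru :=
    normal_unique (hl.map hD.resAlg _ (hloc _)) (hl.map hD.resAlg _ (hloc _)) (hn.map _) (hn.map _)
      Q.isUnit fun σ => by rw [hconj, conjM_apply, mul_assoc, Units.mul_inv_cancel_left]
  have h1 := congrArg TrivSqZeroExt.snd (congr_fun (congr_fun (DFunLike.congr_fun heq σ) i) j)
  change δ.1 (ru σ i j) + δ.1 (ru σ i j) = δ.1 (ru σ i j) at h1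
  exact add_eq_left.mp h1

end Fermat.Agent.TwoAdic.Deform
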