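import Fermat.Agent.RT.Assembly.Entries
import Fermat.Agent.TwoAdic.Deform.Derivation

/-!
# Rings generated by the entries of finitely many lifts

Fibre products over the residue field of finite coefficient algebras carrying normalised lifts,
and the subalgebra generated by the entries: no universal deformation ring is needed.
-/

set_option autoImplicit false
set_option linter.style.haveILetI false

noncomputable section

namespace Fermat.Agent.TwoAdic.Deform

open IsLocalRing Fermat.Agent.Deform Fermat.Agent.CFT.Tangent Fermat.Agent.RT.Assembly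

variable {O : Type} [CommRing O] [IsDomain O] [IsDiscreteValuationRing O]

section FibreProduct

variable {A B : Type} [CommRing A] [IsLocalRing A] [Algebra O A] [CommRing B] [IsLocalRing B]
  [Algebra O B]

/-- The fibre product over the residue field. -/
def residueProd (hA : IsResAlg O A) (hB : IsResAlg O B) : Subalgebra O (A × B) where
  carrier := {x | augment hA x.1 = augment hB x.2}
  mul_mem' {x y} hx hy := by
    simp only [Set.mem_setOf_eq] at hx hy ⊢
    rw [Prod.fst_mul, Prod.snd_mul, map_mul, map_mul, hx, hy]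
  add_mem' {x y} hx hy := by
    simp only [Set.mem_setOf_eq] at hx hy ⊢
    rw [Prod.fst_add, Prod.snd_add, map_add, map_add, hx, hy]
  algebraMap_mem' o :=
    ((augment hA).commutes o).trans ((augment hB).commutes o).symm

variable (hA : IsResAlg O A) (hB : IsResAlg O B)

theorem mem_residueProd {x : A × B} :
    x ∈ residueProd hA hB ↔ augment hA x.1 = augment hB x.2 := Iff.rfl

/-- The two projections. -/
def residueFst : residueProd hA hB →ₐ[O] A :=
  (AlgHom.fst O A B).comp (residueProd hA hB).val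

/-- The two projections. -/
def residueSnd : residueProd hA hB →ₐ[O] B :=
  (AlgHom.snd O A B).comp (residueProd hA hB).val

theorem isUnit_residueProd_iff (x : residueProd hA hB) :
    IsUnit x ↔ IsUnit (residueFst hA hB x) := by
  refine ⟨fun h => h.map _, fun h => ?_⟩
  have h2 : IsUnit (x : A × B).2 := isUnit_of_augment_ne_zero hB (by
    rw [← x.2]; exact (h.map (augment hA)).ne_zero)
  obtain ⟨u, hu⟩ := h
  obtain ⟨v, hv⟩ := h2
  have hu' : (u : A) = (x : A × B).1 := hu
  have hm : ((↑u⁻¹, ↑v⁻¹) : A × B) ∈ residueProd hA hB := by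
    rw [mem_residueProd, map_units_inv, map_units_inv, hu', hv, x.2]
  refine ⟨⟨x, ⟨_, hm⟩, ?_, ?_⟩, rfl⟩ <;> apply Subtype.ext <;>
    apply Prod.ext <;> simp [← hu', ← hv]

instance isLocalRing_residueProd : IsLocalRing (residueProd hA hB) :=
  haveI : IsLocalHom (residueFst hA hB : residueProd hA hB →+* A) :=
    ⟨fun x hx => (isUnit_residueProd_iff hA hB x).mpr hx⟩
  RingHom.domain_isLocalRing (residueFst hA hB : residueProd hA hB →+* A)

theorem isResAlg_residueProd : IsResAlg O (residueProd hA hB) := by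
  haveI := hA.isLocalHom
  refine ⟨⟨fun o ho => (isUnit_map_iff (algebraMap O A) o).mp ?_⟩, fun z => ?_⟩
  · have h1 := ((isUnit_residueProd_iff hA hB _).mp ho)
    rwa [AlgHom.commutes] at h1
  · obtain ⟨x, rfl⟩ := residue_surjective z
    obtain ⟨o, ho⟩ := exists_sub_mem hA (x : A × B).1
    refine ⟨o, ?_⟩
    show residue _ (algebraMap O _ o) = residue _ x
    rw [eq_comm, ← sub_eq_zero, ← map_sub, residue_eq_zero_iff]
    intro hu
    exact ho ((isUnit_residueProd_iff hA hB _).mp hu)

theorem isLocalHom_residueFst :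
    IsLocalHom (residueFst hA hB : residueProd hA hB →+* A) :=
  ⟨fun x hx => (isUnit_residueProd_iff hA hB x).mpr hx⟩

theorem isLocalHom_residueSnd :
    IsLocalHom (residueSnd hA hB : residueProd hA hB →+* B) :=
  ⟨fun x hx => (isUnit_residueProd_iff hA hB x).mpr (isUnit_of_augment_ne_zero hA (by
    rw [show augment hA (residueFst hA hB x) = augment hB (residueSnd hA hB x) from x.2]
    exact (hx.map (augment hB)).ne_zero))⟩

theorem augment_residueProd (x : residueProd hA hB) :
    augment (isResAlg_residueProd hA hB) x = augment hA (x : A × B).1 :=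
  (augment_comp (isResAlg_residueProd hA hB) hA (residueFst hA hB)
    (isLocalHom_residueFst hA hB) x).symm

variable [Module.Finite O A] [Module.Finite O B]

instance finite_residueProd : Module.Finite O (residueProd hA hB) :=
  haveI : IsNoetherian O (A × B) := isNoetherian_of_isNoetherianRing_of_finite O (A × B)
  Module.Finite.of_injective (residueProd hA hB).val.toLinearMap Subtype.val_injective

variable {W : Rigid O} {rA : Gal →* M2 A} {rB : Gal →* M2 B}

theorem prod_mem_residueProd (hlA : Lifts W hA rA) (hlB : Lifts W hB rB) (σ : Gal) (i j : Fin 2) :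
    ((rA σ i j, rB σ i j) : A × B) ∈ residueProd hA hB :=
  (mem_residueProd hA hB).mpr ((hlA σ i j).trans (hlB σ i j).symm)

/-- The product lift. -/
def prodLift (hlA : Lifts W hA rA) (hlB : Lifts W hB rB) : Gal →* M2 (residueProd hA hB) where
  toFun σ := Matrix.of fun i j => ⟨_, prod_mem_residueProd hA hB hlA hlB σ i j⟩
  map_one' := by
    refine Matrix.ext fun i j => Subtype.ext ?_
    show (rA 1 i j, rB 1 i j) = _
    by_cases hij : i = j
    · subst hij; simp [map_one]
    · simp [map_one, Matrix.one_apply_ne hij]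
  map_mul' σ τ := by
    refine Matrix.ext fun i j => Subtype.ext ?_
    show (rA (σ * τ) i j, rB (σ * τ) i j) = _
    simp [Matrix.mul_apply, Fin.sum_univ_two]

theorem mapM_fst_prodLift (hlA : Lifts W hA rA) (hlB : Lifts W hB rB) :
    mapM (residueFst hA hB : residueProd hA hB →+* A) (prodLift hA hB hlA hlB) = rA := rfl

theorem mapM_snd_prodLift (hlA : Lifts W hA rA) (hlB : Lifts W hB rB) :
    mapM (residueSnd hA hB : residueProd hA hB →+* B) (prodLift hA hB hlA hlB) = rB := rfl

theorem lifts_prodLift (hlA : Lifts W hA rA) (hlB : Lifts W hB rB) :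
    Lifts W (isResAlg_residueProd hA hB) (prodLift hA hB hlA hlB) :=
  Lifts.of_map (hB := hA) (residueFst hA hB) (isLocalHom_residueFst hA hB) hlA

theorem isNormal_prodLift (hlA : Lifts W hA rA) (hlB : Lifts W hB rB) (hnA : IsNormal W rA)
    (hnB : IsNormal W rB) : IsNormal W (prodLift hA hB hlA hlB) := by
  have hev : ∀ c i j, ((evalC c (prodLift hA hB hlA hlB) i j : residueProd hA hB) : A × B) =
      (evalC c rA i j, evalC c rB i j) := fun c i j => by
    apply Prod.ext
    · exact (evalC_map c (residueFst hA hB) (prodLift hA hB hlA hlB) i j).symm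
    · exact (evalC_map c (residueSnd hA hB) (prodLift hA hB hlA hlB) i j).symm
  obtain ⟨a1, a2, a3⟩ := hnA
  obtain ⟨b1, b2, b3⟩ := hnB
  refine ⟨?_, ?_, ?_⟩ <;> apply Subtype.ext <;> rw [hev]
  · rw [a1, b1]; rfl
  · rw [a2, b2]; rfl
  · rw [a3, b3]; rfl

omit [Module.Finite O A] [Module.Finite O B] in
theorem isCont_prodMap (hcA : IsCont rA) (hcB : IsCont rB) (n : ℕ) :
    ∃ L : IntermediateField ℚ (AlgebraicClosure ℚ), FiniteDimensional ℚ L ∧
      ∀ σ : Gal, (∀ x ∈ L, σ x = x) → ∀ i j,
        rA σ i j - (1 : M2 A) i j ∈ maximalIdeal A ^ n ∧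
          rB σ i j - (1 : M2 B) i j ∈ maximalIdeal B ^ n := by
  obtain ⟨L, hL, h1⟩ := hcA n
  obtain ⟨L', hL', h2⟩ := hcB n
  refine ⟨L ⊔ L', inferInstance, fun σ hσ i j => ⟨h1 σ (fun x hx => hσ x ?_) i j,
    h2 σ (fun x hx => hσ x ?_) i j⟩⟩
  · exact (le_sup_left : L ≤ L ⊔ L') hx
  · exact (le_sup_right : L' ≤ L ⊔ L') hx

theorem isCont_prodLift (hlA : Lifts W hA rA) (hlB : Lifts W hB rB) (hcA : IsCont rA)
    (hcB : IsCont rB) : IsCont (prodLift hA hB hlA hlB) := by
  intro n
  haveI := hA.isLocalHom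
  haveI := hB.isLocalHom
  haveI := (isResAlg_residueProd hA hB).isLocalHom
  obtain ⟨a, ha⟩ := exists_pow_le_map (O := O) (A := A)
  obtain ⟨b, hb⟩ := exists_pow_le_map (O := O) (A := B)
  haveI : IsNoetherian O (A × B) := isNoetherian_of_isNoetherianRing_of_finite O (A × B)
  obtain ⟨k, hk⟩ :=
    (maximalIdeal O).exists_pow_inf_eq_pow_smul (Subalgebra.toSubmodule (residueProd hA hB))
  obtain ⟨L, hL, hL'⟩ := isCont_prodMap hcA hcB ((a + b) * (n + k))
  refine ⟨L, hL, fun σ hσ i j => ?_⟩
  set x : residueProd hA hB := prodLift hA hB hlA hlB σ i j - (1 : M2 _) i j with hx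
  have hxv : (x : A × B) = (rA σ i j - (1 : M2 A) i j, rB σ i j - (1 : M2 B) i j) := by
    have e : ∀ {C : Type} [CommRing C] [Algebra O C] (f : residueProd hA hB →ₐ[O] C),
        f ((1 : M2 (residueProd hA hB)) i j) = (1 : M2 C) i j := fun f => by
      by_cases hij : i = j
      · subst hij; rw [Matrix.one_apply_eq, Matrix.one_apply_eq, map_one]
      · rw [Matrix.one_apply_ne hij, Matrix.one_apply_ne hij, map_zero]
    apply Prod.ext
    · show residueFst hA hB x = _
      rw [hx, map_sub, e]
      rfl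
    · show residueSnd hA hB x = _
      rw [hx, map_sub, e]
      rfl
  have hpow : ∀ {C : Type} [CommRing C] [IsLocalRing C] [Algebra O C] (c : ℕ),
      maximalIdeal C ^ c ≤ (maximalIdeal O).map (algebraMap O C) → c ≤ a + b →
      maximalIdeal C ^ ((a + b) * (n + k)) ≤ (maximalIdeal O ^ (n + k)).map (algebraMap O C) := by
    intro C _ _ _ c hc hle
    rw [Ideal.map_pow, pow_mul]
    exact Ideal.pow_right_mono ((Ideal.pow_le_pow_right hle).trans hc) _
  have h1 := hpow a ha (Nat.le_add_right _ _) (hL' σ hσ i j).1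
  have h2 := hpow b hb (Nat.le_add_left _ _) (hL' σ hσ i j).2
  have hxm : (x : A × B) ∈ maximalIdeal O ^ (n + k) • (⊤ : Submodule O (A × B)) := by
    rw [hxv]
    have e1 : (rA σ i j - (1 : M2 A) i j) ∈ maximalIdeal O ^ (n + k) • (⊤ : Submodule O A) := by
      rw [Ideal.smul_top_eq_map]; exact h1
    have e2 : (rB σ i j - (1 : M2 B) i j) ∈ maximalIdeal O ^ (n + k) • (⊤ : Submodule O B) := by
      rw [Ideal.smul_top_eq_map]; exact h2
    have hl := Submodule.mem_map_of_mem (f := LinearMap.inl O A B) e1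
    have hr := Submodule.mem_map_of_mem (f := LinearMap.inr O A B) e2
    rw [Submodule.map_smul''] at hl hr
    have := add_mem (Submodule.smul_mono le_rfl (show _ ≤ ⊤ from le_top) hl)
      (Submodule.smul_mono le_rfl (show _ ≤ ⊤ from le_top) hr)
    simpa using this
  have hmem : (x : A × B) ∈ maximalIdeal O ^ (n + k) • (⊤ : Submodule O (A × B)) ⊓
      Subalgebra.toSubmodule (residueProd hA hB) := ⟨hxm, x.2⟩
  rw [hk (n + k) (Nat.le_add_left _ _), Nat.add_sub_cancel] at hmem
  have hmem' : (x : A × B) ∈ maximalIdeal O ^ n • Subalgebra.toSubmodule (residueProd hA hB) :=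
    Submodule.smul_mono le_rfl inf_le_right hmem
  have hmap : maximalIdeal O ^ n • Subalgebra.toSubmodule (residueProd hA hB) =
      (maximalIdeal O ^ n • (⊤ : Submodule O (residueProd hA hB))).map
        (residueProd hA hB).val.toLinearMap := by
    rw [Submodule.map_smul'', Submodule.map_top]
    congr 1
    ext y
    simp
  rw [hmap] at hmem'
  obtain ⟨y, hy, hyx⟩ := hmem'
  obtain rfl : y = x := Subtype.ext hyx
  rw [Ideal.smul_top_eq_map, SetLike.mem_coe, Submodule.restrictScalars_mem, Ideal.map_pow] at hy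
  have hle : (maximalIdeal O).map (algebraMap O (residueProd hA hB)) ≤
      maximalIdeal (residueProd hA hB) :=
    Ideal.map_le_iff_le_comap.mpr fun o ho =>
      map_nonunit (algebraMap O (residueProd hA hB)) o ho
  exact Ideal.pow_right_mono hle n hy

end FibreProduct

section Generated

variable {A : Type} [CommRing A] [IsLocalRing A] [Algebra O A] [Module.Finite O A]

/-- The subalgebra generated by the entries. -/
abbrev entryAlg (O : Type) [CommRing O] {A : Type} [CommRing A] [Algebra O A]
    (r : Gal →* M2 A) : Subalgebra O A :=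
  Algebra.adjoin O (entries r)

theorem entries_mem_entryAlg (r : Gal →* M2 A) (σ : Gal) (i j : Fin 2) :
    r σ i j ∈ entryAlg O r :=
  Algebra.subset_adjoin ⟨(σ, i, j), rfl⟩

instance finite_entryAlg (r : Gal →* M2 A) : Module.Finite O (entryAlg O r) :=
  finite_subalgebra _

instance isLocalRing_entryAlg (r : Gal →* M2 A) : IsLocalRing (entryAlg O r) :=
  isLocalRing_subalgebra _

/-- The lift with values in the generated ring. -/
def entryLift (O : Type) [CommRing O] {A : Type} [CommRing A] [Algebra O A] (r : Gal →* M2 A) :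
    Gal →* M2 (entryAlg O r) :=
  corestrict (entryAlg O r) r fun σ i j => Algebra.subset_adjoin ⟨(σ, i, j), rfl⟩

/-- A derivation killing the entries kills the generated ring. -/
theorem der_eq_zero_of_entries (r : Gal →* M2 A) {h : IsResAlg O (entryAlg O r)}
    (δ : tangentDer h) (hδ : ∀ σ i j, δ.1 (entryLift O r σ i j) = 0) : δ = 0 := by
  refine Subtype.ext (funext fun a => ?_)
  obtain ⟨a, ha⟩ := a
  show δ.1 ⟨a, ha⟩ = 0
  induction ha using Algebra.adjoin_induction with
  | mem y hy =>
    obtain ⟨⟨σ, i, j⟩, rfl⟩ := hy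
    exact hδ σ i j
  | algebraMap o => exact der_algebraMap δ o
  | add y z hy hz h1 h2 =>
    exact (der_add δ ⟨y, hy⟩ ⟨z, hz⟩).trans (by rw [h1, h2, add_zero])
  | mul y z hy hz h1 h2 =>
    exact (der_mul δ ⟨y, hy⟩ ⟨z, hz⟩).trans (by rw [h1, h2, mul_zero, mul_zero, add_zero])

/-- Algebra maps out of the generated ring are decided by the lift. -/
theorem algHom_entryAlg_ext {B : Type} [CommRing B] [Algebra O B] (r : Gal →* M2 A)
    {f g : entryAlg O r →ₐ[O] B}
    (hfg : mapM (f : entryAlg O r →+* B) (entryLift O r) =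
      mapM (g : entryAlg O r →+* B) (entryLift O r)) : f = g := by
  refine AlgHom.ext fun a => ?_
  obtain ⟨a, ha⟩ := a
  induction ha using Algebra.adjoin_induction with
  | mem y hy =>
    obtain ⟨⟨σ, i, j⟩, rfl⟩ := hy
    exact congr_fun (congr_fun (DFunLike.congr_fun hfg σ) i) j
  | algebraMap o => exact (f.commutes o).trans (g.commutes o).symm
  | add y z hy hz h1 h2 =>
    show f (⟨y, hy⟩ + ⟨z, hz⟩) = g (⟨y, hy⟩ + ⟨z, hz⟩)
    rw [map_add, map_add, h1, h2]
  | mul y z hy hz h1 h2 =>
    show f (⟨y, hy⟩ * ⟨z, hz⟩) = g (⟨y, hy⟩ * ⟨z, hz⟩)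
    rw [map_mul, map_mul, h1, h2]

/-- Maps of lifts restrict to surjections of the generated rings. -/
theorem exists_entryAlg_map {B : Type} [CommRing B] [Algebra O B] {r : Gal →* M2 A}
    {r' : Gal →* M2 B} (f : A →ₐ[O] B) (hf : mapM (f : A →+* B) r = r') :
    ∃ g : entryAlg O r →ₐ[O] entryAlg O r', Function.Surjective g ∧
      mapM (g : entryAlg O r →+* entryAlg O r') (entryLift O r) = entryLift O r' := by
  have hmap : (entryAlg O r).map f = entryAlg O r' := by
    rw [entryAlg, AlgHom.map_adjoin]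
    congr 1
    rw [← hf]
    ext y
    constructor
    · rintro ⟨_, ⟨⟨σ, i, j⟩, rfl⟩, rfl⟩
      exact ⟨(σ, i, j), rfl⟩
    · rintro ⟨⟨σ, i, j⟩, rfl⟩
      exact ⟨_, ⟨(σ, i, j), rfl⟩, rfl⟩
  let g : entryAlg O r →ₐ[O] entryAlg O r' :=
    (f.comp (entryAlg O r).val).codRestrict _ fun x => hmap ▸ ⟨x, x.2, rfl⟩
  refine ⟨g, fun y => ?_, ?_⟩
  · have hy : (y : B) ∈ (entryAlg O r).map f := by rw [hmap]; exact y.2
    obtain ⟨x, hx, hxy⟩ := hy
    exact ⟨⟨x, hx⟩, Subtype.ext hxy⟩
  · refine MonoidHom.ext fun σ => Matrix.ext fun i j => Subtype.ext ?_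
    exact congr_fun (congr_fun (DFunLike.congr_fun hf σ) i) j

/-- Everything the patching argument needs about the generated ring. -/
theorem entryAlg_spec [IsAdicComplete (maximalIdeal O) O] {W : Rigid O} {h : IsResAlg O A}
    {r : Gal →* M2 A} (hl : Lifts W h r) (hn : IsNormal W r) (hc : IsCont r) :
    ∃ h' : IsResAlg O (entryAlg O r), IsNoetherianRing (entryAlg O r) ∧
      IsAdicComplete (maximalIdeal (entryAlg O r)) (entryAlg O r) ∧
      IsLocalHom ((entryAlg O r).val : entryAlg O r →+* A) ∧
      Lifts W h' (entryLift O r) ∧ IsNormal W (entryLift O r) ∧ IsCont (entryLift O r) := by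
  refine ⟨isResAlg_subalgebra h _, IsNoetherianRing.of_finite O _,
    isAdicComplete_subalgebra _ (isResAlg_subalgebra h _).isLocalHom,
    isLocalHom_subalgebra_val _, lifts_corestrict _ hl _, isNormal_corestrict _ hn _,
    isCont_corestrict h _ hc _⟩

end Generated

end Fermat.Agent.TwoAdic.Deform
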