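import Fermat.Agent.TwoAdic.Deform.Derivation
import Fermat.Agent.Arith.Frobenius

/-!
# The tangent classes satisfy the local conditions at `T`, at `2` and outside
-/

set_option autoImplicit false

noncomputable section

namespace Fermat.Agent.TwoAdic.Deform

open IsLocalRing Fermat.Agent.Deform Fermat.Agent.CFT.Tangent Fermat.Agent.Arith

variable {O : Type} [CommRing O] [IsLocalRing O] {R : Type} [CommRing R] [IsLocalRing R]
  [Algebra O R] {h : IsResAlg O R} {S : Setting O} {Lv : Level S} {ru : Gal →* M2 R}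

theorem neg_eq_self_residue (S : Setting O) (x : ResidueField O) : -x = x := by
  linear_combination -x * S.two_eq_zero

theorem der_mem_span_two (δ : tangentDer h) (S : Setting O) {y : R}
    (hy : y ∈ Ideal.span {((2 ^ 1 : ℕ) : R)}) : δ.1 y = 0 ∧ augment h y = 0 := by
  obtain ⟨z, rfl⟩ := Ideal.mem_span_singleton'.mp hy
  have h2 : augment h ((2 ^ 1 : ℕ) : R) = 0 := by
    rw [map_natCast, pow_one, Nat.cast_ofNat]
    exact S.two_eq_zero
  exact ⟨by rw [der_mul, der_natCast, h2, mul_zero, zero_mul, add_zero],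
    by rw [map_mul, h2, mul_zero]⟩

/-- The derivative of the determinant is the trace of the class. -/
theorem der_det (δ : tangentDer h) (hl : Lifts S.W h ru) (σ : Gal) :
    δ.1 (ru σ).det = (tangentCls S.W h ru δ σ).trace := by
  have e : ∀ i j, δ.1 (ru σ i j) = (tangentCls S.W h ru δ σ * S.W.rb σ) i j := fun i j => by
    rw [← derM_lift δ σ, derM_apply]
  have hd := S.det_rb σ
  rw [Matrix.det_fin_two] at hd ⊢
  rw [der_sub, der_mul, der_mul, hl, hl, hl, hl, e, e, e, e, Matrix.trace_fin_two]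
  simp only [Matrix.mul_apply, Fin.sum_univ_two]
  linear_combination (tangentCls S.W h ru δ σ 0 0 + tangentCls S.W h ru δ σ 1 1) * hd

theorem trace_tangentCls_mul (δ : tangentDer h) (σ : Gal) :
    (tangentCls S.W h ru δ σ * S.W.rb σ).trace = δ.1 (ru σ).trace := by
  rw [← derM_lift δ σ, Matrix.trace_fin_two, Matrix.trace_fin_two, derM_apply, derM_apply,
    der_add]

theorem sq_roots_fixed (σ : Gal) (μ : QBar) (hμ : μ ^ 2 ^ 1 = 1) : σ μ = μ ^ 1 := by
  rw [pow_one] at hμ ⊢
  rcases sq_eq_one_iff.mp hμ with rfl | rfl <;> simp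

theorem trace_tangentCls_of_mem (δ : tangentDer h) (hl : Lifts S.W h ru) (hlift : IsLift S Lv ru)
    {σ : Gal} (hσ : σ ∈ Lv.H) : (tangentCls S.W h ru δ σ).trace = 0 := by
  have h1 := (der_mem_span_two δ S (hlift.det σ hσ 1 1 (sq_roots_fixed σ))).1
  rwa [der_sub, der_natCast, sub_zero, der_det δ hl] at h1

theorem trace_cls (δ : tangentDer h) (hl : Lifts S.W h ru) (hlift : IsLift S Lv ru) {q : ℕ}
    (hq : q.Prime) (hqQ : q ∉ Lv.Q) {P : ValuationSubring QBar} (hP : P.LiesOverPrime q)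
    {σ : Gal} (hσ : σ ∈ P.inertiaSubgroupIn ℚ) : (tangentCls S.W h ru δ σ).trace = 0 :=
  trace_tangentCls_of_mem δ hl hlift (Lv.inertia_le q hq hqQ P hP hσ)

theorem steinberg_cls (δ : tangentDer h) (hl : Lifts S.W h ru) (hlift : IsLift S Lv ru) {q : ℕ}
    (hq : q ∈ S.T) {P : ValuationSubring QBar} (hP : P.LiesOverPrime q)
    {σ : Gal} (hσ : σ ∈ P.inertiaSubgroupIn ℚ) :
    (tangentCls S.W h ru δ σ).trace = 0 ∧ (tangentCls S.W h ru δ σ * S.W.rb σ).trace = 0 := by
  obtain ⟨h1, h2⟩ := hlift.steinberg q hq P hP σ hσ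
  refine ⟨?_, ?_⟩
  · rw [← der_det δ hl, h2, der_one]
  · rw [trace_tangentCls_mul, h1]
    exact_mod_cast der_natCast δ 2

theorem unramified_cls (δ : tangentDer h) (hlift : IsLift S Lv ru) {q : ℕ}
    (hq : q.Prime) (h2 : q ≠ 2) (hT : q ∉ S.T) (hQ : q ∉ Lv.Q) {P : ValuationSubring QBar}
    (hP : P.LiesOverPrime q) {σ : Gal} (hσ : σ ∈ P.inertiaSubgroupIn ℚ) :
    tangentCls S.W h ru δ σ = 0 :=
  tangentCls_eq_zero_of_derM δ (by
    rw [hlift.unramified q hq h2 hT hQ P hP σ hσ, derM_one])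

theorem inertia_le_decomposition {P : ValuationSubring QBar} {σ : Gal}
    (hσ : σ ∈ P.inertiaSubgroupIn ℚ) : σ ∈ P.decompositionSubgroup ℚ := by
  obtain ⟨τ, -, rfl⟩ := Subgroup.mem_map.mp hσ
  exact τ.2

theorem twoShift_apply (S : Setting O) (b : Cochain O) {σ : Gal}
    (hσ : σ ∈ S.P2.decompositionSubgroup ℚ) :
    twoShift S b σ 1 0 = b σ 1 0 ∧
      twoShift S b σ 1 1 = b σ 1 1 + S.W.rb σ 0 1 * b S.σ2 1 1 := by
  have hinv : S.W.rb σ * S.W.rb σ⁻¹ = 1 := by rw [← map_mul, mul_inv_cancel, map_one]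
  have h2 := S.two_eq_zero
  have hsq : upperU (ResidueField O) * upperU (ResidueField O) = 1 := by
    ext i j
    fin_cases i <;> fin_cases j <;>
      simp [upperU, Matrix.mul_apply, Fin.sum_univ_two] <;> linear_combination h2
  rcases S.rb_decomp σ hσ with e | e
  · rw [e, one_mul] at hinv
    constructor <;> simp [twoShift, cobdLin, e, hinv, Matrix.add_apply]
  · rw [e] at hinv
    have e' : S.W.rb σ⁻¹ = upperU (ResidueField O) := by
      have := congrArg (fun M => upperU (ResidueField O) * M) hinv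
      simp only [← mul_assoc, hsq, one_mul, mul_one] at this
      exact this
    constructor <;>
      simp [twoShift, cobdLin, e, e', upperU, Matrix.mul_apply, Fin.sum_univ_two,
        Matrix.add_apply, Matrix.single_apply, Matrix.vecMul, dotProduct]

theorem augment_twoLine (hl : Lifts S.W h ru) {x : R} (hx : TwoLine S ru x) :
    augment h x = 0 := by
  have hl' : ∀ σ i j, augment h (ru σ i j) = S.W.rb σ i j := hl
  have h1 := congrArg (augment h) (hx.1 S.σ2 S.σ2_mem).2
  simpa [hl', S.rb_σ2, upperU] using h1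

theorem rb_decomp_entries {σ : Gal} (hσ : σ ∈ S.P2.decompositionSubgroup ℚ) :
    S.W.rb σ 0 0 = 1 ∧ S.W.rb σ 1 0 = 0 ∧ S.W.rb σ 1 1 = 1 := by
  rcases S.rb_decomp σ hσ with e | e <;> simp [e, upperU]

/-- The derivative of the position of the line at `2`, and the conditions on the class. -/
theorem two_cls (δ : tangentDer h) (hl : Lifts S.W h ru) {x : R} (hx : TwoLine S ru x) :
    let b := tangentCls S.W h ru δ
    (∀ σ ∈ S.P2.inertiaSubgroupIn ℚ, twoShift S b σ 1 0 = 0 ∧ twoShift S b σ 1 1 = 0) ∧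
      (∀ σ ∈ S.P2.decompositionSubgroup ℚ, twoShift S b σ 1 0 = 0) ∧
      ∀ σ ∈ S.P2.decompositionSubgroup ℚ,
        δ.1 (lineVal x (ru σ)) = twoShift S b σ 1 1 := by
  intro b
  have hx0 := augment_twoLine hl hx
  have e : ∀ σ i j, δ.1 (ru σ i j) = (b σ * S.W.rb σ) i j := fun σ i j => by
    rw [← derM_lift δ σ, derM_apply]
  have h2 := S.two_eq_zero
  have hl' : ∀ σ i j, augment h (ru σ i j) = S.W.rb σ i j := hl
  have hstab : ∀ σ ∈ S.P2.decompositionSubgroup ℚ, b σ 1 0 = 0 := by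
    intro σ hσ
    obtain ⟨r00, r10, r11⟩ := rb_decomp_entries hσ
    have h1 := congrArg δ.1 (hx.2 σ hσ)
    simp only [der_add, der_mul, map_add, map_mul, hl', hx0, e, r00, r10, r11, Matrix.mul_apply,
      Fin.sum_univ_two, zero_mul, mul_zero, zero_add, add_zero, mul_one, one_mul] at h1
    linear_combination h1
  have hfix : ∀ σ ∈ S.P2.inertiaSubgroupIn ℚ,
      S.W.rb σ 0 1 * δ.1 x + b σ 1 1 = 0 := by
    intro σ hσ
    obtain ⟨r00, r10, r11⟩ := rb_decomp_entries (inertia_le_decomposition hσ)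
    have h1 := congrArg δ.1 (hx.1 σ hσ).2
    simp only [der_add, der_mul, der_sub, der_one, der_zero, hl', hx0, e, r00, r10, r11,
      Matrix.mul_apply, Fin.sum_univ_two, zero_mul, zero_add, sub_zero, mul_one] at h1
    linear_combination h1 - S.W.rb σ 0 1 * hstab σ (inertia_le_decomposition hσ)
  have ht : δ.1 x = b S.σ2 1 1 := by
    have h1 := hfix S.σ2 S.σ2_mem
    rw [S.rb_σ2, show upperU (ResidueField O) 0 1 = 1 from rfl, one_mul] at h1
    linear_combination h1 - b S.σ2 1 1 * h2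
  refine ⟨fun σ hσ => ?_, fun σ hσ => ?_, fun σ hσ => ?_⟩
  · obtain ⟨s0, s1⟩ := twoShift_apply S b (inertia_le_decomposition hσ)
    refine ⟨s0.trans (hstab σ (inertia_le_decomposition hσ)), ?_⟩
    rw [s1]
    linear_combination hfix σ hσ - S.W.rb σ 0 1 * ht
  · exact (twoShift_apply S b hσ).1.trans (hstab σ hσ)
  · obtain ⟨r00, r10, r11⟩ := rb_decomp_entries hσ
    rw [(twoShift_apply S b hσ).2]
    simp only [lineVal, der_add, der_mul, hl', hx0, e, r00, r10, r11, Matrix.mul_apply,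
      Fin.sum_univ_two, zero_mul, zero_add, mul_one]
    linear_combination S.W.rb σ 0 1 * ht + S.W.rb σ 0 1 * hstab σ hσ

theorem alphaFun_cls (δ : tangentDer h) (hl : Lifts S.W h ru) {a : R} {a0 : O}
    (ha : a = algebraMap O R a0) (ha0 : residue O a0 = 1) (hs : IsSigned S Lv a ru) :
    alphaFun Lv (tangentCls S.W h ru δ) = 0 := by
  obtain ⟨x, hx, hval⟩ := hs
  have h1 := congrArg δ.1 hval
  rw [(two_cls δ hl hx).2.2 S.φ2 S.φ2_frob.mem_decompositionSubgroup, der_mul, der_det δ hl, ha,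
    der_algebraMap, mul_zero, add_zero, AlgHom.commutes, ResidueField.algebraMap_eq, ha0,
    one_mul] at h1
  unfold alphaFun
  linear_combination h1 + (tangentCls S.W h ru δ Lv.root2).trace * S.two_eq_zero

end Fermat.Agent.TwoAdic.Deform
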