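import Fermat.Agent.CFT.Flat.Inertia
import Fermat.Agent.EC.Rep.TWHypothesis
import Mathlib.RepresentationTheory.Homological.GroupCohomology.Hilbert90
import Mathlib.Algebra.Category.Grp.Injective

/-!
# The ordinary class at `2` of a tres ramifiee representation

If the extension class of an ordinary representation at `2` reduces to the Kummer class of a
square root of a number of odd valuation, the ratio of its diagonal characters is the cyclotomic
character. Proof: Hilbert 90 on inertia and a comparison of valuations.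
-/

set_option autoImplicit false
set_option linter.style.haveILetI false
set_option linter.unusedSectionVars false

noncomputable section

namespace Fermat.Agent.TwoAdic.Deform

open Fermat.Agent.Arith Fermat.Agent.CFT.Flat
open scoped Pointwise

local notation "D2" => decG 2
local notation "I2" => inG 2

local instance factTwoTres : Fact (Nat.Prime 2) := ⟨Nat.prime_two⟩

theorem conj_mem_inG {g τ : GQ} (hg : g ∈ D2) (hτ : τ ∈ I2) : g⁻¹ * τ * g ∈ I2 := by
  refine EC.Rep.conj_mem_inertia ?_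
  rwa [show g • padicPlace 2 = padicPlace 2 from MulAction.mem_stabilizer_iff.mp hg]

theorem exists_pow_roots (n : ℕ) [NeZero n] (σ : GQ) :
    ∃ j : ℕ, ∀ μ : QBar, μ ^ n = 1 → σ μ = μ ^ j := by
  obtain ⟨ζ, hζ⟩ := HasEnoughRootsOfUnity.exists_primitiveRoot QBar n
  obtain ⟨a, -, ha⟩ := hζ.eq_pow_of_pow_eq_one (ξ := σ ζ)
    (by rw [← map_pow, hζ.pow_eq_one, map_one])
  refine ⟨a, fun μ hμ => ?_⟩
  obtain ⟨i, -, rfl⟩ := hζ.eq_pow_of_pow_eq_one hμ
  rw [map_pow, ← ha, ← pow_mul, ← pow_mul, mul_comm]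

/-- An element of order two is detected by a functional with values in roots of unity. -/
theorem exists_functional {A : Type} [AddCommGroup A] {e : A} (he : e ≠ 0) (h2e : 2 • e = 0) :
    ∃ μ : A →+ Additive QBarˣ, μ e = Additive.ofMul (-1) := by
  letI : DivisibleBy (Additive QBarˣ) ℕ :=
    divisibleByOfSMulRightSurj _ _ fun {n} hn x => by
      obtain ⟨z, hz⟩ := IsAlgClosed.exists_pow_nat_eq ((Additive.toMul x : QBarˣ) : QBar)
        (Nat.pos_of_ne_zero hn)
      have hz0 : z ≠ 0 := fun h => by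
        rw [h, zero_pow hn] at hz
        exact (Additive.toMul x : QBarˣ).ne_zero hz.symm
      exact ⟨Additive.ofMul (Units.mk0 z hz0), Additive.toMul.injective (Units.ext (by
        show ((Units.mk0 z hz0) ^ n : QBarˣ).val = _
        rw [Units.val_pow_eq_pow_val, Units.val_mk0, hz]))⟩
  letI : DivisibleBy (Additive QBarˣ) ℤ := AddGroup.divisibleByIntOfDivisibleByNat _
  let f : ZMod 2 →+ A := ZMod.lift 2 ⟨zmultiplesHom A e, by
    rw [zmultiplesHom_apply, Nat.cast_ofNat, ofNat_zsmul, h2e]⟩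
  let g : ZMod 2 →+ Additive QBarˣ :=
    ZMod.lift 2 ⟨zmultiplesHom _ (Additive.ofMul (-1 : QBarˣ)), by
      rw [zmultiplesHom_apply, Nat.cast_ofNat, ofNat_zsmul, ← ofMul_pow, neg_one_sq]
      rfl⟩
  have hf1 : f 1 = e := by
    have := ZMod.lift_coe 2 ⟨zmultiplesHom A e, by
      rw [zmultiplesHom_apply, Nat.cast_ofNat, ofNat_zsmul, h2e]⟩ 1
    simpa using this
  have hg1 : g 1 = Additive.ofMul (-1 : QBarˣ) := by
    have := ZMod.lift_coe 2 ⟨zmultiplesHom _ (Additive.ofMul (-1 : QBarˣ)), by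
      rw [zmultiplesHom_apply, Nat.cast_ofNat, ofNat_zsmul, ← ofMul_pow, neg_one_sq]
      rfl⟩ 1
    simpa using this
  have hf : Function.Injective f := by
    rw [injective_iff_map_eq_zero]
    intro x hx
    fin_cases x
    · rfl
    · exact absurd (hf1 ▸ hx) he
  obtain ⟨μ, hμ⟩ := (Module.Baer.of_divisible (A := Additive QBarˣ)).extension_property_addMonoidHom
    f hf g
  exact ⟨μ, by rw [← hf1, ← AddMonoidHom.comp_apply, hμ, hg1]⟩

/-- Hilbert 90 on inertia for functions of finite level. -/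
theorem exists_kummer_root (v : GQ → QBarˣ) (hv : ∀ s ∈ I2, ∀ t ∈ I2,
      (v (s * t) : QBar) = s (v t : QBar) * v s)
    (L : IntermediateField ℚ QBar) [FiniteDimensional ℚ L] [Normal ℚ L]
    (hL : ∀ s ∈ I2, ∀ t ∈ I2, (∀ x ∈ L, s x = t x) → v s = v t)
    (hvL : ∀ s, (v s : QBar) ∈ L) :
    ∃ Y : QBar, Y ≠ 0 ∧ ∀ s ∈ I2, s Y = v s * Y := by
  haveI : IsGalois ℚ L := ⟨⟩
  set res := AlgEquiv.restrictNormalHom (F := ℚ) (K₁ := QBar) L
  set H := (I2).map res
  set K := IntermediateField.fixedField H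
  have hcomm : ∀ (s : GQ) (x : L), ((res s x : L) : QBar) = s (x : QBar) :=
    fun s x => AlgEquiv.restrictNormal_commutes s L x
  have hmem : ∀ σ : L ≃ₐ[K] L, ∃ s ∈ I2, res s = σ.restrictScalars ℚ := by
    intro σ
    have : σ.restrictScalars ℚ ∈ H := by
      rw [← IntermediateField.fixingSubgroup_fixedField H,
        IntermediateField.mem_fixingSubgroup_iff]
      exact fun x hx => σ.commutes ⟨x, hx⟩
    exact this
  choose lift hlI hlr using hmem
  let f : (L ≃ₐ[K] L) → Lˣ := fun σ => Units.mk0 ⟨_, hvL (lift σ)⟩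
    fun h => (v (lift σ)).ne_zero (congrArg Subtype.val h)
  have hfv : ∀ σ, ((f σ : L) : QBar) = v (lift σ) := fun σ => rfl
  have hagree : ∀ {s t : GQ}, res s = res t → ∀ x ∈ L, s x = t x := by
    intro s t h x hx
    rw [← show ((res s ⟨x, hx⟩ : L) : QBar) = s x from hcomm s ⟨x, hx⟩, h, hcomm]
  obtain ⟨y, hy⟩ := groupCohomology.isMulCoboundary₁_of_isMulCocycle₁_of_aut_to_units f
    fun σ τ => by
      refine Units.ext (Subtype.ext ?_)
      have hm : v (lift (σ * τ)) = v (lift σ * lift τ) :=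
        hL _ (hlI _) _ (mul_mem (hlI σ) (hlI τ)) (hagree (by
          rw [hlr, map_mul, hlr, hlr]; rfl))
      rw [hfv, hm, hv _ (hlI σ) _ (hlI τ), Units.val_mul, MulMemClass.coe_mul, hfv]
      congr 1
      show _ = ((σ (f τ : L) : L) : QBar)
      rw [show σ (f τ : L) = res (lift σ) (f τ : L) by rw [hlr]; rfl, hcomm, hfv]
  refine ⟨((y : L) : QBar), fun h => y.ne_zero (Subtype.ext h), fun s hs => ?_⟩
  have hsH : res s ∈ IntermediateField.fixingSubgroup K := by
    rw [IntermediateField.fixingSubgroup_fixedField]; exact ⟨s, hs, rfl⟩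
  let σ : L ≃ₐ[K] L :=
    AlgEquiv.ofRingEquiv (f := (res s).toRingEquiv) fun x =>
      (IntermediateField.mem_fixingSubgroup_iff _ _).mp hsH x x.2
  have hσ : res (lift σ) = res s := (hlr σ).trans (AlgEquiv.ext fun x => rfl)
  have h1 := hy σ
  rw [div_eq_iff_eq_mul] at h1
  have h2 := congrArg (fun u : Lˣ => ((u : L) : QBar)) h1
  simp only [Units.val_mul, MulMemClass.coe_mul, hfv] at h2
  rw [← hL _ (hlI σ) _ hs (hagree hσ), ← h2]
  show _ = ((σ (y : L) : L) : QBar)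
  exact (hcomm s y).symm

/-- The valuation computation. -/
theorem cyclotomic_core {A : Type} [CommRing A] {N : ℕ} (h2N : (2 : A) ^ N = 0)
    (χ c : GQ → A) (δ : QBar) {m : ℤ} (hm : Odd m) (hδ : nrm 2 δ ^ 2 = ((2 : ℝ)⁻¹) ^ m)
    (hδσ : ∀ σ ∈ D2, σ δ = δ ∨ σ δ = -δ)
    (hcoc : ∀ s ∈ D2, ∀ t ∈ D2, c (s * t) = χ s * c t + c s)
    (hI : ∀ τ ∈ I2, ∀ j : ℕ, (∀ μ : QBar, μ ^ 2 ^ N = 1 → τ μ = μ ^ j) → χ τ = j)
    (hlev : ∃ L : IntermediateField ℚ QBar, FiniteDimensional ℚ L ∧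
      ∀ σ ∈ I2, (∀ x ∈ L, σ x = x) → c σ = 0)
    {g : GQ} (hg : g ∈ D2) {j : ℕ} (hj : ∀ μ : QBar, μ ^ 2 ^ N = 1 → g μ = μ ^ j)
    (h2e : 2 * (χ g - j) = 0)
    (hres : ∀ τ ∈ I2, (τ δ = δ → (χ g - j) * c τ = 0) ∧
      (τ δ = -δ → (χ g - j) * c τ = χ g - j)) :
    χ g = j := by
  classical
  set e := χ g - (j : A) with he
  by_contra hne
  have he0 : e ≠ 0 := sub_ne_zero.mpr hne
  obtain ⟨μ, hμe⟩ := exists_functional he0 (by rw [two_nsmul, ← two_mul, h2e])
  -- the functional, multiplicatively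
  let M : A → QBarˣ := fun a => Additive.toMul (μ a)
  have hMadd : ∀ a b, M (a + b) = M a * M b := fun a b => by
    show Additive.toMul (μ (a + b)) = _
    rw [map_add]; rfl
  have hMsub : ∀ a b, M (a - b) = M a / M b := fun a b => by
    show Additive.toMul (μ (a - b)) = _
    rw [map_sub]; rfl
  have hMnat : ∀ (k : ℕ) a, M ((k : A) * a) = M a ^ k := fun k a => by
    show Additive.toMul (μ _) = _
    rw [← nsmul_eq_mul, map_nsmul]; rfl
  have hM0 : M 0 = 1 := by show Additive.toMul (μ 0) = _; rw [map_zero]; rfl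
  have hMe : M e = -1 := congrArg Additive.toMul hμe
  have hMroot : ∀ a, ((M a : QBarˣ) : QBar) ^ 2 ^ N = 1 := fun a => by
    rw [← Units.val_pow_eq_pow_val, ← hMnat, Nat.cast_pow, Nat.cast_ofNat, h2N, zero_mul, hM0,
      Units.val_one]
  have hact : ∀ (σ : GQ) (k : ℕ), (∀ ξ : QBar, ξ ^ 2 ^ N = 1 → σ ξ = ξ ^ k) →
      ∀ a, σ (M a : QBar) = M ((k : A) * a) := fun σ k hk a => by
    rw [hk _ (hMroot a), hMnat, Units.val_pow_eq_pow_val]
  have hinert : ∀ τ ∈ I2, ∀ a, τ (M a : QBar) = M (χ τ * a) := fun τ hτ a => by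
    haveI : NeZero (2 ^ N) := ⟨pow_ne_zero _ two_ne_zero⟩
    obtain ⟨k, hk⟩ := exists_pow_roots (2 ^ N) τ
    rw [hact τ k hk, hI τ hτ k hk]
  -- a finite level
  obtain ⟨L₀, hL₀, hc0⟩ := hlev
  haveI := hL₀
  haveI : NeZero (2 ^ N) := ⟨pow_ne_zero _ two_ne_zero⟩
  obtain ⟨ζ, hζ⟩ := HasEnoughRootsOfUnity.exists_primitiveRoot QBar (2 ^ N)
  haveI : FiniteDimensional ℚ (IntermediateField.adjoin ℚ {ζ}) :=
    IntermediateField.adjoin.finiteDimensional (Algebra.IsIntegral.isIntegral ζ)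
  haveI : Normal ℚ QBar := IsAlgClosure.normal ℚ QBar
  let L' : IntermediateField ℚ QBar := L₀ ⊔ IntermediateField.adjoin ℚ {ζ}
  let L := IntermediateField.normalClosure ℚ L' QBar
  haveI : Normal ℚ L := normalClosure.normal ℚ L' QBar
  have hL₀L : L₀ ≤ L := le_sup_left.trans L'.le_normalClosure
  have hML : ∀ a, (M a : QBar) ∈ L := fun a => by
    obtain ⟨i, -, hi⟩ := hζ.eq_pow_of_pow_eq_one (hMroot a)
    rw [← hi]
    exact pow_mem (L'.le_normalClosure ((le_sup_right (α := IntermediateField ℚ QBar) (a := L₀))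
      (IntermediateField.mem_adjoin_simple_self ℚ ζ))) i
  obtain ⟨Y, hY0, hY⟩ := exists_kummer_root (fun s => M (c s))
    (fun s hs t ht => by
      rw [hinert s hs, hcoc s (inG_le_decG 2 hs) t (inG_le_decG 2 ht), hMadd, Units.val_mul])
    L (fun s hs t ht hst => by
      congr 1
      have hu : t⁻¹ * s ∈ I2 := mul_mem (inv_mem ht) hs
      have h0 : c (t⁻¹ * s) = 0 := hc0 _ hu fun x hx => by
        rw [AlgEquiv.mul_apply, hst x (hL₀L hx)]; exact t.symm_apply_apply x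
      calc c s = c (t * (t⁻¹ * s)) := by rw [mul_inv_cancel_left]
        _ = c t := by
          rw [hcoc t (inG_le_decG 2 ht) _ (inG_le_decG 2 hu), h0, mul_zero, zero_add])
    fun s => hML _
  -- the invariant element
  have hδ0 : δ ≠ 0 := fun h => by
    rw [h, nrm_zero, zero_pow two_ne_zero] at hδ
    exact (zpow_pos (inv_pos.mpr two_pos) m).ne hδ
  set x : QBar := g Y / (Y * M (c g) * δ) with hx
  have hfix : ∀ s ∈ I2, s x = x := by
    intro s hs
    set s' := g⁻¹ * s * g with hs'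
    have hs'I : s' ∈ I2 := conj_mem_inG hg hs
    have hgs : g * s' = s * g := by rw [hs', mul_assoc g⁻¹, mul_inv_cancel_left]
    have h1 : s (g Y) = M ((j : A) * c s') * g Y := by
      rw [← AlgEquiv.mul_apply, ← hgs, AlgEquiv.mul_apply, hY s' hs'I, map_mul, hact g j hj]
    have h2 : (j : A) * c s' = c s + (χ s * c g - c g) - e * c s' := by
      have := hcoc g hg s' (inG_le_decG 2 hs'I)
      rw [hgs, hcoc s (inG_le_decG 2 hs) g hg] at this
      rw [he]
      linear_combination -this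
    have hsgn : s δ = (M (e * c s') : QBar) * δ := by
      rcases hδσ s (inG_le_decG 2 hs) with h | h
      · have h' : s' δ = δ := by
          rw [hs', AlgEquiv.mul_apply, AlgEquiv.mul_apply]
          rcases hδσ g hg with hd | hd
          · rw [hd, h]; conv_lhs => rw [← hd]
            exact g.symm_apply_apply δ
          · rw [hd, map_neg, h, ← hd]; exact g.symm_apply_apply δ
        rw [(hres s' hs'I).1 h', hM0, Units.val_one, one_mul, h]
      · have h' : s' δ = -δ := by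
          rw [hs', AlgEquiv.mul_apply, AlgEquiv.mul_apply]
          rcases hδσ g hg with hd | hd
          · rw [hd, h, map_neg]; congr 1; conv_lhs => rw [← hd]
            exact g.symm_apply_apply δ
          · rw [hd, map_neg, h, map_neg, map_neg, neg_neg]
            rw [show g⁻¹ δ = -δ by
              have := g.symm_apply_apply δ
              rw [hd, map_neg] at this
              rw [← neg_neg (g⁻¹ δ)]; exact congrArg Neg.neg this]
        rw [(hres s' hs'I).2 h', hMe, Units.val_neg, Units.val_one, neg_one_mul, h]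
    have hs2 : (M (e * c s') : QBar) * M (e * c s') = 1 := by
      rw [← Units.val_mul, ← hMadd, ← two_mul, ← mul_assoc, h2e, zero_mul, hM0, Units.val_one]
    rw [hx, map_div₀, map_mul, map_mul, h1, hY s hs, hinert s hs, hsgn, h2, hMsub, hMadd, hMsub]
    simp only [Units.val_div_eq_div_val, Units.val_mul]
    have n1 := (M (c s)).ne_zero
    have n2 := (M (χ s * c g)).ne_zero
    have n3 := (M (c g)).ne_zero
    have n4 := (M (e * c s')).ne_zero
    field_simp
    linear_combination -(g Y) * hs2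
  have hgY : g Y ≠ 0 := (_root_.map_ne_zero g).mpr hY0
  have hx0 : x ≠ 0 := div_ne_zero hgY (mul_ne_zero (mul_ne_zero hY0 (M (c g)).ne_zero) hδ0)
  obtain ⟨k, hk⟩ := isLevel_inG.nrm_pow_relIndex hx0 hfix
  rw [Subgroup.relIndex_self, pow_one] at hk
  have hMn : nrm 2 (M (c g) : QBar) = 1 :=
    nrm_root 2 (pow_pos two_pos N) (hMroot (c g))
  have hxn : nrm 2 x = (nrm 2 δ)⁻¹ := by
    rw [hx, nrm_div, nrm_mul, nrm_mul, nrm_map 2 hg, hMn, mul_one,
      div_mul_eq_div_div, div_self (nrm_pos 2 hY0).ne', one_div]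
  have h4 : ((2 : ℝ)⁻¹) ^ (k + k) = ((2 : ℝ)⁻¹) ^ (-m) := by
    rw [zpow_add₀ (by norm_num), zpow_neg, ← hδ]
    rw [Nat.cast_ofNat] at hk
    rw [← hk, hxn, ← inv_pow, sq]
  have h5 := zpow_right_injective₀ (by norm_num : (0 : ℝ) < 2⁻¹) (by norm_num) h4
  exact (Int.not_even_iff_odd.mpr hm.neg) ⟨k, h5.symm⟩

variable {A : Type} [CommRing A] [IsLocalRing A]

open IsLocalRing

/-- The ratio of the diagonal characters of an ordinary class at `2`, tres ramifiee residually,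
is cyclotomic modulo an ideal containing a power of `2`. -/
theorem sub_mul_mem_of_tres (h2 : (2 : A) ∈ maximalIdeal A) (I : Ideal A) {N : ℕ}
    (h2N : (2 : A) ^ N ∈ I) (x c z : GQ → A)
    (hz : ∀ σ ∈ D2, IsUnit (z σ))
    (hxmul : ∀ s ∈ D2, ∀ t ∈ D2, c (s * t) = x s * c t + c s * z t)
    (hzmul : ∀ s ∈ D2, ∀ t ∈ D2, z (s * t) = z s * z t)
    (hI : ∀ τ ∈ I2, z τ - 1 ∈ I ∧
      ∀ j : ℕ, (∀ μ : QBar, μ ^ 2 ^ N = 1 → τ μ = μ ^ j) → x τ - j ∈ I)
    (hlev : ∃ L : IntermediateField ℚ QBar, FiniteDimensional ℚ L ∧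
      ∀ σ ∈ I2, (∀ y ∈ L, σ y = y) → c σ ∈ I)
    (δ : QBar) {m : ℤ} (hm : Odd m) (hδ : nrm 2 δ ^ 2 = ((2 : ℝ)⁻¹) ^ m)
    (hδσ : ∀ σ ∈ D2, σ δ = δ ∨ σ δ = -δ)
    (hres : ∀ τ ∈ I2, (τ δ = δ → c τ ∈ maximalIdeal A) ∧
      (τ δ = -δ → c τ - 1 ∈ maximalIdeal A))
    {g : GQ} (hg : g ∈ D2) {j : ℕ} (hj : ∀ μ : QBar, μ ^ 2 ^ N = 1 → g μ = μ ^ j) :
    x g - (j : A) * z g ∈ I := by
  set e := x g - (j : A) * z g with he
  by_contra hne
  -- kill the maximal ideal times the error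
  set J : Ideal A := I ⊔ maximalIdeal A * Ideal.span {e} with hJ
  have heJ : e ∉ J := by
    intro h
    obtain ⟨a, ha, b, hb, hab⟩ := Submodule.mem_sup.mp h
    obtain ⟨y, hy, rfl⟩ := Ideal.mem_mul_span_singleton.mp hb
    obtain ⟨u, hu⟩ := isUnit_one_sub_self_of_mem_nonunits y hy
    refine hne ?_
    have : (u : A) * e = a := by rw [hu]; linear_combination -hab
    rw [← Units.inv_mul_cancel_left u e, this]
    exact I.mul_mem_left _ ha
  set π := Ideal.Quotient.mk J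
  have hπI : ∀ {a : A}, a ∈ I → π a = 0 := fun h =>
    Ideal.Quotient.eq_zero_iff_mem.mpr (Ideal.mem_sup_left h)
  have hπe : ∀ {a : A}, a ∈ maximalIdeal A → π a * π e = 0 := fun h => by
    rw [← map_mul, Ideal.Quotient.eq_zero_iff_mem]
    exact Ideal.mem_sup_right (Ideal.mul_mem_mul h (Ideal.mem_span_singleton_self e))
  let w : GQ → A ⧸ J := fun σ => Ring.inverse (π (z σ))
  have hw : ∀ σ ∈ D2, π (z σ) * w σ = 1 := fun σ hσ =>
    Ring.mul_inverse_cancel _ ((hz σ hσ).map π)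
  have hjz : π e * w g = π (x g) * w g - j := by
    rw [he, map_sub, map_mul, map_natCast, sub_mul, mul_assoc, hw g hg, mul_one]
  have hwI : ∀ τ ∈ I2, π (z τ) = 1 ∧ w τ = 1 := fun τ hτ => by
    have h1 : π (z τ) = 1 := by
      rw [← sub_eq_zero, ← map_one π, ← map_sub]; exact hπI (hI τ hτ).1
    exact ⟨h1, by rw [show w τ = Ring.inverse (π (z τ)) from rfl, h1, Ring.inverse_one]⟩
  have key := cyclotomic_core (A := A ⧸ J) (N := N)
    (by rw [← map_ofNat π, ← map_pow]; exact hπI h2N)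
    (fun σ => π (x σ) * w σ) (fun σ => π (c σ) * w σ) δ hm hδ hδσ
    (fun s hs t ht => by
      have h1 := hw _ hs
      have h2 := hw _ ht
      have h3 := hw _ (mul_mem hs ht)
      rw [hzmul s hs t ht, map_mul] at h3
      have h4 : w (s * t) = w s * w t := by
        linear_combination (w s * w t) * h3 - w (s * t) * (π (z t) * w t) * h1 - w (s * t) * h2
      rw [h4, hxmul s hs t ht, map_add, map_mul, map_mul]
      linear_combination (π (c s) * w s) * h2)
    (fun τ hτ k hk => by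
      rw [(hwI τ hτ).2, mul_one, ← sub_eq_zero, ← map_natCast π k, ← map_sub]
      exact hπI ((hI τ hτ).2 k hk))
    (by
      obtain ⟨L, hL, h⟩ := hlev
      exact ⟨L, hL, fun σ hσ hfix => by rw [hπI (h σ hσ hfix), zero_mul]⟩)
    hg hj
    (by rw [← hjz, ← mul_assoc, ← map_ofNat π, hπe h2, zero_mul])
    fun τ hτ => by
      rw [← hjz, (hwI τ hτ).2, mul_one]
      refine ⟨fun h => ?_, fun h => ?_⟩
      · rw [mul_right_comm, mul_comm (π e), hπe ((hres τ hτ).1 h), zero_mul]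
      · have := hπe ((hres τ hτ).2 h)
        rw [map_sub, map_one] at this
        linear_combination w g * this
  refine heJ (Ideal.Quotient.eq_zero_iff_mem.mp ?_)
  have h0 : π e * w g = 0 := by rw [hjz]; exact sub_eq_zero.mpr key
  calc π e = π e * (π (z g) * w g) := by rw [hw g hg, mul_one]
    _ = π (z g) * (π e * w g) := by ring
    _ = 0 := by rw [h0, mul_zero]

/-- The square of the unramified character is the determinant character. -/
theorem sq_sub_mem_of_tres (h2 : (2 : A) ∈ maximalIdeal A) (I : Ideal A) {N : ℕ} (hN : N ≠ 0)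
    (h2N : (2 : A) ^ N ∈ I) (x c z : GQ → A)
    (hz : ∀ σ ∈ D2, IsUnit (z σ))
    (hxmul : ∀ s ∈ D2, ∀ t ∈ D2, c (s * t) = x s * c t + c s * z t)
    (hzmul : ∀ s ∈ D2, ∀ t ∈ D2, z (s * t) = z s * z t)
    (η : GQ → A)
    (hdet : ∀ σ ∈ D2, ∀ j : ℕ, (∀ μ : QBar, μ ^ 2 ^ N = 1 → σ μ = μ ^ j) →
      x σ * z σ - j * η σ ∈ I)
    (hI : ∀ τ ∈ I2, z τ - 1 ∈ I ∧ η τ - 1 ∈ I)
    (hlev : ∃ L : IntermediateField ℚ QBar, FiniteDimensional ℚ L ∧
      ∀ σ ∈ I2, (∀ y ∈ L, σ y = y) → c σ ∈ I)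
    (δ : QBar) {m : ℤ} (hm : Odd m) (hδ : nrm 2 δ ^ 2 = ((2 : ℝ)⁻¹) ^ m)
    (hδσ : ∀ σ ∈ D2, σ δ = δ ∨ σ δ = -δ)
    (hres : ∀ τ ∈ I2, (τ δ = δ → c τ ∈ maximalIdeal A) ∧
      (τ δ = -δ → c τ - 1 ∈ maximalIdeal A))
    {g : GQ} (hg : g ∈ D2) :
    z g ^ 2 - η g ∈ I := by
  haveI : NeZero (2 ^ N) := ⟨pow_ne_zero _ two_ne_zero⟩
  obtain ⟨j, hj⟩ := exists_pow_roots (2 ^ N) g
  have hx := sub_mul_mem_of_tres h2 I h2N x c z hz hxmul hzmul (fun τ hτ => ⟨(hI τ hτ).1,
    fun k hk => by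
      have h := hdet τ (inG_le_decG 2 hτ) k hk
      have e1 : x τ - (k : A) =
          (x τ * z τ - k * η τ) - x τ * (z τ - 1) + k * (η τ - 1) := by ring
      rw [e1]
      exact add_mem (sub_mem h (I.mul_mem_left _ (hI τ hτ).1)) (I.mul_mem_left _ (hI τ hτ).2)⟩)
    hlev δ hm hδ hδσ hres hg hj
  have hju : IsUnit (j : A) := by
    have hodd : Odd j := by
      by_contra hev
      obtain ⟨i, rfl⟩ := Nat.not_odd_iff_even.mp hev
      have h1 : (-1 : QBar) ^ 2 ^ N = 1 :=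
        Even.neg_one_pow ((even_two (α := ℕ)).pow_of_ne_zero hN)
      have h2' := hj _ h1
      rw [map_neg, map_one, Even.neg_one_pow ⟨i, rfl⟩] at h2'
      norm_num at h2'
    obtain ⟨i, rfl⟩ := hodd
    by_contra hnu
    refine one_notMem_nonunits (α := A) ?_
    show (1 : A) ∈ maximalIdeal A
    have e1 : (1 : A) = ((2 * i + 1 : ℕ) : A) - 2 * (i : A) := by push_cast; ring
    rw [e1]
    exact sub_mem ((mem_maximalIdeal _).mpr hnu) (Ideal.mul_mem_right _ _ h2)
  obtain ⟨u, hu⟩ := hju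
  have h1 : (u : A) * (z g ^ 2 - η g) ∈ I := by
    rw [hu, show (j : A) * (z g ^ 2 - η g) =
      (x g * z g - j * η g) - (x g - j * z g) * z g by ring]
    exact sub_mem (hdet g hg j hj) (I.mul_mem_right _ hx)
  rw [← Units.inv_mul_cancel_left u (z g ^ 2 - η g)]
  exact I.mul_mem_left _ h1

end Fermat.Agent.TwoAdic.Deform
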